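/-
S05 (Frey curve mod-p representation unramified at odd q ≠ p): shared definitions.
Elementary x-coordinate approach (owner helper5). No sorry in this file.
-/
import Mathlib.AlgebraicGeometry.EllipticCurve.Affine.Point
import Mathlib.RingTheory.Valuation.ValuationSubring

set_option autoImplicit false

namespace Fermat.Agent.S05

open WeierstrassCurve

/-- A `ℚ`-valued additive valuation (junk value at `0`) whose valuation ring is `A`.
Everything else (`ord 1 = 0`, `ord (-x) = ord x`, `ord x⁻¹ = - ord x`,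
`min (ord x) (ord y) ≤ ord (x+y)`, units iff `ord = 0`, nonunits iff `0 < ord`) is derived
in `OrdApi.lean`. -/
structure IsOrd {K : Type*} [Field K] (A : ValuationSubring K) (ord : K → ℚ) : Prop where
  map_mul : ∀ {x y : K}, x ≠ 0 → y ≠ 0 → ord (x * y) = ord x + ord y
  mem_iff : ∀ {x : K}, x ≠ 0 → (x ∈ A ↔ 0 ≤ ord x)

/-- `x` is a unit of the valuation ring: nonzero of valuation `0`. -/
def IsU {K : Type*} [Field K] (ord : K → ℚ) (x : K) : Prop := x ≠ 0 ∧ ord x = 0

/-- `τ` preserves `A` and acts trivially on its residue field (what inertia elements do). -/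
def IsInertial {K : Type*} [Field K] (A : ValuationSubring K) (τ : K → K) : Prop :=
  ∀ a ∈ A, τ a ∈ A ∧ τ a - a ∈ A.nonunits

section curve

variable {K : Type*} [Field K] (W : WeierstrassCurve K)

/-- `F(x) = 4x³ + b₂x² + 2b₄x + b₆`; for a point `(x,y)` one has `(2y + a₁x + a₃)² = F(x)`. -/
def Fpoly (x : K) : K := 4 * x ^ 3 + W.b₂ * x ^ 2 + 2 * W.b₄ * x + W.b₆

/-- `F'(x)`. -/
def Fder (x : K) : K := 12 * x ^ 2 + 2 * W.b₂ * x + 2 * W.b₄

/-- `Y = 2y + a₁x + a₃`. Negation of points is `Y ↦ -Y`. -/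
def Yc (x y : K) : K := 2 * y + W.a₁ * x + W.a₃

/-- numerator of the duplication formula: `x(2P) F(x) = Φ₂(x)`. -/
def Phi2 (x : K) : K := x ^ 4 - W.b₄ * x ^ 2 - 2 * W.b₆ * x - W.b₈

/-- numerator of `x(P+Q) x(P-Q)`. -/
def Nnum (x₁ x₂ : K) : K := x₁ ^ 2 * x₂ ^ 2 - W.b₄ * x₁ * x₂ - W.b₆ * (x₁ + x₂) - W.b₈

/-- numerator of `x(P+Q) + x(P-Q)`. -/
def Snum (x₁ x₂ : K) : K :=
  2 * x₁ * x₂ * (x₁ + x₂) + W.b₂ * x₁ * x₂ + W.b₄ * (x₁ + x₂) + W.b₆

/-- shifted constants: with `ξ = x - r` and `F(r) = 0` one has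
`F(x) = ξ (4ξ² + β₂ ξ + 4α₄)`. -/
def beta2 (r : K) : K := W.b₂ + 12 * r

def alpha4 (r : K) : K := (W.b₄ + r * W.b₂ + 6 * r ^ 2) / 2

/-- all coefficients integral -/
def IsIntegralW (A : ValuationSubring K) : Prop :=
  W.a₁ ∈ A ∧ W.a₂ ∈ A ∧ W.a₃ ∈ A ∧ W.a₄ ∈ A ∧ W.a₆ ∈ A

end curve

section points

variable {K : Type*} [Field K] {W : Affine K}

/-- the points with a pole of order at least `-b` at the place (`b < 0`), together with `0`.
`E₁ = ⋃_{b<0} poleSet b`. -/
def poleSet (W : Affine K) (ord : K → ℚ) (b : ℚ) : Set W.Point :=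
  {P | P = 0 ∨ ∃ (x y : K) (h : W.Nonsingular x y), P = Affine.Point.some x y h ∧ x ≠ 0 ∧ ord x ≤ b}

/-- `E₁`: kernel of reduction = points whose `x`-coordinate is not integral, and `0`. -/
def E1 (W : Affine K) (ord : K → ℚ) : Set W.Point :=
  {P | P = 0 ∨ ∃ (x y : K) (h : W.Nonsingular x y), P = Affine.Point.some x y h ∧ x ≠ 0 ∧ ord x < 0}

/-- clamp of the valuation of `ξ` to `[0,h]`, with `ξ = 0 ↦ h`. -/
noncomputable def wK (ord : K → ℚ) (h : ℚ) (ξ : K) : ℚ :=
  open Classical in if ξ = 0 then h else max 0 (min (ord ξ) h)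

/-- the "distance to the identity component" of a point, w.r.t. the shift `r`
(node of the reduction at `x ≡ r`) and `h = ord α₄`. -/
noncomputable def wPt (ord : K → ℚ) (h : ℚ) (r : K) : W.Point → ℚ
  | .zero => 0
  | .some x _ _ => wK ord h (x - r)

end points

end Fermat.Agent.S05
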