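/-
S05 package A (helper33): derived API for `IsOrd` (a `ℚ`-valued additive valuation with junk value
at `0`) and the "Newton polygon of a quadratic" lemmas.  No sorry.

Everything is in the namespace `Fermat.Agent.S05.IsOrd`, to be used with dot notation on a
hypothesis `hord : IsOrd A ord`, e.g. `hord.ord_one`, `hord.le_ord_add hx hy hxy`.
-/
import Fermat.Agent.S05.Defs

set_option autoImplicit false

namespace Fermat.Agent.S05

namespace IsOrd

variable {K : Type*} [Field K] {A : ValuationSubring K} {ord : K → ℚ} (hord : IsOrd A ord)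
include hord

/-! ### Multiplicative structure -/

theorem ord_mul {x y : K} (hx : x ≠ 0) (hy : y ≠ 0) : ord (x * y) = ord x + ord y :=
  hord.map_mul hx hy

theorem ord_one : ord (1 : K) = 0 := by
  have h := hord.map_mul (one_ne_zero (α := K)) (one_ne_zero (α := K))
  rw [one_mul] at h
  linarith

theorem ord_neg_one : ord (-1 : K) = 0 := by
  have hne : (-1 : K) ≠ 0 := neg_ne_zero.2 one_ne_zero
  have h := hord.map_mul hne hne
  rw [neg_one_mul, neg_neg, hord.ord_one] at h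
  linarith

theorem ord_neg (x : K) : ord (-x) = ord x := by
  rcases eq_or_ne x 0 with rfl | hx
  · rw [neg_zero]
  · have hne : (-1 : K) ≠ 0 := neg_ne_zero.2 one_ne_zero
    have h := hord.map_mul hne hx
    rw [neg_one_mul, hord.ord_neg_one, zero_add] at h
    exact h

theorem ord_sub_comm (x y : K) : ord (x - y) = ord (y - x) := by
  rw [← neg_sub, hord.ord_neg]

theorem ord_inv {x : K} (hx : x ≠ 0) : ord x⁻¹ = - ord x := by
  have h := hord.map_mul hx (inv_ne_zero hx)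
  rw [mul_inv_cancel₀ hx, hord.ord_one] at h
  linarith

theorem ord_div {x y : K} (hx : x ≠ 0) (hy : y ≠ 0) : ord (x / y) = ord x - ord y := by
  rw [div_eq_mul_inv, hord.map_mul hx (inv_ne_zero hy), hord.ord_inv hy]
  ring

theorem ord_pow {x : K} (hx : x ≠ 0) (n : ℕ) : ord (x ^ n) = n * ord x := by
  induction n with
  | zero => simp [hord.ord_one]
  | succ k ih =>
    rw [pow_succ, hord.map_mul (pow_ne_zero k hx) hx, ih]
    push_cast
    ring

theorem ord_sq {x : K} (hx : x ≠ 0) : ord (x ^ 2) = 2 * ord x := by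
  rw [hord.ord_pow hx 2]
  norm_num

theorem ord_zpow {x : K} (hx : x ≠ 0) (n : ℤ) : ord (x ^ n) = n * ord x := by
  cases n with
  | ofNat k =>
    simp only [Int.ofNat_eq_natCast, zpow_natCast, Int.cast_natCast]
    exact hord.ord_pow hx k
  | negSucc k =>
    rw [zpow_negSucc, hord.ord_inv (pow_ne_zero _ hx), hord.ord_pow hx]
    push_cast
    ring

theorem ord_mul_mul {x y z : K} (hx : x ≠ 0) (hy : y ≠ 0) (hz : z ≠ 0) :
    ord (x * y * z) = ord x + ord y + ord z := by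
  rw [hord.map_mul (mul_ne_zero hx hy) hz, hord.map_mul hx hy]

/-! ### Membership in the valuation ring, units, nonunits -/

theorem mem_iff' {x : K} (hx : x ≠ 0) : x ∈ A ↔ 0 ≤ ord x := hord.mem_iff hx

theorem mem_of_nonneg {x : K} (hx : x ≠ 0) (h : 0 ≤ ord x) : x ∈ A := (hord.mem_iff hx).2 h

theorem nonneg_of_mem {x : K} (hx : x ≠ 0) (h : x ∈ A) : 0 ≤ ord x := (hord.mem_iff hx).1 h

/-- membership for possibly zero elements -/
theorem mem_iff_or {x : K} : x ∈ A ↔ x = 0 ∨ 0 ≤ ord x := by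
  rcases eq_or_ne x 0 with rfl | hx
  · simp [A.zero_mem]
  · simp [hx, hord.mem_iff hx]

theorem not_mem_iff {x : K} (hx : x ≠ 0) : x ∉ A ↔ ord x < 0 := by
  rw [hord.mem_iff hx, not_le]

theorem inv_mem_iff {x : K} (hx : x ≠ 0) : x⁻¹ ∈ A ↔ ord x ≤ 0 := by
  rw [hord.mem_iff (inv_ne_zero hx), hord.ord_inv hx]
  constructor <;> intro h <;> linarith

/-- nonzero nonunits are the elements of positive valuation -/
theorem mem_nonunits_iff {x : K} (hx : x ≠ 0) : x ∈ A.nonunits ↔ 0 < ord x := by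
  rw [ValuationSubring.mem_nonunits_iff_or, hord.inv_mem_iff hx, not_le]
  simp [hx]

theorem mem_nonunits_iff_or {x : K} : x ∈ A.nonunits ↔ x = 0 ∨ 0 < ord x := by
  rcases eq_or_ne x 0 with rfl | hx
  · simp
  · simp [hx, hord.mem_nonunits_iff hx]

theorem mem_nonunits_of_pos {x : K} (h : 0 < ord x) : x ∈ A.nonunits :=
  hord.mem_nonunits_iff_or.2 (Or.inr h)

theorem pos_of_mem_nonunits {x : K} (hx : x ≠ 0) (h : x ∈ A.nonunits) : 0 < ord x :=
  (hord.mem_nonunits_iff hx).1 h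

theorem nonunits_subset {x : K} (h : x ∈ A.nonunits) : x ∈ A := by
  rcases eq_or_ne x 0 with rfl | hx
  · exact A.zero_mem
  · exact hord.mem_of_nonneg hx (hord.pos_of_mem_nonunits hx h).le

/-- `IsU` means: a unit of the valuation ring -/
theorem isU_iff {x : K} : IsU ord x ↔ x ≠ 0 ∧ x ∈ A ∧ x⁻¹ ∈ A := by
  constructor
  · rintro ⟨hx, h0⟩
    refine ⟨hx, hord.mem_of_nonneg hx h0.ge, (hord.inv_mem_iff hx).2 h0.le⟩
  · rintro ⟨hx, h1, h2⟩
    exact ⟨hx, le_antisymm ((hord.inv_mem_iff hx).1 h2) (hord.nonneg_of_mem hx h1)⟩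

theorem isU_iff_mem_not_nonunits {x : K} : IsU ord x ↔ x ∈ A ∧ x ∉ A.nonunits := by
  rw [hord.mem_nonunits_iff_or]
  constructor
  · rintro ⟨hx, h0⟩
    refine ⟨hord.mem_of_nonneg hx h0.ge, ?_⟩
    rintro (h | h)
    · exact hx h
    · linarith
  · rintro ⟨h1, h2⟩
    push Not at h2
    exact ⟨h2.1, le_antisymm h2.2 (hord.nonneg_of_mem h2.1 h1)⟩

theorem isU_one : IsU ord (1 : K) := ⟨one_ne_zero, hord.ord_one⟩

theorem isU_neg_one : IsU ord (-1 : K) := ⟨neg_ne_zero.2 one_ne_zero, hord.ord_neg_one⟩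

theorem IsU_mul {x y : K} (hx : IsU ord x) (hy : IsU ord y) : IsU ord (x * y) :=
  ⟨mul_ne_zero hx.1 hy.1, by rw [hord.map_mul hx.1 hy.1, hx.2, hy.2, add_zero]⟩

theorem IsU_inv {x : K} (hx : IsU ord x) : IsU ord x⁻¹ :=
  ⟨inv_ne_zero hx.1, by rw [hord.ord_inv hx.1, hx.2, neg_zero]⟩

theorem IsU_div {x y : K} (hx : IsU ord x) (hy : IsU ord y) : IsU ord (x / y) := by
  rw [div_eq_mul_inv]
  exact hord.IsU_mul hx (hord.IsU_inv hy)

theorem IsU_neg {x : K} (hx : IsU ord x) : IsU ord (-x) :=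
  ⟨neg_ne_zero.2 hx.1, by rw [hord.ord_neg, hx.2]⟩

theorem IsU_pow {x : K} (hx : IsU ord x) (n : ℕ) : IsU ord (x ^ n) :=
  ⟨pow_ne_zero n hx.1, by rw [hord.ord_pow hx.1, hx.2, mul_zero]⟩

theorem IsU_mem {x : K} (hx : IsU ord x) : x ∈ A := hord.mem_of_nonneg hx.1 hx.2.ge

theorem ord_mul_of_isU_left {u x : K} (hu : IsU ord u) (hx : x ≠ 0) : ord (u * x) = ord x := by
  rw [hord.map_mul hu.1 hx, hu.2, zero_add]

theorem ord_mul_of_isU_right {u x : K} (hu : IsU ord u) (hx : x ≠ 0) : ord (x * u) = ord x := by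
  rw [hord.map_mul hx hu.1, hu.2, add_zero]

/-- `A` is integrally closed, square version -/
theorem sq_mem {x : K} (h : x ^ 2 ∈ A) : x ∈ A := by
  rcases eq_or_ne x 0 with rfl | hx
  · exact A.zero_mem
  · have h1 := hord.nonneg_of_mem (pow_ne_zero 2 hx) h
    rw [hord.ord_sq hx] at h1
    exact hord.mem_of_nonneg hx (by linarith)

theorem pow_mem {x : K} {n : ℕ} (hn : n ≠ 0) (h : x ^ n ∈ A) : x ∈ A := by
  rcases eq_or_ne x 0 with rfl | hx
  · exact A.zero_mem
  · have h1 := hord.nonneg_of_mem (pow_ne_zero n hx) h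
    rw [hord.ord_pow hx] at h1
    have hn' : (0 : ℚ) < n := by exact_mod_cast Nat.pos_of_ne_zero hn
    exact hord.mem_of_nonneg hx (by
      by_contra hlt
      push Not at hlt
      have := mul_neg_of_pos_of_neg hn' hlt
      linarith)

/-! ### The ultrametric inequality -/

/-- `min (ord x) (ord y) ≤ ord (x + y)` -/
theorem le_ord_add {x y : K} (hx : x ≠ 0) (hy : y ≠ 0) (hxy : x + y ≠ 0) :
    min (ord x) (ord y) ≤ ord (x + y) := by
  -- wlog `ord x ≤ ord y`
  have key : ∀ {x y : K}, x ≠ 0 → y ≠ 0 → x + y ≠ 0 → ord x ≤ ord y → ord x ≤ ord (x + y) := by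
    intro x y hx hy hxy hle
    have h1 : y / x ∈ A := by
      refine hord.mem_of_nonneg (div_ne_zero hy hx) ?_
      rw [hord.ord_div hy hx]
      linarith
    have h2 : 1 + y / x ∈ A := A.add_mem _ _ A.one_mem h1
    have h3 : x + y = x * (1 + y / x) := by field_simp
    have h4 : 1 + y / x ≠ 0 := by
      intro h0
      apply hxy
      rw [h3, h0, mul_zero]
    rw [h3, hord.map_mul hx h4]
    have := hord.nonneg_of_mem h4 h2
    linarith
  rcases le_total (ord x) (ord y) with hle | hle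
  · rw [min_eq_left hle]
    exact key hx hy hxy hle
  · rw [min_eq_right hle, add_comm]
    exact key hy hx (by rwa [add_comm]) hle

/-- lower bound version: if `c ≤ ord x` and `c ≤ ord y` then `c ≤ ord (x + y)` -/
theorem le_ord_add_of_le {x y : K} {c : ℚ} (hx : x ≠ 0) (hy : y ≠ 0) (hxy : x + y ≠ 0)
    (h1 : c ≤ ord x) (h2 : c ≤ ord y) : c ≤ ord (x + y) :=
  (le_min h1 h2).trans (hord.le_ord_add hx hy hxy)

theorem le_ord_sub_of_le {x y : K} {c : ℚ} (hx : x ≠ 0) (hy : y ≠ 0) (hxy : x - y ≠ 0)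
    (h1 : c ≤ ord x) (h2 : c ≤ ord y) : c ≤ ord (x - y) := by
  rw [sub_eq_add_neg] at hxy ⊢
  exact hord.le_ord_add_of_le hx (neg_ne_zero.2 hy) hxy h1 (by rwa [hord.ord_neg])

/-- the ultrametric inequality allowing zero summands: if each nonzero summand has
valuation `≥ c`, so has the sum when it is nonzero. -/
theorem le_ord_add_of_le' {x y : K} {c : ℚ} (hxy : x + y ≠ 0)
    (h1 : x ≠ 0 → c ≤ ord x) (h2 : y ≠ 0 → c ≤ ord y) : c ≤ ord (x + y) := by
  rcases eq_or_ne x 0 with rfl | hx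
  · rw [zero_add] at hxy ⊢
    exact h2 hxy
  rcases eq_or_ne y 0 with rfl | hy
  · rw [add_zero] at hxy ⊢
    exact h1 hxy
  exact hord.le_ord_add_of_le hx hy hxy (h1 hx) (h2 hy)

/-- if `ord x < ord y` then `x + y ≠ 0` -/
theorem add_ne_zero_of_lt {x y : K} (h : ord x < ord y) : x + y ≠ 0 := by
  intro h0
  have : y = -x := by linear_combination h0
  rw [this, hord.ord_neg] at h
  exact lt_irrefl _ h

/-- the dominant term wins: if `ord x < ord y` then `ord (x + y) = ord x` -/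
theorem ord_add_of_lt {x y : K} (hx : x ≠ 0) (hy : y ≠ 0) (h : ord x < ord y) :
    ord (x + y) = ord x := by
  have hxy : x + y ≠ 0 := hord.add_ne_zero_of_lt h
  apply le_antisymm
  · by_contra hlt
    push Not at hlt
    -- `x = (x + y) + (-y)` has valuation `≥ min (ord (x+y)) (ord y) > ord x`
    have h1 : (x + y) + (-y) ≠ 0 := by simpa using hx
    have h2 := hord.le_ord_add hxy (neg_ne_zero.2 hy) h1
    rw [hord.ord_neg] at h2
    have h3 : (x + y) + (-y) = x := by ring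
    rw [h3] at h2
    have : ord x < min (ord (x + y)) (ord y) := lt_min hlt h
    linarith
  · have := hord.le_ord_add hx hy hxy
    rwa [min_eq_left h.le] at this

/-- the dominant term wins, allowing `y = 0` -/
theorem ord_add_of_lt' {x y : K} (hx : x ≠ 0) (h : y ≠ 0 → ord x < ord y) :
    ord (x + y) = ord x := by
  rcases eq_or_ne y 0 with rfl | hy
  · rw [add_zero]
  · exact hord.ord_add_of_lt hx hy (h hy)

theorem ord_add_of_gt {x y : K} (hx : x ≠ 0) (hy : y ≠ 0) (h : ord y < ord x) :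
    ord (x + y) = ord y := by
  rw [add_comm]
  exact hord.ord_add_of_lt hy hx h

theorem ord_sub_of_lt {x y : K} (hx : x ≠ 0) (hy : y ≠ 0) (h : ord x < ord y) :
    ord (x - y) = ord x := by
  rw [sub_eq_add_neg]
  exact hord.ord_add_of_lt hx (neg_ne_zero.2 hy) (by rwa [hord.ord_neg])

theorem ord_sub_of_gt {x y : K} (hx : x ≠ 0) (hy : y ≠ 0) (h : ord y < ord x) :
    ord (x - y) = ord y := by
  rw [hord.ord_sub_comm]
  exact hord.ord_sub_of_lt hy hx h

/-- if `x + y = 0` (or more generally the sum has bigger valuation), the two valuations agree -/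
theorem ord_eq_of_lt_ord_add {x y : K} (hx : x ≠ 0) (hy : y ≠ 0)
    (h : x + y = 0 ∨ min (ord x) (ord y) < ord (x + y)) : ord x = ord y := by
  by_contra hne
  rcases lt_or_gt_of_ne hne with hlt | hlt
  · rcases h with h | h
    · exact hord.add_ne_zero_of_lt hlt h
    · rw [hord.ord_add_of_lt hx hy hlt, min_eq_left hlt.le] at h
      exact lt_irrefl _ h
  · rcases h with h | h
    · rw [add_comm] at h
      exact hord.add_ne_zero_of_lt hlt h
    · rw [hord.ord_add_of_gt hx hy hlt, min_eq_right hlt.le] at h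
      exact lt_irrefl _ h

/-- sum of a unit and a nonunit is a unit -/
theorem IsU_add_nonunit {u x : K} (hu : IsU ord u) (hx : x ∈ A.nonunits) : IsU ord (u + x) := by
  rcases eq_or_ne x 0 with rfl | hx0
  · rwa [add_zero]
  · have hpos := hord.pos_of_mem_nonunits hx0 hx
    have hlt : ord u < ord x := by rw [hu.2]; exact hpos
    exact ⟨hord.add_ne_zero_of_lt hlt, by rw [hord.ord_add_of_lt hu.1 hx0 hlt, hu.2]⟩

theorem IsU_sub_nonunit {u x : K} (hu : IsU ord u) (hx : x ∈ A.nonunits) : IsU ord (u - x) := by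
  rw [sub_eq_add_neg]
  exact hord.IsU_add_nonunit hu (A.nonunits.neg_mem hx)

/-- if `x ∈ A` is congruent to a unit modulo the maximal ideal, it is a unit -/
theorem IsU_of_sub_mem_nonunits {u x : K} (hu : IsU ord u) (hx : x - u ∈ A.nonunits) :
    IsU ord x := by
  have : x = u + (x - u) := by ring
  rw [this]
  exact hord.IsU_add_nonunit hu hx

/-! ### Newton polygon of a quadratic: `r₁ + r₂ = S`, `r₁ * r₂ = N` -/

/-- (a) if `2 ord S < ord N` the two roots have valuations `ord S` and `ord N - ord S`. -/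
theorem newton_a {r₁ r₂ : K} (h₁ : r₁ ≠ 0) (h₂ : r₂ ≠ 0) (hS : r₁ + r₂ ≠ 0)
    (h : 2 * ord (r₁ + r₂) < ord (r₁ * r₂)) :
    (ord r₁ = ord (r₁ + r₂) ∧ ord r₂ = ord (r₁ * r₂) - ord (r₁ + r₂)) ∨
      (ord r₂ = ord (r₁ + r₂) ∧ ord r₁ = ord (r₁ * r₂) - ord (r₁ + r₂)) := by
  have hN := hord.map_mul h₁ h₂
  rcases lt_trichotomy (ord r₁) (ord r₂) with hlt | heq | hgt
  · left
    have hs := hord.ord_add_of_lt h₁ h₂ hlt
    exact ⟨hs.symm, by rw [hN, hs]; ring⟩
  · exfalso
    have := hord.le_ord_add h₁ h₂ hS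
    rw [heq, min_self] at this
    rw [hN, heq] at h
    linarith
  · right
    have hs := hord.ord_add_of_gt h₁ h₂ hgt
    exact ⟨hs.symm, by rw [hN, hs]; ring⟩

/-- (b) if `ord N = 2c` and `ord S ≥ c` (or `S = 0`) both roots have valuation `c`. -/
theorem newton_b {r₁ r₂ : K} {c : ℚ} (h₁ : r₁ ≠ 0) (h₂ : r₂ ≠ 0) (hN : ord (r₁ * r₂) = 2 * c)
    (hS : r₁ + r₂ = 0 ∨ c ≤ ord (r₁ + r₂)) : ord r₁ = c ∧ ord r₂ = c := by
  rw [hord.map_mul h₁ h₂] at hN
  rcases lt_trichotomy (ord r₁) (ord r₂) with hlt | heq | hgt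
  · exfalso
    rcases hS with hS | hS
    · exact hord.add_ne_zero_of_lt hlt hS
    · rw [hord.ord_add_of_lt h₁ h₂ hlt] at hS
      linarith
  · constructor <;> linarith
  · exfalso
    rcases hS with hS | hS
    · rw [add_comm] at hS
      exact hord.add_ne_zero_of_lt hgt hS
    · rw [hord.ord_add_of_gt h₁ h₂ hgt] at hS
      linarith

/-- (c) if `ord N ≥ 2c` and `ord S ≥ c` (or `S = 0`) both roots have valuation `≥ c`. -/
theorem newton_c {r₁ r₂ : K} {c : ℚ} (h₁ : r₁ ≠ 0) (h₂ : r₂ ≠ 0) (hN : 2 * c ≤ ord (r₁ * r₂))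
    (hS : r₁ + r₂ = 0 ∨ c ≤ ord (r₁ + r₂)) : c ≤ ord r₁ ∧ c ≤ ord r₂ := by
  rw [hord.map_mul h₁ h₂] at hN
  rcases lt_trichotomy (ord r₁) (ord r₂) with hlt | heq | hgt
  · rcases hS with hS | hS
    · exact (hord.add_ne_zero_of_lt hlt hS).elim
    · rw [hord.ord_add_of_lt h₁ h₂ hlt] at hS
      exact ⟨hS, hS.trans hlt.le⟩
  · constructor <;> linarith
  · rcases hS with hS | hS
    · rw [add_comm] at hS
      exact (hord.add_ne_zero_of_lt hgt hS).elim
    · rw [hord.ord_add_of_gt h₁ h₂ hgt] at hS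
      exact ⟨hS.trans hgt.le, hS⟩

/-- (c') version of (c) allowing zero roots: `r₁ * r₂ = 0` is allowed. -/
theorem newton_c' {r₁ r₂ : K} {c : ℚ} (hN : r₁ * r₂ ≠ 0 → 2 * c ≤ ord (r₁ * r₂))
    (hS : r₁ + r₂ ≠ 0 → c ≤ ord (r₁ + r₂)) :
    (r₁ ≠ 0 → c ≤ ord r₁) ∧ (r₂ ≠ 0 → c ≤ ord r₂) := by
  rcases eq_or_ne r₁ 0 with rfl | h₁
  · refine ⟨fun h => (h rfl).elim, fun h₂ => ?_⟩
    have := hS (by simpa using h₂)
    simpa using this
  rcases eq_or_ne r₂ 0 with rfl | h₂
  · refine ⟨fun _ => ?_, fun h => (h rfl).elim⟩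
    have := hS (by simpa using h₁)
    simpa using this
  have h := hord.newton_c h₁ h₂ (hN (mul_ne_zero h₁ h₂)) (by
    rcases eq_or_ne (r₁ + r₂) 0 with h0 | h0
    · exact Or.inl h0
    · exact Or.inr (hS h0))
  exact ⟨fun _ => h.1, fun _ => h.2⟩

/-- (d) upper bounds: if `ord N ≤ 2c` and `ord N - c ≤ ord S` (or `S = 0`) then both roots
have valuation `≤ c`. -/
theorem newton_d {r₁ r₂ : K} {c : ℚ} (h₁ : r₁ ≠ 0) (h₂ : r₂ ≠ 0) (hN : ord (r₁ * r₂) ≤ 2 * c)
    (hS : r₁ + r₂ = 0 ∨ ord (r₁ * r₂) - c ≤ ord (r₁ + r₂)) : ord r₁ ≤ c ∧ ord r₂ ≤ c := by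
  rw [hord.map_mul h₁ h₂] at hN hS
  rcases lt_trichotomy (ord r₁) (ord r₂) with hlt | heq | hgt
  · rcases hS with hS | hS
    · exact (hord.add_ne_zero_of_lt hlt hS).elim
    · rw [hord.ord_add_of_lt h₁ h₂ hlt] at hS
      constructor <;> linarith
  · constructor <;> linarith
  · rcases hS with hS | hS
    · rw [add_comm] at hS
      exact (hord.add_ne_zero_of_lt hgt hS).elim
    · rw [hord.ord_add_of_gt h₁ h₂ hgt] at hS
      constructor <;> linarith

/-- (d') if one root has valuation `> c` where `ord N ≤ 2c`, the other root has the smaller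
valuation `ord N - ord r₁`, which is then also the valuation of the sum. -/
theorem newton_d' {r₁ r₂ : K} {c : ℚ} (h₁ : r₁ ≠ 0) (h₂ : r₂ ≠ 0) (hN : ord (r₁ * r₂) ≤ 2 * c)
    (h : c < ord r₁) :
    ord r₂ = ord (r₁ * r₂) - ord r₁ ∧ r₁ + r₂ ≠ 0 ∧ ord (r₁ + r₂) = ord r₂ ∧ ord r₂ < c := by
  have hmul := hord.map_mul h₁ h₂
  have hgt : ord r₂ < ord r₁ := by linarith
  have hne : r₁ + r₂ ≠ 0 := by
    rw [add_comm]
    exact hord.add_ne_zero_of_lt hgt
  refine ⟨by linarith, hne, hord.ord_add_of_gt h₁ h₂ hgt, by linarith⟩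

/-- general principle: the two roots have equal valuation iff ... ; here: if the valuations
differ, the smaller one is the valuation of the sum. -/
theorem newton_min {r₁ r₂ : K} (h₁ : r₁ ≠ 0) (h₂ : r₂ ≠ 0) (hne : ord r₁ ≠ ord r₂) :
    r₁ + r₂ ≠ 0 ∧ ord (r₁ + r₂) = min (ord r₁) (ord r₂) := by
  rcases lt_or_gt_of_ne hne with hlt | hgt
  · exact ⟨hord.add_ne_zero_of_lt hlt, by
      rw [hord.ord_add_of_lt h₁ h₂ hlt, min_eq_left hlt.le]⟩
  · refine ⟨by rw [add_comm]; exact hord.add_ne_zero_of_lt hgt, ?_⟩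
    rw [hord.ord_add_of_gt h₁ h₂ hgt, min_eq_right hgt.le]

end IsOrd

end Fermat.Agent.S05
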