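/-
S05 package D (helper57): x-coordinate formulas for the affine group law.
Pure algebra over any field of characteristic ≠ 2. No sorry.
-/
import Fermat.Agent.S05.Defs

set_option autoImplicit false

namespace Fermat.Agent.S05

open WeierstrassCurve WeierstrassCurve.Affine

section D
variable {F : Type*} [Field F] [DecidableEq F] (W : Affine F)

omit [DecidableEq F] in
theorem Yc_sq {x y : F} (h : W.Equation x y) : Yc W x y ^ 2 = Fpoly W x := by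
  rw [W.equation_iff] at h
  simp only [Yc, Fpoly, WeierstrassCurve.b₂, WeierstrassCurve.b₄, WeierstrassCurve.b₆]
  linear_combination 4 * h

omit [DecidableEq F] in
theorem Yc_negY (x y : F) : Yc W x (W.negY x y) = - Yc W x y := by
  simp only [Yc, negY]
  ring

omit [DecidableEq F] in
/-- `F(x₁) + F(x₂) - (b₂ + 4(x₁+x₂)) (x₁-x₂)² = 2 S(x₁,x₂)`. -/
theorem D_Fpoly_add (x₁ x₂ : F) :
    Fpoly W x₁ + Fpoly W x₂ - (W.b₂ + 4 * (x₁ + x₂)) * (x₁ - x₂) ^ 2 = 2 * Snum W x₁ x₂ := by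
  simp only [Fpoly, Snum]
  ring

omit [DecidableEq F] in
/-- `(F₁-F₂)² - 2 B d² (F₁+F₂) + B² d⁴ = 16 N d²`, `B = b₂ + 4(x₁+x₂)`, `d = x₁ - x₂`. -/
theorem D_Fpoly_mul (x₁ x₂ : F) :
    (Fpoly W x₁ - Fpoly W x₂) ^ 2
      - 2 * (W.b₂ + 4 * (x₁ + x₂)) * (x₁ - x₂) ^ 2 * (Fpoly W x₁ + Fpoly W x₂)
      + (W.b₂ + 4 * (x₁ + x₂)) ^ 2 * (x₁ - x₂) ^ 4 = 16 * Nnum W x₁ x₂ * (x₁ - x₂) ^ 2 := by
  simp only [Fpoly, Nnum, WeierstrassCurve.b₂, WeierstrassCurve.b₄, WeierstrassCurve.b₆,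
    WeierstrassCurve.b₈]
  ring

/-- sum and difference of two affine points with different `x`. -/
theorem xadd (h2 : (2 : F) ≠ 0) {x₁ y₁ x₂ y₂ : F} (h₁ : W.Nonsingular x₁ y₁)
    (h₂ : W.Nonsingular x₂ y₂) (hx : x₁ ≠ x₂) :
    ∃ (x₃ y₃ x₄ y₄ : F) (h₃ : W.Nonsingular x₃ y₃) (h₄ : W.Nonsingular x₄ y₄),
      Point.some x₁ y₁ h₁ + Point.some x₂ y₂ h₂ = Point.some x₃ y₃ h₃ ∧
      Point.some x₁ y₁ h₁ - Point.some x₂ y₂ h₂ = Point.some x₄ y₄ h₄ ∧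
      x₃ * x₄ * (x₁ - x₂) ^ 2 = Nnum W x₁ x₂ ∧
      (x₃ + x₄) * (x₁ - x₂) ^ 2 = Snum W x₁ x₂ ∧
      4 * x₃ * (x₁ - x₂) ^ 2 =
        (Yc W x₁ y₁ - Yc W x₂ y₂) ^ 2 - (W.b₂ + 4 * (x₁ + x₂)) * (x₁ - x₂) ^ 2 ∧
      4 * x₄ * (x₁ - x₂) ^ 2 =
        (Yc W x₁ y₁ + Yc W x₂ y₂) ^ 2 - (W.b₂ + 4 * (x₁ + x₂)) * (x₁ - x₂) ^ 2 := by
  have hd : x₁ - x₂ ≠ 0 := sub_ne_zero.mpr hx
  have h4 : (4 : F) ≠ 0 := by
    have : (4 : F) = 2 * 2 := by norm_num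
    rw [this]; exact mul_ne_zero h2 h2
  have h16 : (16 : F) ≠ 0 := by
    have : (16 : F) = 4 * 4 := by norm_num
    rw [this]; exact mul_ne_zero h4 h4
  have hn₂ : W.Nonsingular x₂ (W.negY x₂ y₂) := (W.nonsingular_neg x₂ y₂).mpr h₂
  have hY₁ := Yc_sq W h₁.1
  have hY₂ := Yc_sq W h₂.1
  -- the two slopes
  set ℓ := W.slope x₁ x₂ y₁ y₂ with hℓ
  set ℓ' := W.slope x₁ x₂ y₁ (W.negY x₂ y₂) with hℓ'
  have eℓ : ℓ * (x₁ - x₂) = y₁ - y₂ := by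
    rw [hℓ, slope_of_X_ne hx, div_mul_cancel₀ _ hd]
  have eℓ' : ℓ' * (x₁ - x₂) = y₁ - W.negY x₂ y₂ := by
    rw [hℓ', slope_of_X_ne hx, div_mul_cancel₀ _ hd]
  have e3 : 4 * W.addX x₁ x₂ ℓ * (x₁ - x₂) ^ 2 =
      (Yc W x₁ y₁ - Yc W x₂ y₂) ^ 2 - (W.b₂ + 4 * (x₁ + x₂)) * (x₁ - x₂) ^ 2 := by
    simp only [addX, Yc, WeierstrassCurve.b₂]
    linear_combination (4 * ℓ * (x₁ - x₂) + 4 * (y₁ - y₂) + 4 * W.a₁ * (x₁ - x₂)) * eℓ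
  have e4 : 4 * W.addX x₁ x₂ ℓ' * (x₁ - x₂) ^ 2 =
      (Yc W x₁ y₁ + Yc W x₂ y₂) ^ 2 - (W.b₂ + 4 * (x₁ + x₂)) * (x₁ - x₂) ^ 2 := by
    simp only [negY] at eℓ'
    simp only [addX, Yc, WeierstrassCurve.b₂]
    linear_combination (4 * ℓ' * (x₁ - x₂) + 4 * (y₁ + y₂ + W.a₁ * x₂ + W.a₃)
      + 4 * W.a₁ * (x₁ - x₂)) * eℓ'
  refine ⟨W.addX x₁ x₂ ℓ, W.addY x₁ x₂ y₁ ℓ, W.addX x₁ x₂ ℓ', W.addY x₁ x₂ y₁ ℓ',
    nonsingular_add h₁ h₂ fun hxy => hx hxy.left,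
    nonsingular_add h₁ hn₂ fun hxy => hx hxy.left, ?_, ?_, ?_, ?_, e3, e4⟩
  · exact Point.add_of_X_ne hx
  · rw [sub_eq_add_neg, Point.neg_some, Point.add_of_X_ne hx]
  · -- product
    have key : 16 * (W.addX x₁ x₂ ℓ * W.addX x₁ x₂ ℓ' * (x₁ - x₂) ^ 2) * (x₁ - x₂) ^ 2
        = 16 * Nnum W x₁ x₂ * (x₁ - x₂) ^ 2 := by
      have hm := D_Fpoly_mul W x₁ x₂
      have : 16 * (W.addX x₁ x₂ ℓ * W.addX x₁ x₂ ℓ' * (x₁ - x₂) ^ 2) * (x₁ - x₂) ^ 2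
          = (4 * W.addX x₁ x₂ ℓ * (x₁ - x₂) ^ 2) * (4 * W.addX x₁ x₂ ℓ' * (x₁ - x₂) ^ 2) := by
        ring
      rw [this, e3, e4, ← hm]
      linear_combination
        (Yc W x₁ y₁ ^ 2 + Fpoly W x₁ - 2 * Yc W x₂ y₂ ^ 2
          - 2 * (W.b₂ + 4 * (x₁ + x₂)) * (x₁ - x₂) ^ 2) * hY₁
        + (Yc W x₂ y₂ ^ 2 + Fpoly W x₂ - 2 * Fpoly W x₁
          - 2 * (W.b₂ + 4 * (x₁ + x₂)) * (x₁ - x₂) ^ 2) * hY₂
    have hne : (16 : F) * (x₁ - x₂) ^ 2 ≠ 0 := mul_ne_zero h16 (pow_ne_zero 2 hd)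
    apply mul_left_cancel₀ hne
    linear_combination key
  · -- sum
    have hs := D_Fpoly_add W x₁ x₂
    apply mul_left_cancel₀ h4
    linear_combination e3 + e4 + 2 * hY₁ + 2 * hY₂ + 2 * hs

/-- doubling of a non-2-torsion affine point. -/
theorem xdbl (_h2 : (2 : F) ≠ 0) {x₁ y₁ : F} (h₁ : W.Nonsingular x₁ y₁) (hY : Yc W x₁ y₁ ≠ 0) :
    ∃ (x₃ y₃ : F) (h₃ : W.Nonsingular x₃ y₃),
      Point.some x₁ y₁ h₁ + Point.some x₁ y₁ h₁ = Point.some x₃ y₃ h₃ ∧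
      x₃ * Fpoly W x₁ = Phi2 W x₁ := by
  have hYe : y₁ - W.negY x₁ y₁ = Yc W x₁ y₁ := by simp only [Yc, negY]; ring
  have hy : y₁ ≠ W.negY x₁ y₁ := by
    intro h; apply hY; rw [← hYe]; exact sub_eq_zero.mpr h
  have hY₁ := Yc_sq W h₁.1
  have hE := h₁.1
  rw [W.equation_iff] at hE
  set ℓ := W.slope x₁ x₁ y₁ y₁ with hℓ
  have eℓ : ℓ * Yc W x₁ y₁ = 3 * x₁ ^ 2 + 2 * W.a₂ * x₁ + W.a₄ - W.a₁ * y₁ := by
    rw [hℓ, slope_of_Y_ne rfl hy, hYe, div_mul_cancel₀ _ hY]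
  refine ⟨W.addX x₁ x₁ ℓ, W.addY x₁ x₁ y₁ ℓ, nonsingular_add h₁ h₁ fun hxy => hy hxy.right,
    Point.add_self_of_Y_ne hy, ?_⟩
  rw [← hY₁]
  simp only [addX, Phi2, WeierstrassCurve.b₄, WeierstrassCurve.b₆,
    WeierstrassCurve.b₈]
  simp only [Yc] at eℓ ⊢
  linear_combination (ℓ * (2 * y₁ + W.a₁ * x₁ + W.a₃)
      + (3 * x₁ ^ 2 + 2 * W.a₂ * x₁ + W.a₄ - W.a₁ * y₁)
      + W.a₁ * (2 * y₁ + W.a₁ * x₁ + W.a₃)) * eℓ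
    - (8 * x₁ + W.a₁ ^ 2 + 4 * W.a₂) * hE

theorem xdbl_zero (_h2 : (2 : F) ≠ 0) {x₁ y₁ : F} (h₁ : W.Nonsingular x₁ y₁)
    (hY : Yc W x₁ y₁ = 0) : Point.some x₁ y₁ h₁ + Point.some x₁ y₁ h₁ = 0 := by
  apply Point.add_self_of_Y_eq
  simp only [Yc] at hY
  simp only [negY]
  linear_combination hY

omit [DecidableEq F] in
/-- `16 Φ₂ = F'² - 4 (b₂ + 8x) F`. -/
theorem Phi2_identity (x : F) :
    16 * Phi2 W x = Fder W x ^ 2 - 4 * (W.b₂ + 8 * x) * Fpoly W x := by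
  simp only [Phi2, Fder, Fpoly, WeierstrassCurve.b₂, WeierstrassCurve.b₄, WeierstrassCurve.b₆,
    WeierstrassCurve.b₈]
  ring

omit [DecidableEq F] in
/-- `2 α₄ = b₄ + r b₂ + 6 r²`. -/
theorem D_two_alpha4 (h2 : (2 : F) ≠ 0) (r : F) :
    2 * alpha4 W r = W.b₄ + r * W.b₂ + 6 * r ^ 2 := by
  simp only [alpha4]
  field_simp

omit [DecidableEq F] in
/-- shifted forms (`ξ = x - r`, `F(r) = 0`). -/
theorem Fpoly_shift (h2 : (2 : F) ≠ 0) {r : F} (hr : Fpoly W r = 0) (x : F) :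
    Fpoly W x = (x - r) * (4 * (x - r) ^ 2 + beta2 W r * (x - r) + 4 * alpha4 W r) := by
  have hα := D_two_alpha4 W h2 r
  simp only [Fpoly, beta2] at hr ⊢
  linear_combination hr - 2 * (x - r) * hα

omit [DecidableEq F] in
theorem Phi2_shift (h2 : (2 : F) ≠ 0) {r : F} (hr : Fpoly W r = 0) (x : F) :
    Phi2 W x - r * Fpoly W x = ((x - r) ^ 2 - alpha4 W r) ^ 2 := by
  have hα := D_two_alpha4 W h2 r
  have h4 : (4 : F) ≠ 0 := by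
    have : (4 : F) = 2 * 2 := by norm_num
    rw [this]; exact mul_ne_zero h2 h2
  apply mul_left_cancel₀ h4
  generalize alpha4 W r = α at hα ⊢
  simp only [Phi2, Fpoly, WeierstrassCurve.b₂, WeierstrassCurve.b₄, WeierstrassCurve.b₆,
    WeierstrassCurve.b₈] at hr hα ⊢
  linear_combination (-(8 * x + 4 * r + (W.a₁ ^ 2 + 4 * W.a₂))) * hr
    + (-(2 * α + ((2 * W.a₄ + W.a₁ * W.a₃) + r * (W.a₁ ^ 2 + 4 * W.a₂) + 6 * r ^ 2)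
        - 4 * (x - r) ^ 2)) * hα

omit [DecidableEq F] in
theorem Nnum_shift (h2 : (2 : F) ≠ 0) {r : F} (hr : Fpoly W r = 0) (x₁ x₂ : F) :
    Nnum W x₁ x₂ - r * Snum W x₁ x₂ + r ^ 2 * (x₁ - x₂) ^ 2 =
      ((x₁ - r) * (x₂ - r) - alpha4 W r) ^ 2 := by
  have hα := D_two_alpha4 W h2 r
  have h4 : (4 : F) ≠ 0 := by
    have : (4 : F) = 2 * 2 := by norm_num
    rw [this]; exact mul_ne_zero h2 h2
  apply mul_left_cancel₀ h4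
  generalize alpha4 W r = α at hα ⊢
  simp only [Nnum, Snum, Fpoly, WeierstrassCurve.b₂, WeierstrassCurve.b₄, WeierstrassCurve.b₆,
    WeierstrassCurve.b₈] at hr hα ⊢
  linear_combination (-(4 * x₁ + 4 * x₂ + 4 * r + (W.a₁ ^ 2 + 4 * W.a₂))) * hr
    + (-(2 * α + ((2 * W.a₄ + W.a₁ * W.a₃) + r * (W.a₁ ^ 2 + 4 * W.a₂) + 6 * r ^ 2)
        - 4 * ((x₁ - r) * (x₂ - r)))) * hα

omit [DecidableEq F] in
theorem Snum_shift (h2 : (2 : F) ≠ 0) {r : F} (hr : Fpoly W r = 0) (x₁ x₂ : F) :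
    Snum W x₁ x₂ - 2 * r * (x₁ - x₂) ^ 2 =
      2 * ((x₁ - r) + (x₂ - r)) * ((x₁ - r) * (x₂ - r) + alpha4 W r)
        + beta2 W r * (x₁ - r) * (x₂ - r) := by
  have hα := D_two_alpha4 W h2 r
  simp only [Snum, Fpoly, beta2] at hr ⊢
  linear_combination hr - ((x₁ - r) + (x₂ - r)) * hα

end D

end Fermat.Agent.S05
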