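/-
S05 package F (helper97): congruent points, inertia, good reduction.  No sorry.

* `IsNsInt`, `sub_mem_E1_of_congr` : exact skeleton names/signatures (blueprint (F-a)).
* `smul_sub_mem_E1_of`, `unram_of_good_of` : blueprint (F-b), (F-c) with the three package-E facts
  (`E1` closed under `+`, `-`; `E1` has no `p`-torsion) as explicit hypotheses, so that this file
  does not depend on package E.  The exact skeleton statements `smul_sub_mem_E1`, `unram_of_good`
  are one-line corollaries in `CongrFinal.lean` (which imports package E).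
* helper lemmas are prefixed `F_`; `F_bezout` is the certificate `u F + v F' = 8 Δ`,
  `F_isU_of_good` : good reduction ⇒ every integral point has nonsingular reduction,
  `F_y_mem` : integral `x` ⇒ integral `y`.
-/
import Fermat.Prelude.Def_FLTPrelim_GaloisRep
import Fermat.Agent.S05.Defs
import Fermat.Agent.S05.OrdApi
import Fermat.Agent.S05.XFormulas

set_option autoImplicit false

namespace Fermat.Agent.S05

open WeierstrassCurve WeierstrassCurve.Affine

section Faux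
variable {K : Type*} [Field K] {A : ValuationSubring K} {ord : K → ℚ}

/-- an `A`-multiple of a nonunit is a nonunit -/
theorem F_mul_mem_nonunits {a x : K} (ha : a ∈ A) (hx : x ∈ A.nonunits) : a * x ∈ A.nonunits := by
  rw [ValuationSubring.mem_nonunits_iff] at hx ⊢
  rw [map_mul]
  have h1 : A.valuation a ≤ 1 := (A.valuation_le_one_iff a).2 ha
  calc A.valuation a * A.valuation x ≤ 1 * A.valuation x := mul_le_mul' h1 le_rfl
    _ = A.valuation x := one_mul _
    _ < 1 := hx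

theorem F_mul_mem_nonunits' {a x : K} (ha : a ∈ A) (hx : x ∈ A.nonunits) :
    x * a ∈ A.nonunits := by
  rw [mul_comm]; exact F_mul_mem_nonunits ha hx

theorem F_two_mem (hord : IsOrd A ord) (h2 : IsU ord (2 : K)) : (2 : K) ∈ A := hord.IsU_mem h2

theorem F_not_isU_of_mem_nonunits (hord : IsOrd A ord) {x : K} (hx : x ∈ A.nonunits) :
    ¬ IsU ord x := fun h => (hord.isU_iff_mem_not_nonunits.1 h).2 hx

theorem F_mem_nonunits_of_not_isU (hord : IsOrd A ord) {x : K} (hx : x ∈ A) (h : ¬ IsU ord x) :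
    x ∈ A.nonunits := by
  by_contra hn
  exact h (hord.isU_iff_mem_not_nonunits.2 ⟨hx, hn⟩)

/-- key valuation step: `c * x * d = u` with `u` a unit, `d` a nonunit, `c` integral forces
`x` to be non-integral. -/
theorem F_not_mem_of_mul_eq (hord : IsOrd A ord) {c x d u : K} (hc : c ∈ A)
    (hd : d ∈ A.nonunits) (hu : IsU ord u) (h : c * x * d = u) : x ∉ A := by
  intro hx
  have : c * x * d ∈ A.nonunits := F_mul_mem_nonunits (mul_mem hc hx) hd
  rw [h] at this
  exact F_not_isU_of_mem_nonunits hord this hu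

theorem F_E1_of_not_mem (hord : IsOrd A ord) {x : K} (hx : x ∉ A) : x ≠ 0 ∧ ord x < 0 := by
  have h0 : x ≠ 0 := fun h => hx (h ▸ A.zero_mem)
  exact ⟨h0, (hord.not_mem_iff h0).1 hx⟩

theorem F_b2_mem (W : Affine K) (hord : IsOrd A ord) (h2 : IsU ord (2 : K))
    (hW : IsIntegralW W A) : W.b₂ ∈ A := by
  obtain ⟨h1, h2', h3, h4, h6⟩ := hW
  have h2A := F_two_mem hord h2
  have : W.b₂ = W.a₁ * W.a₁ + 2 * 2 * W.a₂ := by rw [WeierstrassCurve.b₂]; ring
  rw [this]
  exact add_mem (mul_mem h1 h1) (mul_mem (mul_mem h2A h2A) h2')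

theorem F_b4_mem (W : Affine K) (hord : IsOrd A ord) (h2 : IsU ord (2 : K))
    (hW : IsIntegralW W A) : W.b₄ ∈ A := by
  obtain ⟨h1, h2', h3, h4, h6⟩ := hW
  have h2A := F_two_mem hord h2
  rw [WeierstrassCurve.b₄]
  exact add_mem (mul_mem h2A h4) (mul_mem h1 h3)

theorem F_b6_mem (W : Affine K) (hord : IsOrd A ord) (h2 : IsU ord (2 : K))
    (hW : IsIntegralW W A) : W.b₆ ∈ A := by
  obtain ⟨h1, h2', h3, h4, h6⟩ := hW
  have h2A := F_two_mem hord h2
  have : W.b₆ = W.a₃ * W.a₃ + 2 * 2 * W.a₆ := by rw [WeierstrassCurve.b₆]; ring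
  rw [this]
  exact add_mem (mul_mem h3 h3) (mul_mem (mul_mem h2A h2A) h6)

/-- on an integral Weierstrass curve, a point with integral `x` has integral `y`. -/
theorem F_y_mem (W : Affine K) (hW : IsIntegralW W A) {x y : K} (h : W.Equation x y)
    (hx : x ∈ A) : y ∈ A := by
  obtain ⟨h1, h2', h3, h4, h6⟩ := hW
  by_contra hy
  have hy0 : y ≠ 0 := fun h0 => hy (h0 ▸ A.zero_mem)
  have hinv : y⁻¹ ∈ A.nonunits := A.inv_mem_nonunits_iff.2 (Or.inr hy)
  have hinvA : y⁻¹ ∈ A := A.nonunits_subset hinv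
  rw [W.equation_iff] at h
  have hc : x ^ 3 + W.a₂ * x ^ 2 + W.a₄ * x + W.a₆ ∈ A :=
    add_mem (add_mem (add_mem (pow_mem hx 3) (mul_mem h2' (pow_mem hx 2))) (mul_mem h4 hx)) h6
  have hone : (1 : K) = ((x ^ 3 + W.a₂ * x ^ 2 + W.a₄ * x + W.a₆) * y⁻¹ - (W.a₁ * x + W.a₃)) * y⁻¹ := by
    field_simp
    linear_combination h
  have : (1 : K) ∈ A.nonunits := by
    rw [hone]
    exact F_mul_mem_nonunits (sub_mem (mul_mem hc hinvA) (add_mem (mul_mem h1 hx) h3)) hinv
  rw [ValuationSubring.mem_nonunits_iff, map_one] at this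
  exact lt_irrefl _ this

/-- Bezout certificate: `u F + v F' = 8 Δ`. -/
theorem F_bezout (W : Affine K) (x : K) :
    (-12 * (W.b₂ ^ 2 - 24 * W.b₄) * x + 12 * (W.b₂ * W.b₄ - 18 * W.b₆)
        - 2 * W.b₂ * (W.b₂ ^ 2 - 24 * W.b₄)) * Fpoly W x
      + ((W.b₂ ^ 2 * W.b₄ - 32 * W.b₄ ^ 2 + 6 * W.b₂ * W.b₆)
        + (W.b₂ ^ 3 - 28 * W.b₂ * W.b₄ + 72 * W.b₆) * x
        + 4 * (W.b₂ ^ 2 - 24 * W.b₄) * x ^ 2) * Fder W x = 8 * W.Δ := by
  simp only [Fpoly, Fder, WeierstrassCurve.Δ]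
  linear_combination (2 * W.b₂ ^ 2) * W.b_relation

/-- good reduction: an integral point reduces to a nonsingular point. -/
theorem F_isU_of_good (W : Affine K) (hord : IsOrd A ord) (h2 : IsU ord (2 : K))
    (hW : IsIntegralW W A) (hΔ : IsU ord W.Δ) {x y : K} (h : W.Equation x y) (hx : x ∈ A) :
    IsU ord (Yc W x y) ∨ IsU ord (Fder W x) := by
  have hy : y ∈ A := F_y_mem W hW h hx
  have h2A : (2 : K) ∈ A := F_two_mem hord h2
  have hb2 := F_b2_mem W hord h2 hW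
  have hb4 := F_b4_mem W hord h2 hW
  have hb6 := F_b6_mem W hord h2 hW
  have hYA : Yc W x y ∈ A := by
    simp only [Yc]
    exact add_mem (add_mem (mul_mem h2A hy) (mul_mem hW.1 hx)) hW.2.2.1
  have hn : ∀ n : ℕ, (n : K) ∈ A := fun n => natCast_mem A n
  have hFdA : Fder W x ∈ A := by
    simp only [Fder]
    refine add_mem (add_mem (mul_mem ?_ (pow_mem hx 2)) (mul_mem (mul_mem h2A hb2) hx))
      (mul_mem h2A hb4)
    exact_mod_cast hn 12
  by_contra hcon
  rw [not_or] at hcon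
  have hY := F_mem_nonunits_of_not_isU hord hYA hcon.1
  have hFd := F_mem_nonunits_of_not_isU hord hFdA hcon.2
  have hF : Fpoly W x ∈ A.nonunits := by
    rw [← Yc_sq W h, sq]; exact mul_mem hY hY
  have hc4 : W.b₂ ^ 2 - 24 * W.b₄ ∈ A :=
    sub_mem (pow_mem hb2 2) (mul_mem (by exact_mod_cast hn 24) hb4)
  have h8Δ : 8 * W.Δ ∈ A.nonunits := by
    rw [← F_bezout W x]
    refine add_mem (F_mul_mem_nonunits ?_ hF) (F_mul_mem_nonunits ?_ hFd)
    · refine sub_mem (add_mem (mul_mem (mul_mem ?_ hc4) hx) (mul_mem ?_ ?_)) ?_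
      · exact neg_mem (by exact_mod_cast hn 12)
      · exact_mod_cast hn 12
      · exact sub_mem (mul_mem hb2 hb4) (mul_mem (by exact_mod_cast hn 18) hb6)
      · exact mul_mem (mul_mem h2A hb2) hc4
    · refine add_mem (add_mem ?_ (mul_mem ?_ hx)) (mul_mem (mul_mem ?_ hc4) (pow_mem hx 2))
      · exact add_mem (sub_mem (mul_mem (pow_mem hb2 2) hb4)
          (mul_mem (by exact_mod_cast hn 32) (pow_mem hb4 2)))
          (mul_mem (mul_mem (by exact_mod_cast hn 6) hb2) hb6)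
      · exact add_mem (sub_mem (pow_mem hb2 3)
          (mul_mem (mul_mem (by exact_mod_cast hn 28) hb2) hb4))
          (mul_mem (by exact_mod_cast hn 72) hb6)
      · exact_mod_cast hn 4
  have h8 : IsU ord (8 * W.Δ) := by
    have : (8 : K) = 2 ^ 3 := by norm_num
    rw [this]
    exact hord.IsU_mul (hord.IsU_pow h2 3) hΔ
  exact F_not_isU_of_mem_nonunits hord h8Δ h8

end Faux

section F
variable {K : Type*} [Field K] [DecidableEq K] {A : ValuationSubring K} {ord : K → ℚ}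

/-- integral affine point whose reduction is a nonsingular point of the reduced curve
(residue characteristic ≠ 2: the singular points are those with `Y ≡ 0` and `F'(x) ≡ 0`). -/
def IsNsInt (W : Affine K) (A : ValuationSubring K) (ord : K → ℚ) (x y : K) : Prop :=
  x ∈ A ∧ y ∈ A ∧ (IsU ord (Yc W x y) ∨ IsU ord (Fder W x))

theorem sub_mem_E1_of_congr (W : Affine K) (hord : IsOrd A ord) (h2 : IsU ord (2 : K))
    (hW : IsIntegralW W A) {x₁ y₁ x₂ y₂ : K} (h₁ : W.Nonsingular x₁ y₁) (h₂ : W.Nonsingular x₂ y₂)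
    (hns : IsNsInt W A ord x₁ y₁) (hx₂ : x₂ ∈ A) (hy₂ : y₂ ∈ A)
    (hx : x₁ - x₂ ∈ A.nonunits) (hy : y₁ - y₂ ∈ A.nonunits) :
    Point.some x₁ y₁ h₁ - Point.some x₂ y₂ h₂ ∈ E1 W ord := by
  obtain ⟨hx₁, hy₁, hU⟩ := hns
  have h2A : (2 : K) ∈ A := F_two_mem hord h2
  have h4A : (4 : K) ∈ A := by
    have : (4 : K) = 2 * 2 := by norm_num
    rw [this]; exact mul_mem h2A h2A
  have hb2 : W.b₂ ∈ A := F_b2_mem W hord h2 hW
  have hb4 : W.b₄ ∈ A := F_b4_mem W hord h2 hW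
  have ha1 : W.a₁ ∈ A := hW.1
  by_cases hxx : x₁ = x₂
  · subst hxx
    rcases Y_eq_of_X_eq h₁.1 h₂.1 rfl with hyy | hyy
    · subst hyy
      rw [sub_self]
      exact Or.inl rfl
    · have hy2 : y₂ = W.negY x₁ y₁ := by rw [hyy, negY_negY]
      subst hy2
      have hneg : Point.some x₁ (W.negY x₁ y₁) h₂ = - Point.some x₁ y₁ h₁ := by
        rw [Point.neg_some]
      rw [hneg, sub_neg_eq_add]
      have hY : Yc W x₁ y₁ ∈ A.nonunits := by
        have : Yc W x₁ y₁ = y₁ - W.negY x₁ y₁ := by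
          simp only [Yc, negY]; ring
        rw [this]; exact hy
      by_cases hY0 : Yc W x₁ y₁ = 0
      · rw [xdbl_zero W h2.1 h₁ hY0]
        exact Or.inl rfl
      · obtain ⟨x₃, y₃, h₃, hsum, hform⟩ := xdbl W h2.1 h₁ hY0
        rw [hsum]
        refine Or.inr ⟨x₃, y₃, h₃, rfl, ?_⟩
        apply F_E1_of_not_mem hord
        -- `Fder` must be a unit
        have hFd : IsU ord (Fder W x₁) := by
          rcases hU with hU | hU
          · exact absurd hU (F_not_isU_of_mem_nonunits hord hY)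
          · exact hU
        have hF : Fpoly W x₁ ∈ A.nonunits := by
          rw [← Yc_sq W h₁.1, sq]
          exact mul_mem hY hY
        -- `16 Φ₂` is a unit
        have hΦ : IsU ord (16 * Phi2 W x₁) := by
          rw [Phi2_identity]
          refine hord.IsU_sub_nonunit (hord.IsU_pow hFd 2) ?_
          refine F_mul_mem_nonunits ?_ hF
          have h8 : (8 : K) = 2 * 2 * 2 := by norm_num
          refine mul_mem h4A (add_mem hb2 (mul_mem ?_ hx₁))
          rw [h8]; exact mul_mem (mul_mem h2A h2A) h2A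
        have h16 : (16 : K) ∈ A := by
          have : (16 : K) = 4 * 4 := by norm_num
          rw [this]; exact mul_mem h4A h4A
        refine F_not_mem_of_mul_eq hord h16 hF hΦ ?_
        rw [mul_assoc, hform]
  · obtain ⟨x₃, y₃, x₄, y₄, h₃, h₄, -, hsub, -, -, -, hform⟩ := xadd W h2.1 h₁ h₂ hxx
    rw [hsub]
    refine Or.inr ⟨x₄, y₄, h₄, rfl, ?_⟩
    apply F_E1_of_not_mem hord
    have he0 : x₁ - x₂ ≠ 0 := sub_ne_zero.2 hxx
    -- `D = Y₁ - Y₂` is a nonunit
    have hD : Yc W x₁ y₁ - Yc W x₂ y₂ ∈ A.nonunits := by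
      have : Yc W x₁ y₁ - Yc W x₂ y₂ = 2 * (y₁ - y₂) + W.a₁ * (x₁ - x₂) := by
        simp only [Yc]; ring
      rw [this]
      exact add_mem (F_mul_mem_nonunits h2A hy) (F_mul_mem_nonunits ha1 hx)
    have hBA : W.b₂ + 4 * (x₁ + x₂) ∈ A :=
      add_mem hb2 (mul_mem h4A (add_mem hx₁ hx₂))
    have he2 : (x₁ - x₂) ^ 2 ∈ A.nonunits := by
      rw [sq]; exact mul_mem hx hx
    rcases hU with hU | hU
    · -- `Y₁` is a unit: `Y₁ + Y₂ = 2 Y₁ - D` is a unit
      have hS : IsU ord (Yc W x₁ y₁ + Yc W x₂ y₂) := by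
        have : Yc W x₁ y₁ + Yc W x₂ y₂ = 2 * Yc W x₁ y₁ - (Yc W x₁ y₁ - Yc W x₂ y₂) := by ring
        rw [this]
        exact hord.IsU_sub_nonunit (hord.IsU_mul h2 hU) hD
      have hR : IsU ord ((Yc W x₁ y₁ + Yc W x₂ y₂) ^ 2
          - (W.b₂ + 4 * (x₁ + x₂)) * (x₁ - x₂) ^ 2) :=
        hord.IsU_sub_nonunit (hord.IsU_pow hS 2) (F_mul_mem_nonunits hBA he2)
      exact F_not_mem_of_mul_eq hord h4A he2 hR hform
    · -- `F'(x₁)` is a unit
      set G : K := 4 * (x₁ ^ 2 + x₁ * x₂ + x₂ ^ 2) + W.b₂ * (x₁ + x₂) + 2 * W.b₄ with hG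
      have hGU : IsU ord G := by
        have : G = Fder W x₁ + (x₁ - x₂) * (-(4 * (x₂ + 2 * x₁) + W.b₂)) := by
          simp only [hG, Fder]; ring
        rw [this]
        refine hord.IsU_add_nonunit hU (F_mul_mem_nonunits' ?_ hx)
        exact neg_mem (add_mem (mul_mem h4A (add_mem hx₂ (mul_mem h2A hx₁))) hb2)
      have hSD : (Yc W x₁ y₁ + Yc W x₂ y₂) * (Yc W x₁ y₁ - Yc W x₂ y₂) = (x₁ - x₂) * G := by
        have e1 := Yc_sq W h₁.1
        have e2 := Yc_sq W h₂.1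
        have : (Yc W x₁ y₁ + Yc W x₂ y₂) * (Yc W x₁ y₁ - Yc W x₂ y₂)
            = Yc W x₁ y₁ ^ 2 - Yc W x₂ y₂ ^ 2 := by ring
        rw [this, e1, e2]
        simp only [hG, Fpoly]; ring
      have hD2 : (Yc W x₁ y₁ - Yc W x₂ y₂) ^ 2 ∈ A.nonunits := by
        rw [sq]; exact mul_mem hD hD
      have hR : IsU ord (G ^ 2 - (W.b₂ + 4 * (x₁ + x₂)) * (Yc W x₁ y₁ - Yc W x₂ y₂) ^ 2) :=
        hord.IsU_sub_nonunit (hord.IsU_pow hGU 2) (F_mul_mem_nonunits hBA hD2)
      refine F_not_mem_of_mul_eq hord h4A hD2 hR ?_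
      have he2' : (x₁ - x₂) ^ 2 ≠ 0 := pow_ne_zero 2 he0
      apply mul_left_cancel₀ he2'
      linear_combination (Yc W x₁ y₁ - Yc W x₂ y₂) ^ 2 * hform
        + ((Yc W x₁ y₁ + Yc W x₂ y₂) * (Yc W x₁ y₁ - Yc W x₂ y₂) + (x₁ - x₂) * G) * hSD

variable {k : Type*} [Field k] [Algebra k K] (W : Affine k)

/-- inertia moves a point of `E₀` by an element of `E₁`. -/
theorem smul_sub_mem_E1_of (hord : IsOrd A ord) (h2 : IsU ord (2 : K))
    (hW : IsIntegralW (W⁄K) A)
    (hadd : ∀ {P Q : (W⁄K).Point}, P ∈ E1 (W⁄K) ord → Q ∈ E1 (W⁄K) ord → P + Q ∈ E1 (W⁄K) ord)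
    (hneg : ∀ {P : (W⁄K).Point}, P ∈ E1 (W⁄K) ord → -P ∈ E1 (W⁄K) ord)
    (σ : K ≃ₐ[k] K) (hσ : IsInertial A σ)
    {P : (W⁄K).Point}
    (hP : P ∈ E1 (W⁄K) ord ∨ ∃ (x y : K) (h : (W⁄K).Nonsingular x y),
      P = Point.some x y h ∧ IsNsInt (W⁄K) A ord x y) :
    σ • P - P ∈ E1 (W⁄K) ord := by
  rcases hP with hP | ⟨x, y, h, rfl, hns⟩
  · have hσP : σ • P ∈ E1 (W⁄K) ord := by
      rcases hP with rfl | ⟨x, y, h, rfl, hx0, hxlt⟩
      · rw [smul_zero]; exact Or.inl rfl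
      · obtain ⟨h', hsm⟩ : ∃ h' : (W⁄K).Nonsingular (σ x) (σ y),
            σ • (Point.some x y h : (W⁄K).Point) = Point.some (σ x) (σ y) h' := by
          rw [Point.algEquiv_smul_def]
          exact ⟨_, Point.map_some (σ : K →ₐ[k] K) h⟩
        rw [hsm]
        refine Or.inr ⟨σ x, σ y, h', rfl, ?_⟩
        apply F_E1_of_not_mem hord
        have hxA : x ∉ A := (hord.not_mem_iff hx0).2 hxlt
        have hinv : x⁻¹ ∈ A.nonunits := A.inv_mem_nonunits_iff.2 (Or.inr hxA)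
        have hinvA : x⁻¹ ∈ A := A.nonunits_subset hinv
        obtain ⟨-, hd⟩ := hσ x⁻¹ hinvA
        have hs : σ x⁻¹ ∈ A.nonunits := by
          have := add_mem hd hinv
          simpa using this
        rw [map_inv₀] at hs
        rcases A.inv_mem_nonunits_iff.1 hs with h0 | h0
        · exact absurd ((map_eq_zero σ).1 h0) hx0
        · exact h0
    have := hadd hσP (hneg hP)
    rwa [← sub_eq_add_neg] at this
  · obtain ⟨h', hsm⟩ : ∃ h' : (W⁄K).Nonsingular (σ x) (σ y),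
        σ • (Point.some x y h : (W⁄K).Point) = Point.some (σ x) (σ y) h' := by
      rw [Point.algEquiv_smul_def]
      exact ⟨_, Point.map_some (σ : K →ₐ[k] K) h⟩
    rw [hsm]
    obtain ⟨hσx, hdx⟩ := hσ x hns.1
    obtain ⟨hσy, hdy⟩ := hσ y hns.2.1
    have hdx' : x - σ x ∈ A.nonunits := by
      have := neg_mem hdx
      rwa [neg_sub] at this
    have hdy' : y - σ y ∈ A.nonunits := by
      have := neg_mem hdy
      rwa [neg_sub] at this
    have key := sub_mem_E1_of_congr (W⁄K) hord h2 hW h h' hns hσx hσy hdx' hdy'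
    have := hneg key
    rwa [neg_sub] at this

/-- good reduction ⇒ inertia acts trivially on `p`-torsion. -/
theorem unram_of_good_of (hord : IsOrd A ord) (h2 : IsU ord (2 : K))
    (hW : IsIntegralW (W⁄K) A) (hΔ : IsU ord (W⁄K).Δ)
    (hadd : ∀ {P Q : (W⁄K).Point}, P ∈ E1 (W⁄K) ord → Q ∈ E1 (W⁄K) ord → P + Q ∈ E1 (W⁄K) ord)
    (hneg : ∀ {P : (W⁄K).Point}, P ∈ E1 (W⁄K) ord → -P ∈ E1 (W⁄K) ord)
    {p : ℕ}
    (htf : ∀ {P : (W⁄K).Point}, P ∈ E1 (W⁄K) ord → (p : ℤ) • P = 0 → P = 0)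
    (σ : K ≃ₐ[k] K) (hσ : IsInertial A σ)
    {P : (W⁄K).Point} (hpP : (p : ℤ) • P = 0) : σ • P = P := by
  have hPcase : P ∈ E1 (W⁄K) ord ∨ ∃ (x y : K) (h : (W⁄K).Nonsingular x y),
      P = Point.some x y h ∧ IsNsInt (W⁄K) A ord x y := by
    rcases P with _ | ⟨x, y, h⟩
    · exact Or.inl (Or.inl rfl)
    · by_cases hx : x ∈ A
      · exact Or.inr ⟨x, y, h, rfl, hx, F_y_mem (W⁄K) hW h.1 hx,
          F_isU_of_good (W⁄K) hord h2 hW hΔ h.1 hx⟩
      · exact Or.inl (Or.inr ⟨x, y, h, rfl, F_E1_of_not_mem hord hx⟩)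
  have key := smul_sub_mem_E1_of W hord h2 hW hadd hneg σ hσ hPcase
  have htors : (p : ℤ) • (σ • P - P) = 0 := by
    rw [smul_sub, ← Point.algEquiv_smul_zsmul, hpP, smul_zero, sub_zero]
  exact sub_eq_zero.1 (htf key htors)

end F

end Fermat.Agent.S05
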