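/-
S05, package C (helper94): elements of the inertia subgroup preserve the valuation ring and act
trivially on its residue field.
-/
import Mathlib
import Fermat.Prelude.Def_FLTPrelim_Ramification
import Fermat.Agent.S05.Defs

set_option autoImplicit false

namespace Fermat.Agent.S05

open scoped Pointwise

theorem isInertial_of_mem {K : Type*} [Field K] {k : Type*} [Field k] [Algebra k K]
    (A : ValuationSubring K) (σ : K ≃ₐ[k] K)
    (hσ : σ ∈ A.inertiaSubgroupIn k) : IsInertial A σ := by
  obtain ⟨τ, hτ, rfl⟩ := hσ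
  intro a ha
  have hmem : (τ : K ≃ₐ[k] K) a ∈ A := (τ • (⟨a, ha⟩ : A) : A).2
  refine ⟨hmem, ?_⟩
  have hker : MulSemiringAction.toRingAut (A.decompositionSubgroup k)
      (IsLocalRing.ResidueField A) τ = 1 := hτ
  have h1 : τ • (IsLocalRing.residue A ⟨a, ha⟩) = IsLocalRing.residue A ⟨a, ha⟩ := by
    have := congrArg (fun f : RingAut (IsLocalRing.ResidueField A) =>
      f (IsLocalRing.residue A ⟨a, ha⟩)) hker
    simpa using this
  rw [← IsLocalRing.ResidueField.residue_smul, ← sub_eq_zero, ← map_sub,
    IsLocalRing.residue_eq_zero_iff] at h1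
  rw [ValuationSubring.mem_nonunits_iff_exists_mem_maximalIdeal]
  exact ⟨A.sub_mem hmem ha, h1⟩

end Fermat.Agent.S05
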