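/-
S05 package B (helper50): the Q-valued valuation `ord` on an algebraic extension of Q attached
to a valuation subring over a prime q, normalised by ord q = 1. Main export: `exists_ord`
(skeleton name). No sorry.
-/
import Mathlib
import Fermat.Agent.S05.Defs
import Fermat.Prelude.Def_FLTPrelim_Ramification

set_option autoImplicit false

namespace Fermat.Agent.S05

namespace OrdC

section general

variable {K : Type*} [Field K] (A : ValuationSubring K)

/-- integers have valuation `≤ 1`. -/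
theorem B_val_int_le_one (n : ℤ) : A.valuation (n : K) ≤ 1 := by
  rw [A.valuation_le_one_iff]
  exact intCast_mem A n

theorem B_val_nat_le_one (n : ℕ) : A.valuation (n : K) ≤ 1 := by
  rw [A.valuation_le_one_iff]
  exact natCast_mem A n

/-- If a finite sum vanishes and has a nonzero term, two distinct terms have the same nonzero
valuation. -/
theorem B_exists_eq_val_of_sum_eq_zero {ι : Type*} [DecidableEq ι] (s : Finset ι) (f : ι → K)
    (hsum : ∑ i ∈ s, f i = 0) (hne : ∃ i ∈ s, f i ≠ 0) :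
    ∃ i ∈ s, ∃ j ∈ s, i ≠ j ∧ f i ≠ 0 ∧ f j ≠ 0 ∧ A.valuation (f i) = A.valuation (f j) := by
  obtain ⟨i₁, hi₁, hfi₁⟩ := hne
  obtain ⟨i₀, hi₀, hmax⟩ := Finset.exists_max_image s (fun i => A.valuation (f i)) ⟨i₁, hi₁⟩
  have hg : A.valuation (f i₀) ≠ 0 := by
    intro h0
    have := hmax i₁ hi₁
    rw [h0] at this
    exact hfi₁ ((map_eq_zero _).1 (le_antisymm this zero_le))
  have hfi₀ : f i₀ ≠ 0 := fun h => hg (by rw [h, map_zero])
  by_contra hcon
  push Not at hcon
  have hlt : ∀ j ∈ s.erase i₀, A.valuation (f j) < A.valuation (f i₀) := by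
    intro j hj
    obtain ⟨hji, hjs⟩ := Finset.mem_erase.1 hj
    refine lt_of_le_of_ne (hmax j hjs) ?_
    intro heq
    have hfj : f j ≠ 0 := by
      intro h
      rw [h, map_zero] at heq
      exact hg heq.symm
    exact hcon i₀ hi₀ j hjs (Ne.symm hji) hfi₀ hfj heq.symm
  have hsum' : f i₀ = - ∑ j ∈ s.erase i₀, f j := by
    rw [eq_neg_iff_add_eq_zero, Finset.add_sum_erase s f hi₀, hsum]
  have : A.valuation (f i₀) < A.valuation (f i₀) := by
    conv_lhs => rw [hsum', Valuation.map_neg]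
    exact Valuation.map_sum_lt _ hg hlt
  exact lt_irrefl _ this

end general

section prime

variable {K : Type*} [Field K] [CharZero K] {A : ValuationSubring K} {q : ℕ}

omit [CharZero K] in
theorem B_val_q_lt_one (hA : (q : K) ∈ A.nonunits) : A.valuation (q : K) < 1 :=
  A.mem_nonunits_iff.1 hA

theorem B_val_q_pos (hq : q.Prime) : 0 < A.valuation (q : K) := by
  rw [Valuation.pos_iff]
  exact_mod_cast hq.ne_zero

/-- integers prime to `q` are units. -/
theorem B_val_nat_of_not_dvd (hq : q.Prime) (hA : (q : K) ∈ A.nonunits) {n : ℕ}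
    (hn : ¬ q ∣ n) : A.valuation (n : K) = 1 := by
  have hcop : IsCoprime (q : ℤ) (n : ℤ) :=
    Nat.isCoprime_iff_coprime.2 ((Nat.Prime.coprime_iff_not_dvd hq).2 hn)
  obtain ⟨a, b, hab⟩ := hcop
  have hK : (a : K) * (q : K) + (b : K) * (n : K) = 1 := by exact_mod_cast hab
  refine le_antisymm (B_val_nat_le_one A n) ?_
  by_contra hlt
  rw [not_le] at hlt
  have h1 : A.valuation ((a : K) * (q : K)) < 1 := by
    rw [map_mul]
    exact mul_lt_one_of_nonneg_of_lt_one_right (B_val_int_le_one A a) zero_le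
      (B_val_q_lt_one hA)
  have h2 : A.valuation ((b : K) * (n : K)) < 1 := by
    rw [map_mul]
    exact mul_lt_one_of_nonneg_of_lt_one_right (B_val_int_le_one A b) zero_le hlt
  have := Valuation.map_add_lt _ h1 h2
  rw [hK, map_one] at this
  exact lt_irrefl _ this

theorem B_val_natCast (hq : q.Prime) (hA : (q : K) ∈ A.nonunits) {n : ℕ} (hn : n ≠ 0) :
    A.valuation (n : K) = A.valuation (q : K) ^ (padicValNat q n) := by
  have : Fact q.Prime := ⟨hq⟩
  obtain ⟨e, n', hn', rfl⟩ := Nat.exists_eq_pow_mul_and_not_dvd hn q hq.ne_one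
  have hn'0 : n' ≠ 0 := by
    rintro rfl
    exact hn' (dvd_zero _)
  rw [padicValNat.mul (pow_ne_zero _ hq.ne_zero) hn'0, padicValNat.prime_pow,
    padicValNat.eq_zero_of_not_dvd hn', add_zero]
  push_cast
  rw [map_mul, map_pow, B_val_nat_of_not_dvd hq hA hn', mul_one]

theorem B_val_intCast (hq : q.Prime) (hA : (q : K) ∈ A.nonunits) {z : ℤ} (hz : z ≠ 0) :
    A.valuation (z : K) = A.valuation (q : K) ^ (padicValInt q z) := by
  have h1 : A.valuation (z : K) = A.valuation ((z.natAbs : ℕ) : K) := by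
    rcases Int.natAbs_eq z with h | h
    · conv_lhs => rw [h]
      rw [Int.cast_natCast]
    · conv_lhs => rw [h]
      rw [Int.cast_neg, Int.cast_natCast, Valuation.map_neg]
  rw [h1, B_val_natCast hq hA (Int.natAbs_ne_zero.2 hz)]
  rfl

theorem B_val_rat [Algebra ℚ K] (hq : q.Prime) (hA : (q : K) ∈ A.nonunits) {c : ℚ}
    (hc : c ≠ 0) :
    A.valuation (algebraMap ℚ K c) = A.valuation (q : K) ^ (padicValRat q c) := by
  have hnum : c.num ≠ 0 := Rat.num_ne_zero.2 hc
  have hden : c.den ≠ 0 := c.den_ne_zero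
  have hc' : algebraMap ℚ K c = (c.num : K) / (c.den : K) := by
    conv_lhs => rw [← Rat.num_div_den c]
    rw [map_div₀, map_intCast, map_natCast]
  have hγ : A.valuation (q : K) ≠ 0 := (B_val_q_pos hq).ne'
  rw [hc', map_div₀, B_val_intCast hq hA hnum, B_val_natCast hq hA hden]
  unfold padicValRat
  rw [zpow_sub₀ hγ, zpow_natCast, zpow_natCast]

/-- For algebraic `x ≠ 0`, some positive power of `v x` is an integral power of `v q`. -/
theorem B_exists_pow_eq [Algebra ℚ K] (hq : q.Prime) (hA : (q : K) ∈ A.nonunits) {x : K}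
    (hx : x ≠ 0) (halg : IsAlgebraic ℚ x) :
    ∃ n : ℕ, 0 < n ∧ ∃ m : ℤ, A.valuation x ^ n = A.valuation (q : K) ^ m := by
  classical
  obtain ⟨P, hP0, hPx⟩ := halg
  have hγ : A.valuation (q : K) ≠ 0 := (B_val_q_pos hq).ne'
  have hvx : A.valuation x ≠ 0 := (Valuation.ne_zero_iff _).2 hx
  rw [Polynomial.aeval_eq_sum_range] at hPx
  set f : ℕ → K := fun i => P.coeff i • x ^ i with hf
  have hfne : ∀ i, f i ≠ 0 → P.coeff i ≠ 0 := by
    intro i hi h0
    apply hi
    simp [hf, h0]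
  have hne : ∃ i ∈ Finset.range (P.natDegree + 1), f i ≠ 0 := by
    refine ⟨P.natDegree, Finset.self_mem_range_succ _, ?_⟩
    simp only [hf, Algebra.smul_def]
    refine mul_ne_zero ?_ (pow_ne_zero _ hx)
    rw [Ne, map_eq_zero]
    exact Polynomial.leadingCoeff_ne_zero.2 hP0
  obtain ⟨i, -, j, -, hij, hfi, hfj, hv⟩ :=
    B_exists_eq_val_of_sum_eq_zero A (Finset.range (P.natDegree + 1)) f hPx hne
  have hvf : ∀ i, f i ≠ 0 → A.valuation (f i) =
      A.valuation (q : K) ^ (padicValRat q (P.coeff i)) * A.valuation x ^ i := by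
    intro i hi
    simp only [hf, Algebra.smul_def]
    rw [map_mul, map_pow, B_val_rat hq hA (hfne i hi)]
  rw [hvf i hfi, hvf j hfj] at hv
  -- wlog i < j
  have key : ∀ i j : ℕ, i < j → ∀ a b : ℤ,
      A.valuation (q : K) ^ a * A.valuation x ^ i = A.valuation (q : K) ^ b * A.valuation x ^ j →
      ∃ n : ℕ, 0 < n ∧ ∃ m : ℤ, A.valuation x ^ n = A.valuation (q : K) ^ m := by
    intro i j hij a b h
    refine ⟨j - i, Nat.sub_pos_of_lt hij, a - b, ?_⟩
    have hj : j = (j - i) + i := (Nat.sub_add_cancel hij.le).symm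
    rw [hj, pow_add, ← mul_assoc] at h
    have h' := mul_right_cancel₀ (pow_ne_zero i hvx) h
    rw [zpow_sub₀ hγ, h', mul_comm, mul_div_assoc, div_self (zpow_ne_zero _ hγ), mul_one]
  rcases lt_or_gt_of_ne hij with h | h
  · exact key i j h _ _ hv
  · exact key j i h _ _ hv.symm

/-- uniqueness of the slope `m / n`. -/
theorem B_slope_unique (hq : q.Prime) (hA : (q : K) ∈ A.nonunits) {g : A.ValueGroup}
    {n n' : ℕ} (hn : 0 < n) (hn' : 0 < n') {m m' : ℤ}
    (h : g ^ n = A.valuation (q : K) ^ m) (h' : g ^ n' = A.valuation (q : K) ^ m') :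
    (m : ℚ) / n = (m' : ℚ) / n' := by
  have hγ0 : 0 < A.valuation (q : K) := B_val_q_pos hq
  have hγ1 : A.valuation (q : K) ≠ 1 := (B_val_q_lt_one hA).ne
  have e : A.valuation (q : K) ^ (m * n') = A.valuation (q : K) ^ (m' * n) := by
    rw [zpow_mul, ← h, zpow_mul, ← h', zpow_natCast, zpow_natCast, ← pow_mul, ← pow_mul,
      mul_comm]
  have e' : m * n' = m' * n := zpow_right_injective₀ hγ0 hγ1 e
  have hnq : (n : ℚ) ≠ 0 := by exact_mod_cast hn.ne'
  have hnq' : (n' : ℚ) ≠ 0 := by exact_mod_cast hn'.ne'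
  rw [div_eq_div_iff hnq hnq']
  exact_mod_cast e'

open Classical in
/-- The `ℚ`-valued additive valuation attached to `A` (normalised by `ord q = 1`). -/
noncomputable def ordOf [Algebra ℚ K] (A : ValuationSubring K) (q : ℕ) (x : K) : ℚ :=
  if h : ∃ n : ℕ, 0 < n ∧ ∃ m : ℤ, A.valuation x ^ n = A.valuation (q : K) ^ m then
    ((Classical.choose (Classical.choose_spec h).2 : ℤ) : ℚ) / (Classical.choose h : ℕ)
  else 0

theorem B_ordOf_eq [Algebra ℚ K] (hq : q.Prime) (hA : (q : K) ∈ A.nonunits) {x : K}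
    {n : ℕ} (hn : 0 < n) {m : ℤ} (h : A.valuation x ^ n = A.valuation (q : K) ^ m) :
    ordOf A q x = (m : ℚ) / n := by
  have hex : ∃ n : ℕ, 0 < n ∧ ∃ m : ℤ, A.valuation x ^ n = A.valuation (q : K) ^ m :=
    ⟨n, hn, m, h⟩
  unfold ordOf
  rw [dif_pos hex]
  exact B_slope_unique hq hA (Classical.choose_spec hex).1 hn
    (Classical.choose_spec (Classical.choose_spec hex).2) h

theorem B_isOrd [Algebra ℚ K] [Algebra.IsAlgebraic ℚ K] (hq : q.Prime)
    (hA : (q : K) ∈ A.nonunits) : IsOrd A (ordOf A q) := by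
  have hγ0 : 0 < A.valuation (q : K) := B_val_q_pos hq
  have hγ1 : A.valuation (q : K) < 1 := B_val_q_lt_one hA
  refine ⟨?_, ?_⟩
  · intro x y hx hy
    obtain ⟨n₁, hn₁, m₁, h₁⟩ := B_exists_pow_eq hq hA hx (Algebra.IsAlgebraic.isAlgebraic x)
    obtain ⟨n₂, hn₂, m₂, h₂⟩ := B_exists_pow_eq hq hA hy (Algebra.IsAlgebraic.isAlgebraic y)
    have h₃ : A.valuation (x * y) ^ (n₁ * n₂) =
        A.valuation (q : K) ^ (m₁ * n₂ + m₂ * n₁) := by
      rw [map_mul, mul_pow, pow_mul, h₁, mul_comm n₁ n₂, pow_mul, h₂, zpow_add₀ hγ0.ne',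
        zpow_mul, zpow_mul, zpow_natCast, zpow_natCast]
    rw [B_ordOf_eq hq hA (Nat.mul_pos hn₁ hn₂) h₃, B_ordOf_eq hq hA hn₁ h₁,
      B_ordOf_eq hq hA hn₂ h₂]
    have hnq₁ : (n₁ : ℚ) ≠ 0 := by exact_mod_cast hn₁.ne'
    have hnq₂ : (n₂ : ℚ) ≠ 0 := by exact_mod_cast hn₂.ne'
    push_cast
    field_simp
  · intro x hx
    obtain ⟨n, hn, m, h⟩ := B_exists_pow_eq hq hA hx (Algebra.IsAlgebraic.isAlgebraic x)
    rw [B_ordOf_eq hq hA hn h, ← A.valuation_le_one_iff, ← pow_le_one_iff hn.ne', h,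
      zpow_le_one_iff_right_of_lt_one₀ hγ0 hγ1]
    have hnq : (0 : ℚ) < n := by exact_mod_cast hn
    rw [le_div_iff₀ hnq, zero_mul]
    exact_mod_cast Iff.rfl

theorem B_ordOf_rat [Algebra ℚ K] (hq : q.Prime) (hA : (q : K) ∈ A.nonunits) {c : ℚ}
    (hc : c ≠ 0) : ordOf A q (algebraMap ℚ K c) = padicValRat q c := by
  have h : A.valuation (algebraMap ℚ K c) ^ 1 = A.valuation (q : K) ^ (padicValRat q c) := by
    rw [pow_one, B_val_rat hq hA hc]
  rw [B_ordOf_eq hq hA Nat.one_pos h]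
  simp

end prime

end OrdC

/-- **Package B.** A `ℚ`-valued `ord` on `ℚ̄` attached to a valuation subring over `q`,
extending the `q`-adic valuation of `ℚ`. -/
theorem exists_ord (A : ValuationSubring (AlgebraicClosure ℚ)) {q : ℕ} (hq : q.Prime)
    (hA : A.LiesOverPrime q) :
    ∃ ord : AlgebraicClosure ℚ → ℚ, IsOrd A ord ∧
      ∀ x : ℚ, x ≠ 0 → ord (algebraMap ℚ (AlgebraicClosure ℚ) x) = padicValRat q x := by
  have : Algebra.IsAlgebraic ℚ (AlgebraicClosure ℚ) := AlgebraicClosure.isAlgebraic ℚ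
  exact ⟨OrdC.ordOf A q, OrdC.B_isOrd hq hA, fun _ hx => OrdC.B_ordOf_rat hq hA hx⟩

end Fermat.Agent.S05
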