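/-
S05 package J (helper5): instantiation of the abstract theorems at the Frey curve.
-/
import Fermat.Agent.S05.OrdConstruct
import Fermat.Agent.S05.Inertia
import Fermat.Prelude.Def_FLTPrelim_Ramification

set_option autoImplicit false

namespace Fermat.Agent.S05

open WeierstrassCurve WeierstrassCurve.Affine

section freyConstants

variable (P : FreyPackage)

/-- `a^p, b^p, c^p` as rationals. -/
noncomputable def frA : ℚ := (P.a : ℚ) ^ P.p
noncomputable def frB : ℚ := (P.b : ℚ) ^ P.p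
noncomputable def frC : ℚ := (P.c : ℚ) ^ P.p

lemma frA_add_frB : frA P + frB P = frC P := by
  have := P.hFLT
  unfold frA frB frC
  exact_mod_cast this

lemma frey_b₂ : P.freyCurve.b₂ = frB P - frA P := by
  simp only [WeierstrassCurve.b₂, FreyPackage.freyCurve, frA, frB]
  ring

lemma frey_b₄ : P.freyCurve.b₄ = -(frA P * frB P) / 8 := by
  simp only [WeierstrassCurve.b₄, FreyPackage.freyCurve, frA, frB]
  ring

lemma frey_b₆ : P.freyCurve.b₆ = 0 := by
  simp only [WeierstrassCurve.b₆, FreyPackage.freyCurve]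
  ring

lemma frey_b₈ : P.freyCurve.b₈ = -(frA P * frB P) ^ 2 / 256 := by
  simp only [WeierstrassCurve.b₈, FreyPackage.freyCurve, frA, frB]
  ring

lemma frey_Δ : P.freyCurve.Δ = (frA P * frB P * frC P) ^ 2 / 256 := by
  rw [WeierstrassCurve.Δ, frey_b₂, frey_b₄, frey_b₆, frey_b₈, ← frA_add_frB]
  ring

end freyConstants


section ratOrd

local notation "K" => AlgebraicClosure ℚ

variable {A : ValuationSubring K} {ord : K → ℚ} (hord : IsOrd A ord) {q : ℕ} (hq : q.Prime)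
  (hQ : ∀ x : ℚ, x ≠ 0 → ord (algebraMap ℚ K x) = padicValRat q x)

include hord hQ in
lemma J_mem_of_rat {x : ℚ} (h : x = 0 ∨ 0 ≤ padicValRat q x) : algebraMap ℚ K x ∈ A := by
  rcases eq_or_ne x 0 with rfl | hx
  · simp
  · have hx' : algebraMap ℚ K x ≠ 0 := by simpa using hx
    rw [hord.mem_iff hx', hQ x hx]
    rcases h with h | h
    · exact absurd h hx
    · exact_mod_cast h

include hQ in
lemma J_isU_of_rat {x : ℚ} (hx : x ≠ 0) (h : padicValRat q x = 0) :
    IsU ord (algebraMap ℚ K x) :=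
  ⟨by simpa using hx, by rw [hQ x hx, h]; simp⟩

include hq in
lemma J_padicValRat_int_div (z : ℤ) (n : ℕ) (hz : z ≠ 0) (hn : ¬ q ∣ n) :
    padicValRat q ((z : ℚ) / n) = padicValInt q z := by
  have := Fact.mk hq
  have hn0 : n ≠ 0 := fun h => hn (h ▸ dvd_zero q)
  rw [padicValRat.div (by exact_mod_cast hz) (by exact_mod_cast hn0), padicValRat.of_int,
    padicValRat.of_nat, padicValNat.eq_zero_of_not_dvd hn]
  simp

include hord hQ hq in
lemma J_int_div_mem (z : ℤ) (n : ℕ) (hn : ¬ q ∣ n) : algebraMap ℚ K ((z : ℚ) / n) ∈ A := by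
  apply J_mem_of_rat hord hQ
  rcases eq_or_ne z 0 with rfl | hz
  · left; simp
  · right
    rw [J_padicValRat_int_div hq z n hz hn]
    exact_mod_cast Nat.zero_le _

include hq in
lemma J_padicValRat_int_div_eq_zero (z : ℤ) (n : ℕ) (hz : ¬ (q : ℤ) ∣ z) (hn : ¬ q ∣ n) :
    (z : ℚ) / n ≠ 0 ∧ padicValRat q ((z : ℚ) / n) = 0 := by
  have hz0 : z ≠ 0 := fun h => hz (h ▸ dvd_zero _)
  have hn0 : n ≠ 0 := fun h => hn (h ▸ dvd_zero q)
  refine ⟨div_ne_zero (by exact_mod_cast hz0) (by exact_mod_cast hn0), ?_⟩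
  rw [J_padicValRat_int_div hq z n hz0 hn, padicValInt.eq_zero_of_not_dvd hz]
  simp

include hq in
lemma J_padicValRat_int_pos (z : ℤ) (hz0 : z ≠ 0) (hz : (q : ℤ) ∣ z) :
    0 < padicValRat q (z : ℚ) := by
  have := Fact.mk hq
  rw [padicValRat.of_int]
  have : 1 ≤ padicValInt q z := by
    have := (padicValInt_dvd_iff (p := q) 1 z).1 (by simpa using hz)
    rcases this with h | h
    · exact absurd h hz0
    · exact h
  exact_mod_cast this


include hQ hq in
lemma J_isU_int_div (z : ℤ) (n : ℕ) (hz : ¬ (q : ℤ) ∣ z) (hn : ¬ q ∣ n) :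
    IsU ord (algebraMap ℚ K ((z : ℚ) / n)) := by
  obtain ⟨h0, h1⟩ := J_padicValRat_int_div_eq_zero hq z n hz hn
  exact J_isU_of_rat hQ h0 h1

end ratOrd

section main

local notation "K" => AlgebraicClosure ℚ

variable (P : FreyPackage)

lemma J_not_dvd_pow {q : ℕ} (hq : q.Prime) {z : ℤ} (n : ℕ) (hz : ¬ (q : ℤ) ∣ z) :
    ¬ (q : ℤ) ∣ z ^ n := fun h =>
  hz ((Nat.prime_iff_prime_int.1 hq).dvd_of_dvd_pow h)

lemma J_not_dvd_two_pow {q : ℕ} (hq : q.Prime) (hq2 : q ≠ 2) (n : ℕ) : ¬ q ∣ 2 ^ n := fun h =>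
  hq2 ((Nat.prime_dvd_prime_iff_eq hq Nat.prime_two).1 (hq.dvd_of_dvd_pow h))

lemma J_coprime_aux {q : ℕ} (hq : q.Prime) {x y : ℤ} (h : gcd x y = 1)
    (hx : (q : ℤ) ∣ x) (hy : (q : ℤ) ∣ y) : False := by
  have h1 : (q : ℤ) ∣ 1 := h ▸ dvd_gcd hx hy
  have h2 : (q : ℤ) = 1 := Int.eq_one_of_dvd_one (by positivity) h1
  exact hq.one_lt.ne' (by exact_mod_cast h2)


lemma J_bc_b₂ : (P.freyCurve⁄K).b₂ = algebraMap ℚ K (frB P - frA P) := by
  rw [← frey_b₂]; simp only [Affine.baseChange, WeierstrassCurve.baseChange, map_b₂]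

lemma J_bc_b₄ : (P.freyCurve⁄K).b₄ = algebraMap ℚ K (-(frA P * frB P) / 8) := by
  rw [← frey_b₄]; simp only [Affine.baseChange, WeierstrassCurve.baseChange, map_b₄]

lemma J_bc_b₆ : (P.freyCurve⁄K).b₆ = 0 := by
  have : (P.freyCurve⁄K).b₆ = algebraMap ℚ K P.freyCurve.b₆ := by
    simp only [Affine.baseChange, WeierstrassCurve.baseChange, map_b₆]
  rw [this, frey_b₆, map_zero]

lemma J_bc_Δ : (P.freyCurve⁄K).Δ = algebraMap ℚ K ((frA P * frB P * frC P) ^ 2 / 256) := by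
  rw [← frey_Δ]; simp only [Affine.baseChange, WeierstrassCurve.baseChange, map_Δ]

variable {P}

/-- the Frey curve has coefficients in `A`. -/
lemma J_integral {A : ValuationSubring K} {ord : K → ℚ} (hord : IsOrd A ord) {q : ℕ}
    (hq : q.Prime) (hq2 : q ≠ 2)
    (hQ : ∀ x : ℚ, x ≠ 0 → ord (algebraMap ℚ K x) = padicValRat q x) :
    IsIntegralW (P.freyCurve⁄K) A := by
  refine ⟨?_, ?_, ?_, ?_, ?_⟩
  · simp [FreyPackage.freyCurve]
  · have h := J_int_div_mem hord hq hQ (P.b ^ P.p - 1 - P.a ^ P.p) (2 ^ 2)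
      (J_not_dvd_two_pow hq hq2 2)
    have e : (P.freyCurve⁄K).a₂ =
        algebraMap ℚ K (((P.b ^ P.p - 1 - P.a ^ P.p : ℤ) : ℚ) / ((2 ^ 2 : ℕ) : ℚ)) := by
      simp only [Affine.baseChange_a₂, FreyPackage.freyCurve]
      congr 1; push_cast; ring
    rw [e]; exact h
  · simp [FreyPackage.freyCurve]
  · have h := J_int_div_mem hord hq hQ (-(P.a ^ P.p) * (P.b ^ P.p)) (2 ^ 4)
      (J_not_dvd_two_pow hq hq2 4)
    have e : (P.freyCurve⁄K).a₄ =
        algebraMap ℚ K (((-(P.a ^ P.p) * (P.b ^ P.p) : ℤ) : ℚ) / ((2 ^ 4 : ℕ) : ℚ)) := by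
      simp only [Affine.baseChange_a₄, FreyPackage.freyCurve]
      congr 1; push_cast; ring
    rw [e]; exact h
  · simp [FreyPackage.freyCurve]


/-- the statement of `unram_of_good` (package F) for `k = ℚ`, `K = ℚ̄`. -/
def GoodStmt : Prop :=
  ∀ (W : Affine ℚ) (A : ValuationSubring K) (ord : K → ℚ), IsOrd A ord → IsU ord (2 : K) →
    IsIntegralW (W⁄K) A → IsU ord (W⁄K).Δ →
    ∀ p : ℕ, p.Prime → p ≠ 2 → IsU ord (p : K) →
    ∀ σ : K ≃ₐ[ℚ] K, IsInertial A σ →
    ∀ Q : (W⁄K).Point, (p : ℤ) • Q = 0 → σ • Q = Q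

/-- the statement of `unram_of_mult` (package I) for `k = ℚ`, `K = ℚ̄`. -/
def MultStmt : Prop :=
  ∀ (W : Affine ℚ) (A : ValuationSubring K) (ord : K → ℚ), IsOrd A ord → IsU ord (2 : K) →
    IsIntegralW (W⁄K) A → (W⁄K).Δ ≠ 0 →
    ∀ p : ℕ, p.Prime → p ≠ 2 → IsU ord (p : K) →
    ∀ r g ε : ℚ, algebraMap ℚ K r ∈ A → Fpoly (W⁄K) (algebraMap ℚ K r) = 0 →
    IsU ord (beta2 (W⁄K) (algebraMap ℚ K r)) →
    alpha4 (W⁄K) (algebraMap ℚ K r) = algebraMap ℚ K (ε * g ^ p) →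
    IsU ord (algebraMap ℚ K ε) → g ≠ 0 → 0 < ord (algebraMap ℚ K g) →
    ∀ σ : K ≃ₐ[ℚ] K, IsInertial A σ →
    ∀ Q : (W⁄K).Point, (p : ℤ) • Q = 0 → σ • Q = Q

/-- S05 for the Frey curve, from the abstract good/multiplicative theorems. -/
theorem frey_unramified_of (hGood : GoodStmt) (hMult : MultStmt)
    (P : FreyPackage) {q : ℕ} (hq : q.Prime) (hq2 : q ≠ 2)
    (hqp : q ≠ P.p) : P.GaloisRepUnramifiedAt q := by
  intro A hA σ hσ x
  obtain ⟨ord, hord, hQ⟩ := exists_ord A hq hA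
  have hin : IsInertial A σ := isInertial_of_mem A σ hσ
  have hW : IsIntegralW (P.freyCurve⁄K) A := J_integral hord hq hq2 hQ
  have hp2 : P.p ≠ 2 := by have := P.hp5; omega
  have h2 : IsU ord (2 : K) := by
    have h := J_isU_int_div hq hQ (ord := ord) 2 1
      (by
        intro h
        have h' : q ∣ 2 := by exact_mod_cast h
        exact hq2 ((Nat.prime_dvd_prime_iff_eq hq Nat.prime_two).1 h'))
      (by simpa using hq.one_lt.ne')
    simpa using h
  have hpu : IsU ord ((P.p : ℕ) : K) := by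
    have h := J_isU_int_div hq hQ (ord := ord) (P.p : ℤ) 1
      (by
        intro h
        have h' : q ∣ P.p := by exact_mod_cast h
        exact hqp ((Nat.prime_dvd_prime_iff_eq hq P.pp).1 h'))
      (by simpa using hq.one_lt.ne')
    simpa using h
  have hx : ((P.p : ℕ) : ℤ) • x.1 = 0 :=
    (Submodule.mem_torsionBy_iff _ _).1 x.2
  apply Subtype.ext
  show σ • x.1 = x.1
  have hn16 : ¬ q ∣ 2 ^ 4 := J_not_dvd_two_pow hq hq2 4
  have hn256 : ¬ q ∣ 2 ^ 8 := J_not_dvd_two_pow hq hq2 8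
  have hn4 : ¬ q ∣ 2 ^ 2 := J_not_dvd_two_pow hq hq2 2
  have hn1 : ¬ q ∣ 1 := by simpa using hq.one_lt.ne'
  have hΔ0 : (P.freyCurve⁄K).Δ ≠ 0 := by
    rw [J_bc_Δ]
    simp only [ne_eq, map_eq_zero, frA, frB, frC]
    have := P.ha0; have := P.hb0; have := P.hc0
    positivity
  by_cases ha : (q : ℤ) ∣ P.a
  · -- q ∣ a : r = 0, g = a, ε = -b^p/16
    have hb : ¬ (q : ℤ) ∣ P.b := fun hb => J_coprime_aux hq P.hgcdab ha hb
    refine hMult P.freyCurve A ord hord h2 hW hΔ0 P.p P.pp hp2 hpu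
      0 (P.a : ℚ) (-(frB P) / 16) ?_ ?_ ?_ ?_ ?_ ?_ ?_ σ hin x.1 hx
    · simp
    · simp [Fpoly, J_bc_b₆]
    · have h := J_isU_int_div hq hQ (ord := ord) (P.b ^ P.p - P.a ^ P.p) 1 ?_ hn1
      · have e : beta2 (P.freyCurve⁄K) (algebraMap ℚ K 0) =
            algebraMap ℚ K (((P.b ^ P.p - P.a ^ P.p : ℤ) : ℚ) / ((1 : ℕ) : ℚ)) := by
          rw [beta2, J_bc_b₂, map_zero, mul_zero, add_zero]
          congr 1; simp [frA, frB]
        rw [e]; exact h
      · intro h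
        have h1 : (q : ℤ) ∣ P.a ^ P.p := dvd_pow ha P.hp0
        have h2 : (q : ℤ) ∣ P.b ^ P.p := by
          have := dvd_add h h1
          simpa using this
        exact J_not_dvd_pow hq _ hb h2
    · rw [alpha4, J_bc_b₂, J_bc_b₄, map_zero]
      have : ((2 : K)) = algebraMap ℚ K 2 := by simp
      rw [this, zero_mul, add_zero, zero_pow (by norm_num), mul_zero, add_zero, ← map_div₀]
      congr 1
      simp only [frA, frB]; ring
    · have h := J_isU_int_div hq hQ (ord := ord) (-(P.b ^ P.p)) (2 ^ 4) ?_ hn16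
      · have e : algebraMap ℚ K (-(frB P) / 16) =
            algebraMap ℚ K (((-(P.b ^ P.p) : ℤ) : ℚ) / ((2 ^ 4 : ℕ) : ℚ)) := by
          congr 1; simp only [frB]; push_cast; ring
        rw [e]; exact h
      · rw [dvd_neg]; exact J_not_dvd_pow hq _ hb
    · exact_mod_cast P.ha0
    · rw [hQ _ (by exact_mod_cast P.ha0)]
      have := J_padicValRat_int_pos hq P.a P.ha0 ha
      exact_mod_cast this
  by_cases hb : (q : ℤ) ∣ P.b
  · -- q ∣ b : r = 0, g = b, ε = -a^p/16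
    refine hMult P.freyCurve A ord hord h2 hW hΔ0 P.p P.pp hp2 hpu
      0 (P.b : ℚ) (-(frA P) / 16) ?_ ?_ ?_ ?_ ?_ ?_ ?_ σ hin x.1 hx
    · simp
    · simp [Fpoly, J_bc_b₆]
    · have h := J_isU_int_div hq hQ (ord := ord) (P.b ^ P.p - P.a ^ P.p) 1 ?_ hn1
      · have e : beta2 (P.freyCurve⁄K) (algebraMap ℚ K 0) =
            algebraMap ℚ K (((P.b ^ P.p - P.a ^ P.p : ℤ) : ℚ) / ((1 : ℕ) : ℚ)) := by
          rw [beta2, J_bc_b₂, map_zero, mul_zero, add_zero]
          congr 1; simp [frA, frB]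
        rw [e]; exact h
      · intro h
        have h1 : (q : ℤ) ∣ P.b ^ P.p := dvd_pow hb P.hp0
        have h2 : (q : ℤ) ∣ P.a ^ P.p := by
          have := dvd_sub h1 h
          simpa using this
        exact J_not_dvd_pow hq _ ha h2
    · rw [alpha4, J_bc_b₂, J_bc_b₄, map_zero]
      have : ((2 : K)) = algebraMap ℚ K 2 := by simp
      rw [this, zero_mul, add_zero, zero_pow (by norm_num), mul_zero, add_zero, ← map_div₀]
      congr 1
      simp only [frA, frB]; ring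
    · have h := J_isU_int_div hq hQ (ord := ord) (-(P.a ^ P.p)) (2 ^ 4) ?_ hn16
      · have e : algebraMap ℚ K (-(frA P) / 16) =
            algebraMap ℚ K (((-(P.a ^ P.p) : ℤ) : ℚ) / ((2 ^ 4 : ℕ) : ℚ)) := by
          congr 1; simp only [frA]; push_cast; ring
        rw [e]; exact h
      · rw [dvd_neg]; exact J_not_dvd_pow hq _ ha
    · exact_mod_cast P.hb0
    · rw [hQ _ (by exact_mod_cast P.hb0)]
      have := J_padicValRat_int_pos hq P.b P.hb0 hb
      exact_mod_cast this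
  by_cases hc : (q : ℤ) ∣ P.c
  · -- q ∣ c : r = a^p/4, g = c, ε = a^p/16
    have hFLT : P.a ^ P.p + P.b ^ P.p = P.c ^ P.p := P.hFLT
    have hAB := frA_add_frB P
    refine hMult P.freyCurve A ord hord h2 hW hΔ0 P.p P.pp hp2 hpu
      (frA P / 4) (P.c : ℚ) (frA P / 16) ?_ ?_ ?_ ?_ ?_ ?_ ?_ σ hin x.1 hx
    · have h := J_int_div_mem hord hq hQ (P.a ^ P.p) (2 ^ 2) hn4
      have e : algebraMap ℚ K (frA P / 4) =
          algebraMap ℚ K (((P.a ^ P.p : ℤ) : ℚ) / ((2 ^ 2 : ℕ) : ℚ)) := by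
        congr 1; simp only [frA]; push_cast; ring
      rw [e]; exact h
    · rw [Fpoly, J_bc_b₂, J_bc_b₄, J_bc_b₆]
      have h4 : ((4 : K)) = algebraMap ℚ K 4 := by simp
      have h2' : ((2 : K)) = algebraMap ℚ K 2 := by simp
      rw [h4, h2', ← map_pow, ← map_pow, ← map_mul, ← map_mul, ← map_mul, ← map_mul,
        ← map_add, ← map_add, add_zero]
      rw [show (4 : ℚ) * (frA P / 4) ^ 3 + (frB P - frA P) * (frA P / 4) ^ 2 +
        2 * (-(frA P * frB P) / 8) * (frA P / 4) = 0 by ring, map_zero]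
    · have h := J_isU_int_div hq hQ (ord := ord) (P.b ^ P.p + 2 * P.a ^ P.p) 1 ?_ hn1
      · have e : beta2 (P.freyCurve⁄K) (algebraMap ℚ K (frA P / 4)) =
            algebraMap ℚ K (((P.b ^ P.p + 2 * P.a ^ P.p : ℤ) : ℚ) / ((1 : ℕ) : ℚ)) := by
          rw [beta2, J_bc_b₂]
          have h12 : ((12 : K)) = algebraMap ℚ K 12 := by simp
          rw [h12, ← map_mul, ← map_add]
          congr 1; simp only [frA, frB]; push_cast; ring
        rw [e]; exact h
      · intro h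
        have h1 : (q : ℤ) ∣ P.c ^ P.p := dvd_pow hc P.hp0
        have h2 : (q : ℤ) ∣ P.a ^ P.p := by
          have := dvd_sub h h1
          rw [← hFLT] at this
          have e : P.b ^ P.p + 2 * P.a ^ P.p - (P.a ^ P.p + P.b ^ P.p) = P.a ^ P.p := by ring
          rwa [e] at this
        exact J_not_dvd_pow hq _ ha h2
    · rw [alpha4, J_bc_b₂, J_bc_b₄]
      have h6 : ((6 : K)) = algebraMap ℚ K 6 := by simp
      have h2' : ((2 : K)) = algebraMap ℚ K 2 := by simp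
      rw [h6, h2', ← map_pow, ← map_mul, ← map_mul, ← map_add, ← map_add, ← map_div₀]
      congr 1
      have hC : (P.c : ℚ) ^ P.p = frA P + frB P := by rw [hAB]; rfl
      rw [hC]; ring
    · have h := J_isU_int_div hq hQ (ord := ord) (P.a ^ P.p) (2 ^ 4) ?_ hn16
      · have e : algebraMap ℚ K (frA P / 16) =
            algebraMap ℚ K (((P.a ^ P.p : ℤ) : ℚ) / ((2 ^ 4 : ℕ) : ℚ)) := by
          congr 1; simp only [frA]; push_cast; ring
        rw [e]; exact h
      · exact J_not_dvd_pow hq _ ha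
    · exact_mod_cast P.hc0
    · rw [hQ _ (by exact_mod_cast P.hc0)]
      have := J_padicValRat_int_pos hq P.c P.hc0 hc
      exact_mod_cast this
  · -- good reduction
    refine hGood P.freyCurve A ord hord h2 hW ?_ P.p P.pp hp2 hpu σ hin x.1 hx
    have h := J_isU_int_div hq hQ (ord := ord) ((P.a ^ P.p * P.b ^ P.p * P.c ^ P.p) ^ 2)
      (2 ^ 8) ?_ hn256
    · have e : (P.freyCurve⁄K).Δ = algebraMap ℚ K
          ((((P.a ^ P.p * P.b ^ P.p * P.c ^ P.p) ^ 2 : ℤ) : ℚ) / ((2 ^ 8 : ℕ) : ℚ)) := by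
        rw [J_bc_Δ]; congr 1; simp only [frA, frB, frC]; push_cast; ring
      rw [e]; exact h
    · apply J_not_dvd_pow hq
      intro h
      have hpr := Nat.prime_iff_prime_int.1 hq
      rcases hpr.dvd_mul.1 h with h | h
      · rcases hpr.dvd_mul.1 h with h | h
        · exact J_not_dvd_pow hq _ ha h
        · exact J_not_dvd_pow hq _ hb h
      · exact J_not_dvd_pow hq _ hc h

end main

end Fermat.Agent.S05
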