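/-
S05 package H, core (helper22): (K) at the level of points, and the induction `p · w(P) ∈ 2hℤ`,
with the three field-level statements of package G taken as explicit hypotheses
(`GKField`, `GKDbl`, `GKTwo`), so that this file only depends on `Defs` and `XFormulas`.
The final skeleton-signature theorems are in `Induction.lean`.
-/
import Fermat.Agent.S05.Defs
import Fermat.Agent.S05.XFormulas

set_option autoImplicit false

namespace Fermat.Agent.S05.HCore

open WeierstrassCurve WeierstrassCurve.Affine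

set_option linter.unusedSectionVars false

/-! ### The field-level statements of package G, as propositions -/

section Gstmt
variable {K : Type*} [Field K]

/-- statement of `K_field` (package G). -/
def GKField (ord : K → ℚ) : Prop :=
  ∀ {h : ℚ}, 0 < h → ∀ {β α : K}, IsU ord β → α ≠ 0 → ord α = h →
    ∀ {ξ₁ ξ₂ r₁ r₂ : K}, ξ₁ ≠ ξ₂ →
    r₁ * r₂ * (ξ₁ - ξ₂) ^ 2 = (ξ₁ * ξ₂ - α) ^ 2 →
    (r₁ + r₂) * (ξ₁ - ξ₂) ^ 2 = 2 * (ξ₁ + ξ₂) * (ξ₁ * ξ₂ + α) + β * ξ₁ * ξ₂ →
    (wK ord h r₁ = min (wK ord h ξ₁ + wK ord h ξ₂) (2 * h - wK ord h ξ₁ - wK ord h ξ₂) ∧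
        wK ord h r₂ = |wK ord h ξ₁ - wK ord h ξ₂|) ∨
      (wK ord h r₁ = |wK ord h ξ₁ - wK ord h ξ₂| ∧
        wK ord h r₂ = min (wK ord h ξ₁ + wK ord h ξ₂) (2 * h - wK ord h ξ₁ - wK ord h ξ₂))

/-- statement of `K_dbl_field` (package G). -/
def GKDbl (ord : K → ℚ) : Prop :=
  ∀ {h : ℚ}, 0 < h → ∀ {β α : K}, IsU ord β → α ≠ 0 → ord α = h →
    ∀ {ξ r : K}, ξ * (4 * ξ ^ 2 + β * ξ + 4 * α) ≠ 0 →
    r * (ξ * (4 * ξ ^ 2 + β * ξ + 4 * α)) = (ξ ^ 2 - α) ^ 2 →
    wK ord h r = min (2 * wK ord h ξ) (2 * h - 2 * wK ord h ξ)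

/-- statement of `K_two_torsion_field` (package G). -/
def GKTwo (ord : K → ℚ) : Prop :=
  ∀ {h : ℚ}, 0 < h → ∀ {β α : K}, IsU ord β → α ≠ 0 → ord α = h →
    ∀ {ξ : K}, ξ * (4 * ξ ^ 2 + β * ξ + 4 * α) = 0 →
    wK ord h ξ = 0 ∨ wK ord h ξ = h

end Gstmt

/-! ### Arithmetic of `v ≡ ± t mod 2h` -/

/-- `v ≡ ± t mod 2h`. -/
def HRep (h t v : ℚ) : Prop := ∃ j : ℤ, v = t - 2 * h * j ∨ v = -(t - 2 * h * j)

theorem HRep_uniq {h t v v' : ℚ} (hh : 0 < h) (hv0 : 0 ≤ v) (hvh : v ≤ h) (hv0' : 0 ≤ v')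
    (hvh' : v' ≤ h) (H : HRep h t v) (H' : HRep h t v') : v = v' := by
  obtain ⟨j, hj⟩ := H
  obtain ⟨j', hj'⟩ := H'
  -- the integer `d = j' - j`
  have key : ∀ d : ℤ, (-(1:ℚ) < d) → ((d:ℚ) < 1) → d = 0 := by
    intro d h1 h2
    have h1' : (-1 : ℤ) < d := by exact_mod_cast h1
    have h2' : d < 1 := by exact_mod_cast h2
    omega
  have key2 : ∀ d : ℤ, (-(1:ℚ) < d) → ((d:ℚ) < 2) → d = 0 ∨ d = 1 := by
    intro d h1 h2
    have h1' : (-1 : ℤ) < d := by exact_mod_cast h1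
    have h2' : d < 2 := by exact_mod_cast h2
    omega
  rcases hj with hj | hj <;> rcases hj' with hj' | hj'
  · -- v - v' = 2h (j' - j)
    have e : v - v' = 2 * h * ((j' - j : ℤ) : ℚ) := by push_cast; rw [hj, hj']; ring
    have hd := key (j' - j) (by nlinarith) (by nlinarith)
    rw [hd] at e; simp at e; linarith
  · -- v + v' = 2h (j' - j)
    have e : v + v' = 2 * h * ((j' - j : ℤ) : ℚ) := by push_cast; rw [hj, hj']; ring
    rcases key2 (j' - j) (by nlinarith) (by nlinarith) with hd | hd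
    · rw [hd] at e; simp at e; linarith
    · rw [hd] at e; simp at e; linarith
  · have e : v + v' = 2 * h * ((j - j' : ℤ) : ℚ) := by push_cast; rw [hj, hj']; ring
    rcases key2 (j - j') (by nlinarith) (by nlinarith) with hd | hd
    · rw [hd] at e; simp at e; linarith
    · rw [hd] at e; simp at e; linarith
  · have e : v - v' = 2 * h * ((j - j' : ℤ) : ℚ) := by push_cast; rw [hj, hj']; ring
    have hd := key (j - j') (by nlinarith) (by nlinarith)
    rw [hd] at e; simp at e; linarith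

theorem HRep_fold {h t s s' : ℚ} (H : HRep h t s') :
    (HRep h (t + s) (min (s' + s) (2 * h - s' - s)) ∧ HRep h (t - s) |s' - s|) ∨
    (HRep h (t - s) (min (s' + s) (2 * h - s' - s)) ∧ HRep h (t + s) |s' - s|) := by
  obtain ⟨j, hj⟩ := H
  have ha : min (s' + s) (2 * h - s' - s) = s' + s ∨ min (s' + s) (2 * h - s' - s) = 2 * h - s' - s :=
    min_choice _ _
  have hb : |s' - s| = s' - s ∨ |s' - s| = -(s' - s) := abs_choice _
  rcases hj with hj | hj
  · left
    constructor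
    · rcases ha with ha | ha
      · exact ⟨j, Or.inl (by rw [ha, hj]; ring)⟩
      · exact ⟨j + 1, Or.inr (by rw [ha, hj]; push_cast; ring)⟩
    · rcases hb with hb | hb
      · exact ⟨j, Or.inl (by rw [hb, hj]; ring)⟩
      · exact ⟨j, Or.inr (by rw [hb, hj]; ring)⟩
  · right
    constructor
    · rcases ha with ha | ha
      · exact ⟨j, Or.inr (by rw [ha, hj]; ring)⟩
      · exact ⟨j - 1, Or.inl (by rw [ha, hj]; push_cast; ring)⟩
    · rcases hb with hb | hb
      · exact ⟨j, Or.inr (by rw [hb, hj]; ring)⟩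
      · exact ⟨j, Or.inl (by rw [hb, hj]; ring)⟩

theorem HRep_final {h s v : ℚ} {k : ℕ} (H1 : HRep h (k * s) v) (H2 : HRep h ((k + 1) * s) v) :
    ∃ j : ℤ, (2 * (k : ℚ) + 1) * s = 2 * h * j := by
  obtain ⟨j₁, h₁⟩ := H1
  obtain ⟨j₂, h₂⟩ := H2
  rcases h₁ with h₁ | h₁ <;> rcases h₂ with h₂ | h₂
  · refine ⟨(2 * (k : ℤ) + 1) * (j₂ - j₁), ?_⟩
    have : s = 2 * h * (j₂ - j₁) := by linarith
    push_cast
    rw [this]; ring
  · refine ⟨j₁ + j₂, ?_⟩
    push_cast; linarith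
  · refine ⟨j₁ + j₂, ?_⟩
    push_cast; linarith
  · refine ⟨(2 * (k : ℤ) + 1) * (j₂ - j₁), ?_⟩
    have : s = 2 * h * (j₂ - j₁) := by linarith
    push_cast
    rw [this]; ring

section HI
variable {K : Type*} [Field K] [DecidableEq K] {ord : K → ℚ}

theorem H_wK_nonneg {h : ℚ} (hh : 0 ≤ h) (ξ : K) : 0 ≤ wK ord h ξ := by
  unfold wK
  split_ifs
  · exact hh
  · exact le_max_left _ _

theorem H_wK_le {h : ℚ} (hh : 0 ≤ h) (ξ : K) : wK ord h ξ ≤ h := by
  unfold wK
  split_ifs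
  · exact le_rfl
  · exact max_le hh (min_le_right _ _)

theorem H_wPt_nonneg {W : Affine K} {h : ℚ} (hh : 0 ≤ h) (r : K) (P : W.Point) :
    0 ≤ wPt ord h r P := by
  cases P with
  | zero => simp [wPt]
  | some x y hxy => simpa [wPt] using H_wK_nonneg hh _

theorem H_wPt_le {W : Affine K} {h : ℚ} (hh : 0 ≤ h) (r : K) (P : W.Point) :
    wPt ord h r P ≤ h := by
  cases P with
  | zero => simpa [wPt] using hh
  | some x y hxy => simpa [wPt] using H_wK_le hh _

theorem H_wPt_zero {W : Affine K} (h : ℚ) (r : K) : wPt ord h r (0 : W.Point) = 0 := rfl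

theorem H_wPt_some {W : Affine K} (h : ℚ) (r : K) {x y : K} (hxy : W.Nonsingular x y) :
    wPt ord h r (Point.some x y hxy) = wK ord h (x - r) := rfl

theorem H_wPt_neg {W : Affine K} (h : ℚ) (r : K) (P : W.Point) :
    wPt ord h r (-P) = wPt ord h r P := by
  cases P with
  | zero => rfl
  | some x y hxy => rfl

/-- (K) at the level of points. -/
theorem K_points (hG : GKField ord) (W : Affine K) (h2 : IsU ord (2 : K)) {h : ℚ} (hh : 0 < h)
    {r : K} (hr : Fpoly W r = 0) (hβ : IsU ord (beta2 W r))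
    (hα0 : alpha4 W r ≠ 0) (hα : ord (alpha4 W r) = h)
    {x₁ y₁ x₂ y₂ : K} (h₁ : W.Nonsingular x₁ y₁) (h₂ : W.Nonsingular x₂ y₂) (hx : x₁ ≠ x₂) :
    let P := Point.some x₁ y₁ h₁
    let Q := Point.some x₂ y₂ h₂
    let s := wPt ord h r P
    let t := wPt ord h r Q
    (wPt ord h r (P + Q) = min (s + t) (2 * h - s - t) ∧ wPt ord h r (P - Q) = |s - t|) ∨
    (wPt ord h r (P + Q) = |s - t| ∧ wPt ord h r (P - Q) = min (s + t) (2 * h - s - t)) := by
  intro P Q s t
  have h20 : (2 : K) ≠ 0 := h2.1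
  obtain ⟨x₃, y₃, x₄, y₄, h₃, h₄, e₃, e₄, hN, hS, -, -⟩ := xadd W h20 h₁ h₂ hx
  have hne : x₁ - r ≠ x₂ - r := fun hc => hx (sub_left_injective hc)
  have hN' : (x₃ - r) * (x₄ - r) * ((x₁ - r) - (x₂ - r)) ^ 2 =
      ((x₁ - r) * (x₂ - r) - alpha4 W r) ^ 2 := by
    rw [← Nnum_shift W h20 hr x₁ x₂, ← hN, ← hS]; ring
  have hS' : ((x₃ - r) + (x₄ - r)) * ((x₁ - r) - (x₂ - r)) ^ 2 =
      2 * ((x₁ - r) + (x₂ - r)) * ((x₁ - r) * (x₂ - r) + alpha4 W r)
        + beta2 W r * (x₁ - r) * (x₂ - r) := by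
    rw [← Snum_shift W h20 hr x₁ x₂, ← hS]; ring
  have := hG hh hβ hα0 hα hne hN' hS'
  show (wPt ord h r (P + Q) = min (s + t) (2 * h - s - t) ∧ wPt ord h r (P - Q) = |s - t|) ∨
    (wPt ord h r (P + Q) = |s - t| ∧ wPt ord h r (P - Q) = min (s + t) (2 * h - s - t))
  have eP : P + Q = Point.some x₃ y₃ h₃ := e₃
  have eQ : P - Q = Point.some x₄ y₄ h₄ := e₄
  rw [eP, eQ]
  exact this

theorem K_dbl_points (hD : GKDbl ord) (hT : GKTwo ord) (W : Affine K) (h2 : IsU ord (2 : K)) {h : ℚ}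
    (hh : 0 < h) {r : K} (hr : Fpoly W r = 0) (hβ : IsU ord (beta2 W r))
    (hα0 : alpha4 W r ≠ 0) (hα : ord (alpha4 W r) = h) (P : W.Point) :
    wPt ord h r (P + P) = min (2 * wPt ord h r P) (2 * h - 2 * wPt ord h r P) := by
  have h20 : (2 : K) ≠ 0 := h2.1
  cases P with
  | zero =>
    show wPt ord h r ((0 : W.Point) + 0) =
      min (2 * wPt ord h r (0 : W.Point)) (2 * h - 2 * wPt ord h r (0 : W.Point))
    rw [add_zero, H_wPt_zero]
    have : (0:ℚ) ≤ 2 * h - 2 * 0 := by linarith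
    rw [mul_zero, min_eq_left (by linarith)]
  | some x y hxy =>
    have hFY : Yc W x y ^ 2 = (x - r) * (4 * (x - r) ^ 2 + beta2 W r * (x - r) + 4 * alpha4 W r) := by
      rw [Yc_sq W hxy.1, Fpoly_shift W h20 hr x]
    by_cases hY : Yc W x y = 0
    · rw [xdbl_zero W h20 hxy hY, H_wPt_zero, H_wPt_some]
      have hden : (x - r) * (4 * (x - r) ^ 2 + beta2 W r * (x - r) + 4 * alpha4 W r) = 0 := by
        rw [← hFY, hY]; ring
      rcases hT hh hβ hα0 hα hden with h0 | h0 <;> rw [h0] <;> simp [hh.le]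
    · obtain ⟨x₃, y₃, h₃, e₃, hx₃⟩ := xdbl W h20 hxy hY
      rw [e₃, H_wPt_some, H_wPt_some]
      have hden : (x - r) * (4 * (x - r) ^ 2 + beta2 W r * (x - r) + 4 * alpha4 W r) ≠ 0 := by
        rw [← hFY]; exact pow_ne_zero 2 hY
      refine hD hh hβ hα0 hα hden ?_
      rw [← Fpoly_shift W h20 hr x, ← Phi2_shift W h20 hr x, ← hx₃]; ring

/-- multiples `n • P`, `0 < n < p`, of a nonzero `p`-torsion point (`p` prime) are nonzero. -/
theorem H_nsmul_ne_zero {G : Type*} [AddGroup G] {p : ℕ} (hp : p.Prime) {P : G} (hP0 : P ≠ 0)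
    (hpP : p • P = 0) {n : ℕ} (hn0 : 0 < n) (hnp : n < p) : n • P ≠ 0 := by
  intro hn
  have h1 : addOrderOf P ∣ p := addOrderOf_dvd_of_nsmul_eq_zero hpP
  have h2 : addOrderOf P ∣ n := addOrderOf_dvd_of_nsmul_eq_zero hn
  rcases (Nat.dvd_prime hp).1 h1 with h | h
  · exact hP0 (AddMonoid.addOrderOf_eq_one_iff.1 h)
  · rw [h] at h2
    exact absurd (Nat.le_of_dvd hn0 h2) (not_le.2 hnp)

/-- two affine points with the same `x` are equal or opposite. -/
theorem H_eq_or_eq_neg_of_x_eq {W : Affine K} {x y₁ y₂ : K} (h₁ : W.Nonsingular x y₁)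
    (h₂ : W.Nonsingular x y₂) :
    Point.some x y₁ h₁ = Point.some x y₂ h₂ ∨ Point.some x y₁ h₁ = -Point.some x y₂ h₂ := by
  rcases Y_eq_of_X_eq h₁.1 h₂.1 rfl with h | h
  · left; subst h; rfl
  · right; subst h; rfl

theorem H_exists_some {W : Affine K} {P : W.Point} (hP : P ≠ 0) :
    ∃ (x y : K) (h : W.Nonsingular x y), P = Point.some x y h := by
  cases P with
  | zero => exact absurd rfl hP
  | some x y h => exact ⟨x, y, h, rfl⟩

/-- the induction: `p · w(P) ∈ 2hℤ` for a `p`-torsion point, `p` odd. -/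
theorem torsion_w (hG : GKField ord) (hD : GKDbl ord) (hT : GKTwo ord) (W : Affine K)
    (h2 : IsU ord (2 : K)) {h : ℚ}
    (hh : 0 < h) {r : K} (hr : Fpoly W r = 0) (hβ : IsU ord (beta2 W r))
    (hα0 : alpha4 W r ≠ 0) (hα : ord (alpha4 W r) = h)
    {p : ℕ} (hp : p.Prime) (hp2 : p ≠ 2) {P : W.Point} (hpP : (p : ℤ) • P = 0) :
    ∃ j : ℤ, (p : ℚ) * wPt ord h r P = 2 * h * j := by
  by_cases hP0 : P = 0
  · exact ⟨0, by rw [hP0, H_wPt_zero]; simp⟩
  have hpP' : p • P = 0 := by rwa [natCast_zsmul] at hpP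
  set s := wPt ord h r P with hs
  have hne : ∀ n : ℕ, 0 < n → n < p → n • P ≠ 0 := fun n hn0 hnp =>
    H_nsmul_ne_zero hp hP0 hpP' hn0 hnp
  -- the main induction
  have main : ∀ m : ℕ, m + 1 < p →
      HRep h (m * s) (wPt ord h r (m • P)) ∧ HRep h ((m + 1) * s) (wPt ord h r ((m + 1) • P)) := by
    intro m
    induction m with
    | zero =>
      intro _
      refine ⟨⟨0, Or.inl ?_⟩, ⟨0, Or.inl ?_⟩⟩
      · rw [zero_smul, H_wPt_zero]; simp
      · rw [zero_add, one_smul]; simp [hs]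
    | succ m ih =>
      intro hm
      have ih' := ih (by omega)
      refine ⟨by exact_mod_cast ih'.2, ?_⟩
      rcases Nat.eq_zero_or_pos m with hm0 | hm0
      · -- doubling
        subst hm0
        have e : ((0 + 1 + 1 : ℕ)) • P = P + P := by rw [zero_add, two_nsmul]
        rw [e, K_dbl_points hD hT W h2 hh hr hβ hα0 hα P]
        rcases min_choice (2 * wPt ord h r P) (2 * h - 2 * wPt ord h r P) with hc | hc
        · exact ⟨0, Or.inl (by rw [hc, ← hs]; push_cast; ring)⟩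
        · exact ⟨1, Or.inr (by rw [hc, ← hs]; push_cast; ring)⟩
      · -- general step
        have hQ0 : (m + 1) • P ≠ 0 := hne (m + 1) (by omega) (by omega)
        obtain ⟨x₁, y₁, h₁, e₁⟩ := H_exists_some hQ0
        obtain ⟨x₂, y₂, h₂, e₂⟩ := H_exists_some hP0
        have hx : x₁ ≠ x₂ := by
          intro hx
          subst hx
          rcases H_eq_or_eq_neg_of_x_eq h₁ h₂ with hc | hc
          · rw [← e₁, ← e₂] at hc
            apply hne m hm0 (by omega)
            rw [succ_nsmul] at hc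
            exact add_eq_right.1 hc
          · rw [← e₁, ← e₂] at hc
            apply hne (m + 1 + 1) (by omega) hm
            rw [succ_nsmul P (m + 1), hc, neg_add_cancel]
        have hK := K_points hG W h2 hh hr hβ hα0 hα h₁ h₂ hx
        simp only [] at hK
        rw [← e₁, ← e₂] at hK
        have eadd : (m + 1) • P + P = (m + 1 + 1) • P := (succ_nsmul P (m + 1)).symm
        have esub : (m + 1) • P - P = m • P := by rw [succ_nsmul, add_sub_cancel_right]
        rw [eadd, esub, ← hs] at hK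
        have hF := HRep_fold (s := s) ih'.2
        have e1 : ((m : ℚ) + 1) * s + s = ((m + 1 + 1 : ℕ) : ℚ) * s := by push_cast; ring
        have e2 : ((m : ℚ) + 1) * s - s = (m : ℚ) * s := by ring
        rw [e1, e2] at hF
        have hw0 := fun Q : W.Point => H_wPt_nonneg (ord := ord) hh.le r Q
        have hwh := fun Q : W.Point => H_wPt_le (ord := ord) hh.le r Q
        rcases hK with ⟨k1, k2⟩ | ⟨k1, k2⟩ <;> rcases hF with ⟨f1, f2⟩ | ⟨f1, f2⟩
        · rw [k1]; exact_mod_cast f1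
        · -- a = b
          rw [← k1] at f1; rw [← k2] at f2
          have : wPt ord h r ((m + 1 + 1) • P) = wPt ord h r (m • P) :=
            HRep_uniq hh (hw0 _) (hwh _) (hw0 _) (hwh _) f1 ih'.1
          rw [this]; exact_mod_cast f2
        · rw [← k2] at f1; rw [← k1] at f2
          have : wPt ord h r ((m + 1 + 1) • P) = wPt ord h r (m • P) :=
            HRep_uniq hh (hw0 _) (hwh _) (hw0 _) (hwh _) f2 ih'.1
          rw [this]; exact_mod_cast f1
        · rw [k1]; exact_mod_cast f2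
  -- conclusion: `p = 2k+1`, `(k+1)P = -(kP)`
  obtain ⟨k, hk⟩ : ∃ k, p = 2 * k + 1 := by
    rcases hp.eq_two_or_odd' with h | h
    · exact absurd h hp2
    · exact h
  have hk1 : 1 ≤ k := by
    rcases Nat.eq_zero_or_pos k with h0 | h0
    · subst h0; exact absurd hk hp.ne_one
    · exact h0
  obtain ⟨m1, m2⟩ := main k (by omega)
  have hneg : (k + 1) • P = -(k • P) := by
    rw [eq_neg_iff_add_eq_zero, ← add_nsmul]
    have : k + 1 + k = p := by omega
    rw [this, hpP']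
  rw [hneg, H_wPt_neg] at m2
  obtain ⟨j, hj⟩ := HRep_final m1 m2
  refine ⟨j, ?_⟩
  rw [← hj, hk]; push_cast; ring

end HI

end Fermat.Agent.S05.HCore
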