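import Mathlib
import Fermat.Agent.S05.Defs

/-!
# S05, package G (helper93): valuation calculus for `IsOrd` and Newton lemmas for quadratics

Private API for `KField.lean`, namespace `Fermat.Agent.S05.KF`.
`EQ c x` : `x ≠ 0` and `ord x = c`;  `GE c x` : `x = 0` or `c ≤ ord x`;  `GT c x` : `x = 0` or `c < ord x`.
-/

set_option autoImplicit false

namespace Fermat.Agent.S05.KF

open Fermat.Agent.S05

variable {K : Type*} [Field K] {A : ValuationSubring K} {ord : K → ℚ}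

/-- nonzero of valuation exactly `c`. -/
def EQ (ord : K → ℚ) (c : ℚ) (x : K) : Prop := x ≠ 0 ∧ ord x = c

/-- zero or valuation at least `c`. -/
def GE (ord : K → ℚ) (c : ℚ) (x : K) : Prop := x = 0 ∨ c ≤ ord x

/-- zero or valuation greater than `c`. -/
def GT (ord : K → ℚ) (c : ℚ) (x : K) : Prop := x = 0 ∨ c < ord x

section basic

variable (hord : IsOrd A ord)
include hord

lemma ord_one : ord (1 : K) = 0 := by
  have h := hord.map_mul (one_ne_zero (α := K)) (one_ne_zero (α := K))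
  rw [one_mul] at h
  linarith

lemma ord_neg_one : ord (-1 : K) = 0 := by
  have h := hord.map_mul (neg_ne_zero.mpr (one_ne_zero (α := K)))
    (neg_ne_zero.mpr (one_ne_zero (α := K)))
  rw [neg_mul_neg, one_mul, ord_one hord] at h
  linarith

lemma ord_neg {x : K} (hx : x ≠ 0) : ord (-x) = ord x := by
  have h := hord.map_mul (neg_ne_zero.mpr (one_ne_zero (α := K))) hx
  rw [neg_one_mul, ord_neg_one hord, zero_add] at h
  exact h

lemma ord_inv {x : K} (hx : x ≠ 0) : ord x⁻¹ = - ord x := by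
  have h := hord.map_mul hx (inv_ne_zero hx)
  rw [mul_inv_cancel₀ hx, ord_one hord] at h
  linarith

lemma ord_div {x y : K} (hx : x ≠ 0) (hy : y ≠ 0) : ord (x / y) = ord x - ord y := by
  rw [div_eq_mul_inv, hord.map_mul hx (inv_ne_zero hy), ord_inv hord hy]
  ring

lemma ord_pow {x : K} (hx : x ≠ 0) (n : ℕ) : ord (x ^ n) = n * ord x := by
  induction n with
  | zero => simp [ord_one hord]
  | succ n ih =>
    rw [pow_succ, hord.map_mul (pow_ne_zero n hx) hx, ih]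
    push_cast
    ring

/-- the ultrametric inequality. -/
lemma le_ord_add {x y : K} (hx : x ≠ 0) (hy : y ≠ 0) (hxy : x + y ≠ 0) :
    min (ord x) (ord y) ≤ ord (x + y) := by
  wlog hle : ord x ≤ ord y generalizing x y
  · have := this hy hx (by rwa [add_comm]) (le_of_not_ge hle)
    rwa [min_comm, add_comm] at this
  rw [min_eq_left hle]
  have hyx : y / x ≠ 0 := div_ne_zero hy hx
  have h1 : y / x ∈ A := (hord.mem_iff hyx).mpr (by rw [ord_div hord hy hx]; linarith)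
  have h2 : 1 + y / x ∈ A := A.add_mem _ _ A.one_mem h1
  have h3 : x + y = x * (1 + y / x) := by field_simp
  have h4 : 1 + y / x ≠ 0 := by
    intro h0
    rw [h0, mul_zero] at h3
    exact hxy h3
  have h5 := (hord.mem_iff h4).mp h2
  rw [h3, hord.map_mul hx h4]
  linarith

end basic

/-! ### the `EQ / GE / GT` calculus -/

section calculus

variable (hord : IsOrd A ord)

lemma EQ.ne_zero {c : ℚ} {x : K} (h : EQ ord c x) : x ≠ 0 := h.1

lemma EQ.ord_eq {c : ℚ} {x : K} (h : EQ ord c x) : ord x = c := h.2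

lemma EQ.mk {x : K} (hx : x ≠ 0) : EQ ord (ord x) x := ⟨hx, rfl⟩

lemma EQ.congr {c c' : ℚ} {x : K} (h : EQ ord c x) (hc : c = c') : EQ ord c' x := hc ▸ h

lemma EQ.ge {c c' : ℚ} {x : K} (h : EQ ord c x) (hc : c' ≤ c) : GE ord c' x :=
  Or.inr (by rw [h.2]; exact hc)

lemma EQ.gt {c c' : ℚ} {x : K} (h : EQ ord c x) (hc : c' < c) : GT ord c' x :=
  Or.inr (by rw [h.2]; exact hc)

lemma GE.zero (c : ℚ) : GE ord c (0 : K) := Or.inl rfl

lemma GT.zero (c : ℚ) : GT ord c (0 : K) := Or.inl rfl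

lemma GT.ge {c : ℚ} {x : K} (h : GT ord c x) : GE ord c x := h.imp id le_of_lt

lemma GE.mono {c c' : ℚ} {x : K} (h : GE ord c x) (hc : c' ≤ c) : GE ord c' x :=
  h.imp id (le_trans hc)

lemma GT.mono {c c' : ℚ} {x : K} (h : GT ord c x) (hc : c' ≤ c) : GT ord c' x :=
  h.imp id (lt_of_le_of_lt hc)

lemma GE.gt {c c' : ℚ} {x : K} (h : GE ord c x) (hc : c' < c) : GT ord c' x :=
  h.imp id (lt_of_lt_of_le hc)

lemma GE.le_ord {c : ℚ} {x : K} (h : GE ord c x) (hx : x ≠ 0) : c ≤ ord x :=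
  h.resolve_left hx

lemma GT.lt_ord {c : ℚ} {x : K} (h : GT ord c x) (hx : x ≠ 0) : c < ord x :=
  h.resolve_left hx

include hord

lemma EQ.one : EQ ord 0 (1 : K) := ⟨one_ne_zero, ord_one hord⟩

lemma EQ.neg {c : ℚ} {x : K} (h : EQ ord c x) : EQ ord c (-x) :=
  ⟨neg_ne_zero.mpr h.1, by rw [ord_neg hord h.1, h.2]⟩

lemma GE.neg {c : ℚ} {x : K} (h : GE ord c x) : GE ord c (-x) := by
  rcases h with rfl | h
  · simp [GE]
  · by_cases hx : x = 0
    · left; simp [hx]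
    · right; rwa [ord_neg hord hx]

lemma GT.neg {c : ℚ} {x : K} (h : GT ord c x) : GT ord c (-x) := by
  rcases h with rfl | h
  · simp [GT]
  · by_cases hx : x = 0
    · left; simp [hx]
    · right; rwa [ord_neg hord hx]

lemma EQ.mul {a b : ℚ} {x y : K} (hx : EQ ord a x) (hy : EQ ord b y) : EQ ord (a + b) (x * y) :=
  ⟨mul_ne_zero hx.1 hy.1, by rw [hord.map_mul hx.1 hy.1, hx.2, hy.2]⟩

lemma EQ.inv {a : ℚ} {x : K} (hx : EQ ord a x) : EQ ord (-a) x⁻¹ :=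
  ⟨inv_ne_zero hx.1, by rw [ord_inv hord hx.1, hx.2]⟩

lemma EQ.div {a b : ℚ} {x y : K} (hx : EQ ord a x) (hy : EQ ord b y) : EQ ord (a - b) (x / y) := by
  rw [div_eq_mul_inv, sub_eq_add_neg]
  exact hx.mul hord (hy.inv hord)

lemma EQ.pow {a : ℚ} {x : K} (hx : EQ ord a x) (n : ℕ) : EQ ord (n * a) (x ^ n) :=
  ⟨pow_ne_zero n hx.1, by rw [ord_pow hord hx.1, hx.2]⟩

lemma EQ.sq {a : ℚ} {x : K} (hx : EQ ord a x) : EQ ord (2 * a) (x ^ 2) := by
  have := hx.pow hord 2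
  simpa using this

lemma GE.mul {a b : ℚ} {x y : K} (hx : GE ord a x) (hy : GE ord b y) : GE ord (a + b) (x * y) := by
  by_cases hx0 : x = 0
  · left; simp [hx0]
  by_cases hy0 : y = 0
  · left; simp [hy0]
  right
  rw [hord.map_mul hx0 hy0]
  exact add_le_add (hx.le_ord hx0) (hy.le_ord hy0)

lemma GE.mul_gt {a b : ℚ} {x y : K} (hx : GE ord a x) (hy : GT ord b y) :
    GT ord (a + b) (x * y) := by
  by_cases hx0 : x = 0
  · left; simp [hx0]
  by_cases hy0 : y = 0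
  · left; simp [hy0]
  right
  rw [hord.map_mul hx0 hy0]
  exact add_lt_add_of_le_of_lt (hx.le_ord hx0) (hy.lt_ord hy0)

lemma GE.sq {a : ℚ} {x : K} (hx : GE ord a x) : GE ord (2 * a) (x ^ 2) := by
  have := hx.mul hord hx
  rw [← two_mul, ← pow_two] at this
  exact this

lemma GE.div {a b : ℚ} {x y : K} (hx : GE ord a x) (hy : EQ ord b y) : GE ord (a - b) (x / y) := by
  rw [div_eq_mul_inv, sub_eq_add_neg]
  exact hx.mul hord ((hy.inv hord).ge le_rfl)

lemma GE.add {c : ℚ} {x y : K} (hx : GE ord c x) (hy : GE ord c y) : GE ord c (x + y) := by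
  by_cases hx0 : x = 0
  · rw [hx0, zero_add]; exact hy
  by_cases hy0 : y = 0
  · rw [hy0, add_zero]; exact hx
  by_cases hxy : x + y = 0
  · left; exact hxy
  right
  exact le_trans (le_min (hx.le_ord hx0) (hy.le_ord hy0)) (le_ord_add hord hx0 hy0 hxy)

lemma GT.add {c : ℚ} {x y : K} (hx : GT ord c x) (hy : GT ord c y) : GT ord c (x + y) := by
  by_cases hx0 : x = 0
  · rw [hx0, zero_add]; exact hy
  by_cases hy0 : y = 0
  · rw [hy0, add_zero]; exact hx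
  by_cases hxy : x + y = 0
  · left; exact hxy
  right
  exact lt_of_lt_of_le (lt_min (hx.lt_ord hx0) (hy.lt_ord hy0)) (le_ord_add hord hx0 hy0 hxy)

lemma GE.sub {c : ℚ} {x y : K} (hx : GE ord c x) (hy : GE ord c y) : GE ord c (x - y) := by
  rw [sub_eq_add_neg]
  exact hx.add hord (hy.neg hord)

/-- the dominant term wins. -/
lemma EQ.add_gt {c : ℚ} {x y : K} (hx : EQ ord c x) (hy : GT ord c y) : EQ ord c (x + y) := by
  by_cases hy0 : y = 0
  · rw [hy0, add_zero]; exact hx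
  have hlt : ord x < ord y := by rw [hx.2]; exact hy.lt_ord hy0
  have hxy : x + y ≠ 0 := by
    intro h0
    have : y = -x := by linear_combination h0
    rw [this, ord_neg hord hx.1] at hlt
    exact lt_irrefl _ hlt
  refine ⟨hxy, le_antisymm ?_ ?_⟩
  · -- `ord (x+y) ≤ c`: otherwise `x = (x+y) - y` would have valuation `> c`
    by_contra hcon
    push Not at hcon
    have h1 : min (ord (x + y)) (ord (-y)) ≤ ord (x + y + -y) :=
      le_ord_add hord hxy (neg_ne_zero.mpr hy0) (by simpa using hx.1)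
    rw [add_neg_cancel_right, ord_neg hord hy0, hx.2] at h1
    have h2 : c < min (ord (x + y)) (ord y) := lt_min hcon (hy.lt_ord hy0)
    exact lt_irrefl _ (lt_of_lt_of_le h2 h1)
  · have := le_ord_add hord hx.1 hy0 hxy
    rw [min_eq_left hlt.le, hx.2] at this
    exact this

lemma EQ.gt_add {c : ℚ} {x y : K} (hx : GT ord c x) (hy : EQ ord c y) : EQ ord c (x + y) := by
  rw [add_comm]
  exact hy.add_gt hord hx

lemma EQ.sub_gt {c : ℚ} {x y : K} (hx : EQ ord c x) (hy : GT ord c y) : EQ ord c (x - y) := by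
  rw [sub_eq_add_neg]
  exact hx.add_gt hord (hy.neg hord)

lemma EQ.gt_sub {c : ℚ} {x y : K} (hx : GT ord c x) (hy : EQ ord c y) : EQ ord c (x - y) := by
  rw [sub_eq_add_neg]
  exact (hy.neg hord).gt_add hord hx

omit hord in
lemma isU_iff {x : K} : IsU ord x ↔ EQ ord 0 x := Iff.rfl

end calculus

/-! ### Newton polygon lemmas for `X² - S X + N = (X - r₁)(X - r₂)` -/

section newton

variable (hord : IsOrd A ord)
include hord

private lemma newton_ge_aux {c : ℚ} {r₁ r₂ S N : K} (hS : r₁ + r₂ = S) (hN : r₁ * r₂ = N)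
    (hSc : GE ord c S) (hNc : GE ord (2 * c) N) : GE ord c r₁ := by
  by_contra hcon
  have hr1 : r₁ ≠ 0 := fun h0 => hcon (Or.inl h0)
  have hlt : ord r₁ < c := by
    by_contra hge
    exact hcon (Or.inr (le_of_not_gt hge))
  have hr2 : r₂ = N / r₁ := by rw [← hN]; field_simp
  have h2 : GT ord (ord r₁) r₂ := by
    rw [hr2]
    exact (hNc.div hord (EQ.mk hr1)).gt (by linarith)
  have h3 : EQ ord (ord r₁) S := by
    rw [← hS]
    exact (EQ.mk hr1).add_gt hord h2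
  have := hSc.le_ord h3.1
  rw [h3.2] at this
  exact lt_irrefl _ (lt_of_lt_of_le hlt this)

/-- (c): `ord S ≥ c`, `ord N ≥ 2c` ⇒ both roots have `ord ≥ c`. -/
lemma newton_ge {c : ℚ} {r₁ r₂ S N : K} (hS : r₁ + r₂ = S) (hN : r₁ * r₂ = N)
    (hSc : GE ord c S) (hNc : GE ord (2 * c) N) : GE ord c r₁ ∧ GE ord c r₂ :=
  ⟨newton_ge_aux hord hS hN hSc hNc,
    newton_ge_aux hord (by rw [add_comm]; exact hS) (by rw [mul_comm]; exact hN) hSc hNc⟩

/-- (b): `ord N = 2c`, `ord S ≥ c` ⇒ both roots have `ord = c`. -/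
lemma newton_eq {c : ℚ} {r₁ r₂ S N : K} (hS : r₁ + r₂ = S) (hN : r₁ * r₂ = N)
    (hSc : GE ord c S) (hNc : EQ ord (2 * c) N) : EQ ord c r₁ ∧ EQ ord c r₂ := by
  obtain ⟨h1, h2⟩ := newton_ge hord hS hN hSc (hNc.ge le_rfl)
  have hr1 : r₁ ≠ 0 := by rintro rfl; exact hNc.1 (by rw [← hN, zero_mul])
  have hr2 : r₂ ≠ 0 := by rintro rfl; exact hNc.1 (by rw [← hN, mul_zero])
  have hsum : ord r₁ + ord r₂ = 2 * c := by
    rw [← hord.map_mul hr1 hr2, hN, hNc.2]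
  have l1 := h1.le_ord hr1
  have l2 := h2.le_ord hr2
  exact ⟨⟨hr1, by linarith⟩, ⟨hr2, by linarith⟩⟩

private lemma newton_split_aux {σ ν : ℚ} {r₁ r₂ S N : K} (hS : r₁ + r₂ = S) (hN : r₁ * r₂ = N)
    (hSσ : EQ ord σ S) (hNν : GE ord ν N) (hlt : 2 * σ < ν) (hr1 : r₁ ≠ 0) (hle : ord r₁ ≤ σ) :
    EQ ord σ r₁ ∧ GE ord (ν - σ) r₂ := by
  have hr2 : r₂ = N / r₁ := by rw [← hN]; field_simp
  have h2 : GE ord (ν - ord r₁) r₂ := by
    rw [hr2]
    exact hNν.div hord (EQ.mk hr1)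
  have h3 : EQ ord (ord r₁) S := by
    rw [← hS]
    exact (EQ.mk hr1).add_gt hord (h2.gt (by linarith))
  have h4 : ord r₁ = σ := by rw [← h3.2, hSσ.2]
  exact ⟨⟨hr1, h4⟩, h2.mono (by linarith)⟩

/-- (a'): `ord S = σ`, `ord N ≥ ν`, `2σ < ν` ⇒ one root has `ord = σ`, the other `ord ≥ ν - σ`. -/
lemma newton_split_ge {σ ν : ℚ} {r₁ r₂ S N : K} (hS : r₁ + r₂ = S) (hN : r₁ * r₂ = N)
    (hSσ : EQ ord σ S) (hNν : GE ord ν N) (hlt : 2 * σ < ν) :
    (EQ ord σ r₁ ∧ GE ord (ν - σ) r₂) ∨ (EQ ord σ r₂ ∧ GE ord (ν - σ) r₁) := by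
  by_cases h1 : r₁ ≠ 0 ∧ ord r₁ ≤ σ
  · exact Or.inl (newton_split_aux hord hS hN hSσ hNν hlt h1.1 h1.2)
  by_cases h2 : r₂ ≠ 0 ∧ ord r₂ ≤ σ
  · exact Or.inr (newton_split_aux hord (by rw [add_comm]; exact hS) (by rw [mul_comm]; exact hN)
      hSσ hNν hlt h2.1 h2.2)
  exfalso
  have g1 : GT ord σ r₁ := by
    by_cases h0 : r₁ = 0
    · exact Or.inl h0
    · exact Or.inr (lt_of_not_ge fun hge => h1 ⟨h0, hge⟩)
  have g2 : GT ord σ r₂ := by
    by_cases h0 : r₂ = 0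
    · exact Or.inl h0
    · exact Or.inr (lt_of_not_ge fun hge => h2 ⟨h0, hge⟩)
  have g3 := g1.add hord g2
  rw [hS] at g3
  have := g3.lt_ord hSσ.1
  rw [hSσ.2] at this
  exact lt_irrefl _ this

/-- (a): `ord S = σ`, `ord N = ν`, `2σ < ν` ⇒ the roots have `ord` `σ` and `ν - σ`. -/
lemma newton_split_eq {σ ν : ℚ} {r₁ r₂ S N : K} (hS : r₁ + r₂ = S) (hN : r₁ * r₂ = N)
    (hSσ : EQ ord σ S) (hNν : EQ ord ν N) (hlt : 2 * σ < ν) :
    (EQ ord σ r₁ ∧ EQ ord (ν - σ) r₂) ∨ (EQ ord σ r₂ ∧ EQ ord (ν - σ) r₁) := by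
  rcases newton_split_ge hord hS hN hSσ (hNν.ge le_rfl) hlt with ⟨h1, _⟩ | ⟨h2, _⟩
  · left
    refine ⟨h1, ?_⟩
    have hr2 : r₂ = N / r₁ := by rw [← hN]; have := h1.1; field_simp
    rw [hr2]
    exact hNν.div hord h1
  · right
    refine ⟨h2, ?_⟩
    have hr1 : r₁ = N / r₂ := by rw [← hN]; have := h2.1; field_simp
    rw [hr1]
    exact hNν.div hord h2

private lemma newton_le_zero_aux {ν : ℚ} {r₁ r₂ S N : K} (hS : r₁ + r₂ = S) (hN : r₁ * r₂ = N)
    (hSν : GE ord ν S) (hNν : EQ ord ν N) (hν : ν ≤ 0) : r₁ ≠ 0 ∧ ord r₁ ≤ 0 := by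
  have hr1 : r₁ ≠ 0 := by rintro rfl; exact hNν.1 (by rw [← hN, zero_mul])
  refine ⟨hr1, ?_⟩
  by_contra hcon
  push Not at hcon
  have hr2 : r₂ = N / r₁ := by rw [← hN]; field_simp
  have h2 : EQ ord (ν - ord r₁) r₂ := by
    rw [hr2]
    exact hNν.div hord (EQ.mk hr1)
  have h3 : EQ ord (ν - ord r₁) S := by
    rw [← hS]
    exact h2.gt_add hord ((EQ.mk hr1).gt (by linarith))
  have := hSν.le_ord h3.1
  rw [h3.2] at this
  linarith

/-- (d): `ord N = ν ≤ 0`, `ord S ≥ ν` ⇒ both roots are nonzero with `ord ≤ 0`. -/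
lemma newton_le_zero {ν : ℚ} {r₁ r₂ S N : K} (hS : r₁ + r₂ = S) (hN : r₁ * r₂ = N)
    (hSν : GE ord ν S) (hNν : EQ ord ν N) (hν : ν ≤ 0) :
    (r₁ ≠ 0 ∧ ord r₁ ≤ 0) ∧ (r₂ ≠ 0 ∧ ord r₂ ≤ 0) :=
  ⟨newton_le_zero_aux hord hS hN hSν hNν hν,
    newton_le_zero_aux hord (by rw [add_comm]; exact hS) (by rw [mul_comm]; exact hN) hSν hNν hν⟩

end newton

/-! ### values of the clamp `wK` -/

section wK

lemma wK_of_le_zero {h : ℚ} {ξ : K} (hξ : ξ ≠ 0) (hle : ord ξ ≤ 0) : wK ord h ξ = 0 := by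
  unfold wK
  rw [if_neg hξ]
  exact max_eq_left (le_trans (min_le_left _ _) hle)

lemma wK_of_mid {h v : ℚ} {ξ : K} (hξ : EQ ord v ξ) (h0 : 0 ≤ v) (hv : v ≤ h) :
    wK ord h ξ = v := by
  unfold wK
  rw [if_neg hξ.1, hξ.2, min_eq_left hv, max_eq_right h0]

lemma wK_of_ge {h : ℚ} {ξ : K} (hh : 0 ≤ h) (hξ : GE ord h ξ) : wK ord h ξ = h := by
  unfold wK
  split_ifs with h0
  · rfl
  · rw [min_eq_right (hξ.le_ord h0), max_eq_right hh]

lemma wK_zero (h : ℚ) : wK ord h (0 : K) = h := by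
  unfold wK
  rw [if_pos rfl]

end wK

end Fermat.Agent.S05.KF
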