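import Mathlib
import Fermat.Agent.S05.Defs
import Fermat.Agent.S05.KFieldAux

/-!
# S05, package G (helper93): the key valuation lemma `K_field` (field level)

If `r₁ r₂ = (ξ₁ξ₂-α)²/(ξ₁-ξ₂)²` and `r₁ + r₂ = [2(ξ₁+ξ₂)(ξ₁ξ₂+α)+βξ₁ξ₂]/(ξ₁-ξ₂)²` with `β` a unit and
`ord α = h > 0`, then `{w r₁, w r₂} = {min (s+t) (2h-s-t), |s-t|}` where `w = wK ord h` is the
valuation clamped to `[0,h]`, `s = w ξ₁`, `t = w ξ₂`.
-/

set_option autoImplicit false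
set_option linter.unusedSectionVars false

namespace Fermat.Agent.S05

namespace KF

variable {K : Type*} [Field K] {A : ValuationSubring K} {ord : K → ℚ}

section terms

variable (hord : IsOrd A ord) {h : ℚ} {β α : K}
include hord

lemma sub_add_EQ_of_lt {c : ℚ} {X : K} (hα : EQ ord h α) (hX : EQ ord c X) (hc : c < h) :
    EQ ord c (X - α) ∧ EQ ord c (X + α) :=
  ⟨hX.sub_gt hord (hα.gt hc), hX.add_gt hord (hα.gt hc)⟩

lemma sub_add_EQ_of_gt {X : K} (hα : EQ ord h α) (hX : GT ord h X) :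
    EQ ord h (X - α) ∧ EQ ord h (X + α) :=
  ⟨hα.gt_sub hord hX, hα.gt_add hord hX⟩

lemma sub_add_GE {X : K} (hα : EQ ord h α) (hX : GE ord h X) :
    GE ord h (X - α) ∧ GE ord h (X + α) :=
  ⟨hX.sub hord (hα.ge le_rfl), hX.add hord (hα.ge le_rfl)⟩

lemma two_term_EQ (h2 : IsU ord (2 : K)) {a b : ℚ} {x y : K} (hx : EQ ord a x) (hy : EQ ord b y) :
    EQ ord (a + b) (2 * x * y) := by
  have h2' : EQ ord 0 (2 : K) := h2
  have := (h2'.mul hord hx).mul hord hy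
  rwa [zero_add] at this

lemma two_term_GE (h2 : IsU ord (2 : K)) {a b : ℚ} {x y : K} (hx : GE ord a x) (hy : GE ord b y) :
    GE ord (a + b) (2 * x * y) := by
  have h2' : EQ ord 0 (2 : K) := h2
  have := ((h2'.ge le_rfl).mul hord hx).mul hord hy
  rwa [zero_add] at this

lemma beta_term_EQ (hβ : IsU ord β) {c : ℚ} {x y : K} (hxy : EQ ord c (x * y)) :
    EQ ord c (β * x * y) := by
  have hβ' : EQ ord 0 β := hβ
  have := hβ'.mul hord hxy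
  rwa [zero_add, ← mul_assoc] at this

lemma beta_term_GE (hβ : IsU ord β) {c : ℚ} {x y : K} (hxy : GE ord c (x * y)) :
    GE ord c (β * x * y) := by
  have hβ' : EQ ord 0 β := hβ
  have := (hβ'.ge le_rfl).mul hord hxy
  rwa [zero_add, ← mul_assoc] at this

end terms

section roots

variable (hord : IsOrd A ord) {β α ξ₁ ξ₂ r₁ r₂ : K}
  (hN : r₁ * r₂ * (ξ₁ - ξ₂) ^ 2 = (ξ₁ * ξ₂ - α) ^ 2)
  (hS : (r₁ + r₂) * (ξ₁ - ξ₂) ^ 2 = 2 * (ξ₁ + ξ₂) * (ξ₁ * ξ₂ + α) + β * ξ₁ * ξ₂)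
include hord

include hN in
lemma prod_EQ {δ π : ℚ} (hD : EQ ord δ (ξ₁ - ξ₂)) (hP : EQ ord π (ξ₁ * ξ₂ - α)) :
    EQ ord (2 * π - 2 * δ) (r₁ * r₂) := by
  have : r₁ * r₂ = (ξ₁ * ξ₂ - α) ^ 2 / (ξ₁ - ξ₂) ^ 2 := by
    rw [eq_div_iff (pow_ne_zero 2 hD.1)]; exact hN
  rw [this]
  exact (hP.sq hord).div hord (hD.sq hord)

include hN in
lemma prod_GE {δ π : ℚ} (hD : EQ ord δ (ξ₁ - ξ₂)) (hP : GE ord π (ξ₁ * ξ₂ - α)) :
    GE ord (2 * π - 2 * δ) (r₁ * r₂) := by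
  have : r₁ * r₂ = (ξ₁ * ξ₂ - α) ^ 2 / (ξ₁ - ξ₂) ^ 2 := by
    rw [eq_div_iff (pow_ne_zero 2 hD.1)]; exact hN
  rw [this]
  exact (hP.sq hord).div hord (hD.sq hord)

include hS in
lemma sum_EQ {δ μ : ℚ} (hD : EQ ord δ (ξ₁ - ξ₂))
    (hNum : EQ ord μ (2 * (ξ₁ + ξ₂) * (ξ₁ * ξ₂ + α) + β * ξ₁ * ξ₂)) :
    EQ ord (μ - 2 * δ) (r₁ + r₂) := by
  have : r₁ + r₂ = (2 * (ξ₁ + ξ₂) * (ξ₁ * ξ₂ + α) + β * ξ₁ * ξ₂) / (ξ₁ - ξ₂) ^ 2 := by
    rw [eq_div_iff (pow_ne_zero 2 hD.1)]; exact hS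
  rw [this]
  exact hNum.div hord (hD.sq hord)

include hS in
lemma sum_GE {δ μ : ℚ} (hD : EQ ord δ (ξ₁ - ξ₂))
    (hNum : GE ord μ (2 * (ξ₁ + ξ₂) * (ξ₁ * ξ₂ + α) + β * ξ₁ * ξ₂)) :
    GE ord (μ - 2 * δ) (r₁ + r₂) := by
  have : r₁ + r₂ = (2 * (ξ₁ + ξ₂) * (ξ₁ * ξ₂ + α) + β * ξ₁ * ξ₂) / (ξ₁ - ξ₂) ^ 2 := by
    rw [eq_div_iff (pow_ne_zero 2 hD.1)]; exact hS
  rw [this]
  exact hNum.div hord (hD.sq hord)

end roots

/-- the conclusion of `K_field`. -/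
def Concl (ord : K → ℚ) (h : ℚ) (ξ₁ ξ₂ r₁ r₂ : K) : Prop :=
  (wK ord h r₁ = min (wK ord h ξ₁ + wK ord h ξ₂) (2 * h - wK ord h ξ₁ - wK ord h ξ₂) ∧
      wK ord h r₂ = |wK ord h ξ₁ - wK ord h ξ₂|) ∨
    (wK ord h r₁ = |wK ord h ξ₁ - wK ord h ξ₂| ∧
      wK ord h r₂ = min (wK ord h ξ₁ + wK ord h ξ₂) (2 * h - wK ord h ξ₁ - wK ord h ξ₂))

lemma concl_both {h s t X : ℚ} {ξ₁ ξ₂ r₁ r₂ : K} (hs : wK ord h ξ₁ = s) (ht : wK ord h ξ₂ = t)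
    (h1 : wK ord h r₁ = X) (h2 : wK ord h r₂ = X)
    (hmin : min (s + t) (2 * h - s - t) = X) (habs : |s - t| = X) : Concl ord h ξ₁ ξ₂ r₁ r₂ := by
  left
  rw [hs, ht, h1, h2, hmin, habs]
  exact ⟨rfl, rfl⟩

lemma concl_split {h s t a b : ℚ} {ξ₁ ξ₂ r₁ r₂ : K} (hs : wK ord h ξ₁ = s) (ht : wK ord h ξ₂ = t)
    (hcase : (wK ord h r₁ = a ∧ wK ord h r₂ = b) ∨ (wK ord h r₂ = a ∧ wK ord h r₁ = b))
    (habs : |s - t| = a) (hmin : min (s + t) (2 * h - s - t) = b) : Concl ord h ξ₁ ξ₂ r₁ r₂ := by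
  unfold Concl
  rw [hs, ht, hmin, habs]
  rcases hcase with ⟨h1, h2⟩ | ⟨h1, h2⟩
  · exact Or.inr ⟨h1, h2⟩
  · exact Or.inl ⟨h2, h1⟩

section cases

variable (hord : IsOrd A ord) (h2 : IsU ord (2 : K)) {h : ℚ} (hh : 0 < h) {β α : K}
  (hβ : IsU ord β) (hα : EQ ord h α) {ξ₁ ξ₂ r₁ r₂ : K} (hne : ξ₁ ≠ ξ₂)
  (hN : r₁ * r₂ * (ξ₁ - ξ₂) ^ 2 = (ξ₁ * ξ₂ - α) ^ 2)
  (hS : (r₁ + r₂) * (ξ₁ - ξ₂) ^ 2 = 2 * (ξ₁ + ξ₂) * (ξ₁ * ξ₂ + α) + β * ξ₁ * ξ₂)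
include hord h2 hh hβ hα hne hN hS

/-- case (O,O): both `ξ` have `ord ≤ 0`. -/
lemma case_OO {v₁ v₂ : ℚ} (e1 : EQ ord v₁ ξ₁) (e2 : EQ ord v₂ ξ₂) (h12 : v₁ ≤ v₂) (hv2 : v₂ ≤ 0) :
    Concl ord h ξ₁ ξ₂ r₁ r₂ := by
  have hv1 : v₁ ≤ 0 := h12.trans hv2
  have hD0 : ξ₁ - ξ₂ ≠ 0 := sub_ne_zero.mpr hne
  have eD : EQ ord (ord (ξ₁ - ξ₂)) (ξ₁ - ξ₂) := EQ.mk hD0
  have gD : GE ord v₁ (ξ₁ - ξ₂) := (e1.ge le_rfl).sub hord (e2.ge h12)
  have hδ := gD.le_ord hD0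
  have gSg : GE ord v₁ (ξ₁ + ξ₂) := (e1.ge le_rfl).add hord (e2.ge h12)
  have eX : EQ ord (v₁ + v₂) (ξ₁ * ξ₂) := e1.mul hord e2
  obtain ⟨eP, eQ⟩ := sub_add_EQ_of_lt hord hα eX (by linarith)
  have gNum : GE ord (2 * v₁ + v₂) (2 * (ξ₁ + ξ₂) * (ξ₁ * ξ₂ + α) + β * ξ₁ * ξ₂) := by
    refine GE.add hord ((two_term_GE hord h2 gSg (eQ.ge le_rfl)).mono (by linarith)) ?_
    exact (beta_term_GE hord hβ (eX.ge le_rfl)).mono (by linarith)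
  have eProd := prod_EQ hord hN eD eP
  have gSum := (sum_GE hord hS eD gNum).mono
    (show 2 * (v₁ + v₂) - 2 * ord (ξ₁ - ξ₂) ≤ 2 * v₁ + v₂ - 2 * ord (ξ₁ - ξ₂) by linarith)
  obtain ⟨⟨n1, l1⟩, ⟨n2, l2⟩⟩ := newton_le_zero hord rfl rfl gSum eProd (by linarith)
  refine concl_both (wK_of_le_zero e1.1 (by rw [e1.2]; exact hv1))
    (wK_of_le_zero e2.1 (by rw [e2.2]; exact hv2)) (wK_of_le_zero n1 l1) (wK_of_le_zero n2 l2) ?_ ?_
  · rw [min_eq_left (by linarith)]; ring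
  · simp

/-- case B1: `ord ξ₁ ≤ 0 < ord ξ₂`, `ord ξ₁ + ord ξ₂ < h`. -/
lemma case_B1 {v₁ v₂ : ℚ} (e1 : EQ ord v₁ ξ₁) (e2 : EQ ord v₂ ξ₂) (hv1 : v₁ ≤ 0) (hv2 : 0 < v₂)
    (hlt : v₁ + v₂ < h) : Concl ord h ξ₁ ξ₂ r₁ r₂ := by
  have eD : EQ ord v₁ (ξ₁ - ξ₂) := e1.sub_gt hord (e2.gt (by linarith))
  have eSg : EQ ord v₁ (ξ₁ + ξ₂) := e1.add_gt hord (e2.gt (by linarith))
  have eX : EQ ord (v₁ + v₂) (ξ₁ * ξ₂) := e1.mul hord e2
  obtain ⟨eP, eQ⟩ := sub_add_EQ_of_lt hord hα eX hlt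
  have gNum : GE ord (2 * v₁ + v₂) (2 * (ξ₁ + ξ₂) * (ξ₁ * ξ₂ + α) + β * ξ₁ * ξ₂) := by
    refine GE.add hord ((two_term_GE hord h2 (eSg.ge le_rfl) (eQ.ge le_rfl)).mono (by linarith)) ?_
    exact (beta_term_GE hord hβ (eX.ge le_rfl)).mono (by linarith)
  have eProd := (prod_EQ hord hN eD eP).congr (show 2 * (v₁ + v₂) - 2 * v₁ = 2 * v₂ by ring)
  have gSum := (sum_GE hord hS eD gNum).mono (show v₂ ≤ 2 * v₁ + v₂ - 2 * v₁ by linarith)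
  obtain ⟨f1, f2⟩ := newton_eq hord rfl rfl gSum eProd
  have ht : wK ord h ξ₂ = max 0 (min v₂ h) := by unfold wK; rw [if_neg e2.1, e2.2]
  have hr1 : wK ord h r₁ = max 0 (min v₂ h) := by unfold wK; rw [if_neg f1.1, f1.2]
  have hr2 : wK ord h r₂ = max 0 (min v₂ h) := by unfold wK; rw [if_neg f2.1, f2.2]
  have t0 : 0 ≤ max 0 (min v₂ h) := le_max_left _ _
  have th : max 0 (min v₂ h) ≤ h := max_le hh.le (min_le_right _ _)
  refine concl_both (wK_of_le_zero e1.1 (by rw [e1.2]; exact hv1)) ht hr1 hr2 ?_ ?_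
  · rw [min_eq_left (by linarith)]; ring
  · rw [zero_sub, abs_neg, abs_of_nonneg t0]

/-- case B2: `ord ξ₁ ≤ 0`, `ξ₂ = 0` or `ord ξ₂ ≥ h - ord ξ₁`. -/
lemma case_B2 {v₁ : ℚ} (e1 : EQ ord v₁ ξ₁) (hv1 : v₁ ≤ 0) (g2 : GE ord (h - v₁) ξ₂) :
    Concl ord h ξ₁ ξ₂ r₁ r₂ := by
  have g2' : GT ord v₁ ξ₂ := g2.gt (by linarith)
  have eD : EQ ord v₁ (ξ₁ - ξ₂) := e1.sub_gt hord g2'
  have eSg : EQ ord v₁ (ξ₁ + ξ₂) := e1.add_gt hord g2'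
  have gX : GE ord h (ξ₁ * ξ₂) := ((e1.ge le_rfl).mul hord g2).mono (by linarith)
  obtain ⟨gP, gQ⟩ := sub_add_GE hord hα gX
  have gNum : GE ord (h + v₁) (2 * (ξ₁ + ξ₂) * (ξ₁ * ξ₂ + α) + β * ξ₁ * ξ₂) := by
    refine GE.add hord ((two_term_GE hord h2 (eSg.ge le_rfl) gQ).mono (by linarith)) ?_
    exact (beta_term_GE hord hβ gX).mono (by linarith)
  have gProd := (prod_GE hord hN eD gP).mono (show 2 * (h - v₁) ≤ 2 * h - 2 * v₁ by linarith)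
  have gSum := (sum_GE hord hS eD gNum).mono (show h - v₁ ≤ h + v₁ - 2 * v₁ by linarith)
  obtain ⟨f1, f2⟩ := newton_ge hord rfl rfl gSum gProd
  refine concl_both (wK_of_le_zero e1.1 (by rw [e1.2]; exact hv1))
    (wK_of_ge hh.le (g2.mono (by linarith))) (wK_of_ge hh.le (f1.mono (by linarith)))
    (wK_of_ge hh.le (f2.mono (by linarith))) ?_ ?_
  · rw [min_eq_left (by linarith)]; ring
  · rw [zero_sub, abs_neg, abs_of_nonneg hh.le]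

/-- case (M,H): `0 < ord ξ₁ < h`, `ξ₂ = 0` or `ord ξ₂ ≥ h`. -/
lemma case_MH {v₁ : ℚ} (e1 : EQ ord v₁ ξ₁) (hv1 : 0 < v₁) (hv1h : v₁ < h) (g2 : GE ord h ξ₂) :
    Concl ord h ξ₁ ξ₂ r₁ r₂ := by
  have g2' : GT ord v₁ ξ₂ := g2.gt hv1h
  have eD : EQ ord v₁ (ξ₁ - ξ₂) := e1.sub_gt hord g2'
  have eSg : EQ ord v₁ (ξ₁ + ξ₂) := e1.add_gt hord g2'
  have gX : GE ord (v₁ + h) (ξ₁ * ξ₂) := (e1.ge le_rfl).mul hord g2
  obtain ⟨eP, eQ⟩ := sub_add_EQ_of_gt hord hα (gX.gt (by linarith))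
  have gNum : GE ord (v₁ + h) (2 * (ξ₁ + ξ₂) * (ξ₁ * ξ₂ + α) + β * ξ₁ * ξ₂) := by
    refine GE.add hord (two_term_GE hord h2 (eSg.ge le_rfl) (eQ.ge le_rfl)) ?_
    exact beta_term_GE hord hβ gX
  have eProd := (prod_EQ hord hN eD eP).congr (show 2 * h - 2 * v₁ = 2 * (h - v₁) by ring)
  have gSum := (sum_GE hord hS eD gNum).mono (show h - v₁ ≤ v₁ + h - 2 * v₁ by linarith)
  obtain ⟨f1, f2⟩ := newton_eq hord rfl rfl gSum eProd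
  refine concl_both (wK_of_mid e1 hv1.le hv1h.le) (wK_of_ge hh.le g2)
    (wK_of_mid f1 (by linarith) (by linarith)) (wK_of_mid f2 (by linarith) (by linarith)) ?_ ?_
  · rw [min_eq_right (by linarith)]; ring
  · rw [abs_of_nonpos (by linarith)]; ring

/-- case (H,H): `ord ξ₁ ≥ h`, `ξ₂ = 0` or `ord ξ₂ ≥ ord ξ₁`. -/
lemma case_HH {v₁ : ℚ} (e1 : EQ ord v₁ ξ₁) (hv1 : h ≤ v₁) (g2 : GE ord v₁ ξ₂) :
    Concl ord h ξ₁ ξ₂ r₁ r₂ := by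
  have hD0 : ξ₁ - ξ₂ ≠ 0 := sub_ne_zero.mpr hne
  have eD : EQ ord (ord (ξ₁ - ξ₂)) (ξ₁ - ξ₂) := EQ.mk hD0
  have gD : GE ord v₁ (ξ₁ - ξ₂) := (e1.ge le_rfl).sub hord g2
  have hδ := gD.le_ord hD0
  have gSg : GE ord v₁ (ξ₁ + ξ₂) := (e1.ge le_rfl).add hord g2
  have gX : GE ord (v₁ + v₁) (ξ₁ * ξ₂) := (e1.ge le_rfl).mul hord g2
  obtain ⟨eP, eQ⟩ := sub_add_EQ_of_gt hord hα (gX.gt (by linarith))
  have gNum : GE ord (v₁ + h) (2 * (ξ₁ + ξ₂) * (ξ₁ * ξ₂ + α) + β * ξ₁ * ξ₂) := by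
    refine GE.add hord (two_term_GE hord h2 gSg (eQ.ge le_rfl)) ?_
    exact (beta_term_GE hord hβ gX).mono (by linarith)
  have eProd := prod_EQ hord hN eD eP
  have gSum := (sum_GE hord hS eD gNum).mono
    (show 2 * h - 2 * ord (ξ₁ - ξ₂) ≤ v₁ + h - 2 * ord (ξ₁ - ξ₂) by linarith)
  obtain ⟨⟨n1, l1⟩, ⟨n2, l2⟩⟩ := newton_le_zero hord rfl rfl gSum eProd (by linarith)
  refine concl_both (wK_of_ge hh.le (e1.ge hv1)) (wK_of_ge hh.le (g2.mono hv1))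
    (wK_of_le_zero n1 l1) (wK_of_le_zero n2 l2) ?_ ?_
  · rw [min_eq_right (by linarith)]; ring
  · simp

/-- case (M,M), `0 < ord ξ₁ < ord ξ₂ < h`. -/
lemma case_MM_lt {v₁ v₂ : ℚ} (e1 : EQ ord v₁ ξ₁) (e2 : EQ ord v₂ ξ₂) (hv1 : 0 < v₁)
    (h12 : v₁ < v₂) (hv2 : v₂ < h) : Concl ord h ξ₁ ξ₂ r₁ r₂ := by
  have eD : EQ ord v₁ (ξ₁ - ξ₂) := e1.sub_gt hord (e2.gt h12)
  have eSg : EQ ord v₁ (ξ₁ + ξ₂) := e1.add_gt hord (e2.gt h12)
  have eX : EQ ord (v₁ + v₂) (ξ₁ * ξ₂) := e1.mul hord e2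
  have eB := beta_term_EQ hord hβ eX
  have hs := wK_of_mid (h := h) e1 hv1.le (by linarith)
  have ht := wK_of_mid (h := h) e2 (by linarith) hv2.le
  rcases lt_trichotomy (v₁ + v₂) h with hlt | heq | hgt
  · -- C1
    obtain ⟨eP, eQ⟩ := sub_add_EQ_of_lt hord hα eX hlt
    have eNum : EQ ord (v₁ + v₂) (2 * (ξ₁ + ξ₂) * (ξ₁ * ξ₂ + α) + β * ξ₁ * ξ₂) :=
      eB.gt_add hord ((two_term_EQ hord h2 eSg eQ).gt (by linarith))
    have eProd := prod_EQ hord hN eD eP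
    have eSum := sum_EQ hord hS eD eNum
    have key := newton_split_eq hord rfl rfl eSum eProd (by linarith)
    refine concl_split hs ht (a := v₂ - v₁) (b := v₁ + v₂) ?_ ?_ ?_
    · rcases key with ⟨f1, f2⟩ | ⟨f1, f2⟩
      · exact Or.inl ⟨wK_of_mid (f1.congr (by ring)) (by linarith) (by linarith),
          wK_of_mid (f2.congr (by ring)) (by linarith) (by linarith)⟩
      · exact Or.inr ⟨wK_of_mid (f1.congr (by ring)) (by linarith) (by linarith),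
          wK_of_mid (f2.congr (by ring)) (by linarith) (by linarith)⟩
    · rw [abs_of_nonpos (by linarith)]; ring
    · rw [min_eq_left (by linarith)]
  · -- C3
    obtain ⟨gP, gQ⟩ := sub_add_GE hord hα (eX.ge heq.ge)
    have eNum : EQ ord (v₁ + v₂) (2 * (ξ₁ + ξ₂) * (ξ₁ * ξ₂ + α) + β * ξ₁ * ξ₂) :=
      eB.gt_add hord ((two_term_GE hord h2 (eSg.ge le_rfl) gQ).gt (by linarith))
    have gProd := prod_GE hord hN eD gP
    have eSum := sum_EQ hord hS eD eNum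
    have key := newton_split_ge hord rfl rfl eSum gProd (by linarith)
    refine concl_split hs ht (a := v₂ - v₁) (b := h) ?_ ?_ ?_
    · rcases key with ⟨f1, f2⟩ | ⟨f1, f2⟩
      · exact Or.inl ⟨wK_of_mid (f1.congr (by ring)) (by linarith) (by linarith),
          wK_of_ge hh.le (f2.mono (by linarith))⟩
      · exact Or.inr ⟨wK_of_mid (f1.congr (by ring)) (by linarith) (by linarith),
          wK_of_ge hh.le (f2.mono (by linarith))⟩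
    · rw [abs_of_nonpos (by linarith)]; ring
    · rw [min_eq_left (by linarith)]; linarith
  · -- C2
    obtain ⟨eP, eQ⟩ := sub_add_EQ_of_gt hord hα (eX.gt hgt)
    have eNum : EQ ord (v₁ + v₂) (2 * (ξ₁ + ξ₂) * (ξ₁ * ξ₂ + α) + β * ξ₁ * ξ₂) :=
      eB.gt_add hord ((two_term_EQ hord h2 eSg eQ).gt (by linarith))
    have eProd := prod_EQ hord hN eD eP
    have eSum := sum_EQ hord hS eD eNum
    have key := newton_split_eq hord rfl rfl eSum eProd (by linarith)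
    refine concl_split hs ht (a := v₂ - v₁) (b := 2 * h - v₁ - v₂) ?_ ?_ ?_
    · rcases key with ⟨f1, f2⟩ | ⟨f1, f2⟩
      · exact Or.inl ⟨wK_of_mid (f1.congr (by ring)) (by linarith) (by linarith),
          wK_of_mid (f2.congr (by ring)) (by linarith) (by linarith)⟩
      · exact Or.inr ⟨wK_of_mid (f1.congr (by ring)) (by linarith) (by linarith),
          wK_of_mid (f2.congr (by ring)) (by linarith) (by linarith)⟩
    · rw [abs_of_nonpos (by linarith)]; ring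
    · rw [min_eq_right (by linarith)]

/-- case (M,M), `0 < ord ξ₁ = ord ξ₂ < h`. -/
lemma case_MM_eq {v : ℚ} (e1 : EQ ord v ξ₁) (e2 : EQ ord v ξ₂) (hv : 0 < v) (hvh : v < h) :
    Concl ord h ξ₁ ξ₂ r₁ r₂ := by
  have hD0 : ξ₁ - ξ₂ ≠ 0 := sub_ne_zero.mpr hne
  have eD : EQ ord (ord (ξ₁ - ξ₂)) (ξ₁ - ξ₂) := EQ.mk hD0
  have gD : GE ord v (ξ₁ - ξ₂) := (e1.ge le_rfl).sub hord (e2.ge le_rfl)
  have hδ := gD.le_ord hD0
  have gSg : GE ord v (ξ₁ + ξ₂) := (e1.ge le_rfl).add hord (e2.ge le_rfl)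
  have eX : EQ ord (v + v) (ξ₁ * ξ₂) := e1.mul hord e2
  have eB := beta_term_EQ hord hβ eX
  have hs := wK_of_mid (h := h) e1 hv.le hvh.le
  have ht := wK_of_mid (h := h) e2 hv.le hvh.le
  rcases lt_trichotomy (v + v) h with hlt | heq | hgt
  · -- C4a
    obtain ⟨eP, eQ⟩ := sub_add_EQ_of_lt hord hα eX hlt
    have eNum : EQ ord (v + v) (2 * (ξ₁ + ξ₂) * (ξ₁ * ξ₂ + α) + β * ξ₁ * ξ₂) :=
      eB.gt_add hord ((two_term_GE hord h2 gSg (eQ.ge le_rfl)).gt (by linarith))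
    have eProd := prod_EQ hord hN eD eP
    have eSum := sum_EQ hord hS eD eNum
    have key := newton_split_eq hord rfl rfl eSum eProd (by linarith)
    refine concl_split hs ht (a := 0) (b := 2 * v) ?_ ?_ ?_
    · rcases key with ⟨f1, f2⟩ | ⟨f1, f2⟩
      · exact Or.inl ⟨wK_of_le_zero f1.1 (by rw [f1.2]; linarith),
          wK_of_mid (f2.congr (by ring)) (by linarith) (by linarith)⟩
      · exact Or.inr ⟨wK_of_le_zero f1.1 (by rw [f1.2]; linarith),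
          wK_of_mid (f2.congr (by ring)) (by linarith) (by linarith)⟩
    · simp
    · rw [min_eq_left (by linarith)]; ring
  · -- C4b
    obtain ⟨gP, gQ⟩ := sub_add_GE hord hα (eX.ge heq.ge)
    have eNum : EQ ord (v + v) (2 * (ξ₁ + ξ₂) * (ξ₁ * ξ₂ + α) + β * ξ₁ * ξ₂) :=
      eB.gt_add hord ((two_term_GE hord h2 gSg gQ).gt (by linarith))
    have gProd := prod_GE hord hN eD gP
    have eSum := sum_EQ hord hS eD eNum
    have key := newton_split_ge hord rfl rfl eSum gProd (by linarith)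
    refine concl_split hs ht (a := 0) (b := h) ?_ ?_ ?_
    · rcases key with ⟨f1, f2⟩ | ⟨f1, f2⟩
      · exact Or.inl ⟨wK_of_le_zero f1.1 (by rw [f1.2]; linarith),
          wK_of_ge hh.le (f2.mono (by linarith))⟩
      · exact Or.inr ⟨wK_of_le_zero f1.1 (by rw [f1.2]; linarith),
          wK_of_ge hh.le (f2.mono (by linarith))⟩
    · simp
    · rw [min_eq_left (by linarith)]; linarith
  · -- C4c
    obtain ⟨eP, eQ⟩ := sub_add_EQ_of_gt hord hα (eX.gt hgt)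
    have eNum : EQ ord (v + v) (2 * (ξ₁ + ξ₂) * (ξ₁ * ξ₂ + α) + β * ξ₁ * ξ₂) :=
      eB.gt_add hord ((two_term_GE hord h2 gSg (eQ.ge le_rfl)).gt (by linarith))
    have eProd := prod_EQ hord hN eD eP
    have eSum := sum_EQ hord hS eD eNum
    have key := newton_split_eq hord rfl rfl eSum eProd (by linarith)
    refine concl_split hs ht (a := 0) (b := 2 * h - 2 * v) ?_ ?_ ?_
    · rcases key with ⟨f1, f2⟩ | ⟨f1, f2⟩
      · exact Or.inl ⟨wK_of_le_zero f1.1 (by rw [f1.2]; linarith),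
          wK_of_mid (f2.congr (by ring)) (by linarith) (by linarith)⟩
      · exact Or.inr ⟨wK_of_le_zero f1.1 (by rw [f1.2]; linarith),
          wK_of_mid (f2.congr (by ring)) (by linarith) (by linarith)⟩
    · simp
    · rw [min_eq_right (by linarith)]; ring

/-- `K_field` under the normalisation `ξ₁ ≠ 0`, and `ξ₂ = 0` or `ord ξ₁ ≤ ord ξ₂`. -/
lemma K_field_ordered (hξ₁ : ξ₁ ≠ 0) (g : GE ord (ord ξ₁) ξ₂) : Concl ord h ξ₁ ξ₂ r₁ r₂ := by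
  have e1 : EQ ord (ord ξ₁) ξ₁ := EQ.mk hξ₁
  by_cases hv1 : ord ξ₁ ≤ 0
  · by_cases hz : ξ₂ = 0
    · exact case_B2 hord h2 hh hβ hα hne hN hS e1 hv1 (Or.inl hz)
    have e2 : EQ ord (ord ξ₂) ξ₂ := EQ.mk hz
    have h12 := g.le_ord hz
    by_cases hv2 : ord ξ₂ ≤ 0
    · exact case_OO hord h2 hh hβ hα hne hN hS e1 e2 h12 hv2
    push Not at hv2
    by_cases hlt : ord ξ₁ + ord ξ₂ < h
    · exact case_B1 hord h2 hh hβ hα hne hN hS e1 e2 hv1 hv2 hlt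
    · exact case_B2 hord h2 hh hβ hα hne hN hS e1 hv1 (e2.ge (by linarith))
  push Not at hv1
  by_cases hv1h : ord ξ₁ < h
  · by_cases g2 : GE ord h ξ₂
    · exact case_MH hord h2 hh hβ hα hne hN hS e1 hv1 hv1h g2
    have hz : ξ₂ ≠ 0 := fun h0 => g2 (Or.inl h0)
    have hv2 : ord ξ₂ < h := lt_of_not_ge fun hge => g2 (Or.inr hge)
    have e2 : EQ ord (ord ξ₂) ξ₂ := EQ.mk hz
    rcases (g.le_ord hz).lt_or_eq with h12 | h12
    · exact case_MM_lt hord h2 hh hβ hα hne hN hS e1 e2 hv1 h12 hv2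
    · exact case_MM_eq hord h2 hh hβ hα hne hN hS e1 (e2.congr h12.symm) hv1 hv1h
  · exact case_HH hord h2 hh hβ hα hne hN hS e1 (le_of_not_gt hv1h) g

end cases

lemma Concl.swap {h : ℚ} {ξ₁ ξ₂ r₁ r₂ : K} (hc : Concl ord h ξ₂ ξ₁ r₁ r₂) :
    Concl ord h ξ₁ ξ₂ r₁ r₂ := by
  unfold Concl at hc ⊢
  have e1 : wK ord h ξ₂ + wK ord h ξ₁ = wK ord h ξ₁ + wK ord h ξ₂ := add_comm _ _
  have e2 : 2 * h - wK ord h ξ₂ - wK ord h ξ₁ = 2 * h - wK ord h ξ₁ - wK ord h ξ₂ := by ring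
  have e3 : |wK ord h ξ₂ - wK ord h ξ₁| = |wK ord h ξ₁ - wK ord h ξ₂| := abs_sub_comm _ _
  rwa [e1, e2, e3] at hc

end KF

open KF in
/-- (K): if `r₁ r₂ = (ξ₁ξ₂-α)²/(ξ₁-ξ₂)²` and `r₁ + r₂ = [2(ξ₁+ξ₂)(ξ₁ξ₂+α)+βξ₁ξ₂]/(ξ₁-ξ₂)²`
with `β` a unit, `ord α = h > 0`, then `{w r₁, w r₂} = {min (s+t) (2h-s-t), |s-t|}`. -/
theorem K_field {K : Type*} [Field K] {A : ValuationSubring K} {ord : K → ℚ}
    (hord : IsOrd A ord) (h2 : IsU ord (2 : K)) {h : ℚ} (hh : 0 < h)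
    {β α : K} (hβ : IsU ord β) (hα0 : α ≠ 0) (hα : ord α = h)
    {ξ₁ ξ₂ r₁ r₂ : K} (hne : ξ₁ ≠ ξ₂)
    (hN : r₁ * r₂ * (ξ₁ - ξ₂) ^ 2 = (ξ₁ * ξ₂ - α) ^ 2)
    (hS : (r₁ + r₂) * (ξ₁ - ξ₂) ^ 2 = 2 * (ξ₁ + ξ₂) * (ξ₁ * ξ₂ + α) + β * ξ₁ * ξ₂) :
    (wK ord h r₁ = min (wK ord h ξ₁ + wK ord h ξ₂) (2 * h - wK ord h ξ₁ - wK ord h ξ₂) ∧
        wK ord h r₂ = |wK ord h ξ₁ - wK ord h ξ₂|) ∨
      (wK ord h r₁ = |wK ord h ξ₁ - wK ord h ξ₂| ∧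
        wK ord h r₂ = min (wK ord h ξ₁ + wK ord h ξ₂) (2 * h - wK ord h ξ₁ - wK ord h ξ₂)) := by
  have hαE : EQ ord h α := ⟨hα0, hα⟩
  change Concl ord h ξ₁ ξ₂ r₁ r₂
  -- order the two `ξ`
  have hord12 : (ξ₁ ≠ 0 ∧ GE ord (ord ξ₁) ξ₂) ∨ (ξ₂ ≠ 0 ∧ GE ord (ord ξ₂) ξ₁) := by
    by_cases hz2 : ξ₂ = 0
    · exact Or.inl ⟨fun h0 => hne (h0.trans hz2.symm), Or.inl hz2⟩
    by_cases hz1 : ξ₁ = 0
    · exact Or.inr ⟨hz2, Or.inl hz1⟩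
    rcases le_total (ord ξ₁) (ord ξ₂) with hle | hle
    · exact Or.inl ⟨hz1, Or.inr hle⟩
    · exact Or.inr ⟨hz2, Or.inr hle⟩
  rcases hord12 with ⟨hz, g⟩ | ⟨hz, g⟩
  · exact K_field_ordered hord h2 hh hβ hαE hne hN hS hz g
  · refine Concl.swap ?_
    have hN' : r₁ * r₂ * (ξ₂ - ξ₁) ^ 2 = (ξ₂ * ξ₁ - α) ^ 2 := by
      rw [mul_comm ξ₂ ξ₁, ← hN]; ring
    have hS' : (r₁ + r₂) * (ξ₂ - ξ₁) ^ 2 = 2 * (ξ₂ + ξ₁) * (ξ₂ * ξ₁ + α) + β * ξ₂ * ξ₁ := by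
      have : (r₁ + r₂) * (ξ₂ - ξ₁) ^ 2 = (r₁ + r₂) * (ξ₁ - ξ₂) ^ 2 := by ring
      rw [this, hS]; ring
    exact K_field_ordered hord h2 hh hβ hαE hne.symm hN' hS' hz g

end Fermat.Agent.S05

namespace Fermat.Agent.S05

namespace KF

variable {K : Type*} [Field K] {A : ValuationSubring K} {ord : K → ℚ}

lemma four_EQ (hord : IsOrd A ord) (h2 : IsU ord (2 : K)) : EQ ord 0 (4 : K) := by
  have h2' : EQ ord 0 (2 : K) := h2
  have := h2'.mul hord h2'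
  rw [zero_add] at this
  have h4 : (2 : K) * 2 = 4 := by norm_num
  rwa [h4] at this

/-- the cubic factor `G = 4ξ² + βξ + 4α` has valuation `ord ξ` when `0 < ord ξ < h`. -/
lemma G_EQ_mid (hord : IsOrd A ord) (h2 : IsU ord (2 : K)) {h : ℚ} {β α ξ : K}
    (hβ : IsU ord β) (hα : EQ ord h α) {v : ℚ} (e : EQ ord v ξ) (hv : 0 < v) (hvh : v < h) :
    EQ ord v (4 * ξ ^ 2 + β * ξ + 4 * α) := by
  have h4 := four_EQ hord h2
  have hβ' : EQ ord 0 β := hβ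
  have t1 : EQ ord (2 * v) (4 * ξ ^ 2) := by
    have := h4.mul hord (e.sq hord); rwa [zero_add] at this
  have t2 : EQ ord v (β * ξ) := by
    have := hβ'.mul hord e; rwa [zero_add] at this
  have t3 : EQ ord h (4 * α) := by
    have := h4.mul hord hα; rwa [zero_add] at this
  exact (t2.gt_add hord (t1.gt (by linarith))).add_gt hord (t3.gt hvh)

/-- (K) for doubling (duplicate of `Fermat.Agent.S05.K_dbl_field` in `KFieldDbl.lean`, kept under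
the `KF` namespace to avoid a name clash). -/
theorem K_dbl_field {K : Type*} [Field K] {A : ValuationSubring K} {ord : K → ℚ}
    (hord : IsOrd A ord) (h2 : IsU ord (2 : K)) {h : ℚ} (hh : 0 < h)
    {β α : K} (hβ : IsU ord β) (hα0 : α ≠ 0) (hα : ord α = h)
    {ξ r : K} (hden : ξ * (4 * ξ ^ 2 + β * ξ + 4 * α) ≠ 0)
    (hr : r * (ξ * (4 * ξ ^ 2 + β * ξ + 4 * α)) = (ξ ^ 2 - α) ^ 2) :
    wK ord h r = min (2 * wK ord h ξ) (2 * h - 2 * wK ord h ξ) := by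
  have hαE : EQ ord h α := ⟨hα0, hα⟩
  have hξ : ξ ≠ 0 := left_ne_zero_of_mul hden
  have hG : 4 * ξ ^ 2 + β * ξ + 4 * α ≠ 0 := right_ne_zero_of_mul hden
  have e : EQ ord (ord ξ) ξ := EQ.mk hξ
  have eG0 : EQ ord (ord (4 * ξ ^ 2 + β * ξ + 4 * α)) (4 * ξ ^ 2 + β * ξ + 4 * α) := EQ.mk hG
  have h4 := four_EQ hord h2
  have hβ' : EQ ord 0 β := hβ
  have t1 : EQ ord (2 * ord ξ) (4 * ξ ^ 2) := by
    have := h4.mul hord (e.sq hord); rwa [zero_add] at this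
  have t2 : EQ ord (ord ξ) (β * ξ) := by
    have := hβ'.mul hord e; rwa [zero_add] at this
  have t3 : EQ ord h (4 * α) := by
    have := h4.mul hord hαE; rwa [zero_add] at this
  have hreq : r = (ξ ^ 2 - α) ^ 2 / (ξ * (4 * ξ ^ 2 + β * ξ + 4 * α)) := by
    rw [eq_div_iff hden]; exact hr
  have eSq : EQ ord (2 * ord ξ) (ξ ^ 2) := e.sq hord
  by_cases hv0 : ord ξ ≤ 0
  · -- `ord ξ ≤ 0`
    have gG : GE ord (2 * ord ξ) (4 * ξ ^ 2 + β * ξ + 4 * α) :=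
      ((t1.ge le_rfl).add hord (t2.ge (by linarith))).add hord (t3.ge (by linarith))
    have hGle := gG.le_ord hG
    have eP : EQ ord (2 * ord ξ) (ξ ^ 2 - α) := eSq.sub_gt hord (hαE.gt (by linarith))
    have er : EQ ord (2 * (2 * ord ξ) - (ord ξ + ord (4 * ξ ^ 2 + β * ξ + 4 * α))) r := by
      rw [hreq]; exact (eP.sq hord).div hord (e.mul hord eG0)
    rw [wK_of_le_zero er.1 (by rw [er.2]; linarith), wK_of_le_zero hξ hv0,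
      min_eq_left (by linarith)]
    ring
  push Not at hv0
  by_cases hvh : ord ξ < h
  · have eG := G_EQ_mid hord h2 hβ hαE e hv0 hvh
    have eDen : EQ ord (ord ξ + ord ξ) (ξ * (4 * ξ ^ 2 + β * ξ + 4 * α)) := e.mul hord eG
    rw [wK_of_mid e hv0.le hvh.le]
    rcases lt_trichotomy (2 * ord ξ) h with hlt | heq | hgt
    · have eP : EQ ord (2 * ord ξ) (ξ ^ 2 - α) := eSq.sub_gt hord (hαE.gt hlt)
      have er : EQ ord (2 * (2 * ord ξ) - (ord ξ + ord ξ)) r := by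
        rw [hreq]; exact (eP.sq hord).div hord eDen
      rw [wK_of_mid (er.congr (show _ = 2 * ord ξ by ring)) (by linarith) (by linarith),
        min_eq_left (by linarith)]
    · have gP : GE ord h (ξ ^ 2 - α) := (eSq.ge heq.ge).sub hord (hαE.ge le_rfl)
      have gr : GE ord (2 * h - (ord ξ + ord ξ)) r := by
        rw [hreq]; exact (gP.sq hord).div hord eDen
      rw [wK_of_ge hh.le (gr.mono (by linarith)), min_eq_left (by linarith)]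
      linarith
    · have eP : EQ ord h (ξ ^ 2 - α) := hαE.gt_sub hord (eSq.gt hgt)
      have er : EQ ord (2 * h - (ord ξ + ord ξ)) r := by
        rw [hreq]; exact (eP.sq hord).div hord eDen
      rw [wK_of_mid (er.congr (show _ = 2 * h - 2 * ord ξ by ring)) (by linarith) (by linarith),
        min_eq_right (by linarith)]
  · -- `ord ξ ≥ h`
    push Not at hvh
    have gG : GE ord h (4 * ξ ^ 2 + β * ξ + 4 * α) :=
      ((t1.ge (by linarith)).add hord (t2.ge hvh)).add hord (t3.ge le_rfl)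
    have hGle := gG.le_ord hG
    have eP : EQ ord h (ξ ^ 2 - α) := hαE.gt_sub hord (eSq.gt (by linarith))
    have er : EQ ord (2 * h - (ord ξ + ord (4 * ξ ^ 2 + β * ξ + 4 * α))) r := by
      rw [hreq]; exact (eP.sq hord).div hord (e.mul hord eG0)
    rw [wK_of_le_zero er.1 (by rw [er.2]; linarith), wK_of_ge hh.le (e.ge hvh),
      min_eq_right (by linarith)]
    ring

/-- roots of the 2-torsion quadratic have `w ∈ {0,h}` (duplicate, see above). -/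
theorem K_two_torsion_field {K : Type*} [Field K] {A : ValuationSubring K} {ord : K → ℚ}
    (hord : IsOrd A ord) (h2 : IsU ord (2 : K)) {h : ℚ} (hh : 0 < h)
    {β α : K} (hβ : IsU ord β) (hα0 : α ≠ 0) (hα : ord α = h)
    {ξ : K} (hden : ξ * (4 * ξ ^ 2 + β * ξ + 4 * α) = 0) :
    wK ord h ξ = 0 ∨ wK ord h ξ = h := by
  have hαE : EQ ord h α := ⟨hα0, hα⟩
  by_cases hξ : ξ = 0
  · right; rw [hξ]; exact wK_zero h
  have hG : 4 * ξ ^ 2 + β * ξ + 4 * α = 0 := (mul_eq_zero.mp hden).resolve_left hξ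
  have e : EQ ord (ord ξ) ξ := EQ.mk hξ
  by_cases hv0 : ord ξ ≤ 0
  · left; exact wK_of_le_zero hξ hv0
  push Not at hv0
  by_cases hvh : ord ξ < h
  · exact absurd hG (G_EQ_mid hord h2 hβ hαE e hv0 hvh).1
  · right; exact wK_of_ge hh.le (e.ge (le_of_not_gt hvh))

end KF

end Fermat.Agent.S05
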