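/-
S05 package I (helper27): multiplicative reduction, main step (`unram_of_mult`), core version.
The outputs of packages E (`E1_torsion_free`), F (`smul_sub_mem_E1`), H (`K_points`, `torsion_w`)
are taken as explicit hypotheses, so that this file depends only on `Defs.lean`.
-/
import Mathlib
import Fermat.Agent.S05.Defs
import Fermat.Prelude.Def_FLTPrelim_GaloisRep

set_option autoImplicit false

namespace Fermat.Agent.S05.MM

open WeierstrassCurve WeierstrassCurve.Affine

section ordapi

variable {K : Type*} [Field K] {A : ValuationSubring K} {ord : K → ℚ}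

theorem ord_one (hord : IsOrd A ord) : ord 1 = 0 := by
  have := hord.map_mul (one_ne_zero (α := K)) (one_ne_zero (α := K))
  rw [mul_one] at this
  linarith

theorem ord_inv (hord : IsOrd A ord) {x : K} (hx : x ≠ 0) : ord x⁻¹ = - ord x := by
  have := hord.map_mul hx (inv_ne_zero hx)
  rw [mul_inv_cancel₀ hx, ord_one hord] at this
  linarith

theorem ord_pow (hord : IsOrd A ord) {x : K} (hx : x ≠ 0) (n : ℕ) :
    ord (x ^ n) = n * ord x := by
  induction n with
  | zero => simp [ord_one hord]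
  | succ n ih =>
    rw [pow_succ, hord.map_mul (pow_ne_zero n hx) hx, ih]
    push_cast
    ring

theorem ord_div (hord : IsOrd A ord) {x y : K} (hx : x ≠ 0) (hy : y ≠ 0) :
    ord (x / y) = ord x - ord y := by
  rw [div_eq_mul_inv, hord.map_mul hx (inv_ne_zero hy), ord_inv hord hy]
  ring

/-- `x ∈ m ↔ 0 < ord x` for `x ≠ 0`. -/
theorem mem_nonunits_iff (hord : IsOrd A ord) {x : K} (hx : x ≠ 0) :
    x ∈ A.nonunits ↔ 0 < ord x := by
  rw [ValuationSubring.mem_nonunits_iff_or, hord.mem_iff (inv_ne_zero hx), ord_inv hord hx]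
  constructor
  · rintro (h | h)
    · exact absurd h hx
    · linarith [not_le.mp h]
  · intro h
    right
    linarith

/-- `v x = 1 ↔ x` is a unit (nonzero of `ord` zero). -/
theorem isU_iff (hord : IsOrd A ord) {x : K} : IsU ord x ↔ A.valuation x = 1 := by
  constructor
  · rintro ⟨hx, h0⟩
    have h1 : x ∈ A := (hord.mem_iff hx).mpr h0.ge
    have h2 : x ∉ A.nonunits := by
      rw [mem_nonunits_iff hord hx]; linarith
    rw [ValuationSubring.mem_nonunits_iff] at h2
    exact le_antisymm ((A.valuation_le_one_iff x).mpr h1) (not_lt.mp h2)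
  · intro h
    have hx : x ≠ 0 := by
      rintro rfl
      simp at h
    refine ⟨hx, ?_⟩
    have h1 : x ∈ A := (A.valuation_le_one_iff x).mp h.le
    have h2 : x ∉ A.nonunits := by
      rw [ValuationSubring.mem_nonunits_iff]; exact not_lt.mpr h.ge
    rw [mem_nonunits_iff hord hx] at h2
    have := (hord.mem_iff hx).mp h1
    linarith

theorem IsU.ne_zero {x : K} (h : IsU ord x) : x ≠ 0 := h.1

theorem IsU.mem (hord : IsOrd A ord) {x : K} (h : IsU ord x) : x ∈ A :=
  (hord.mem_iff h.1).mpr h.2.ge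

theorem isU_mul (hord : IsOrd A ord) {x y : K} (hx : IsU ord x) (hy : IsU ord y) :
    IsU ord (x * y) := by
  rw [isU_iff hord] at *
  rw [map_mul, hx, hy, one_mul]

theorem isU_pow (hord : IsOrd A ord) {x : K} (hx : IsU ord x) (n : ℕ) :
    IsU ord (x ^ n) := by
  rw [isU_iff hord] at *
  rw [map_pow, hx, one_pow]

/-- unit + nonunit = unit -/
theorem isU_add_nonunit (hord : IsOrd A ord) {x y : K} (hx : IsU ord x) (hy : y ∈ A.nonunits) :
    IsU ord (x + y) := by
  rw [isU_iff hord] at *
  rw [ValuationSubring.mem_nonunits_iff] at hy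
  rw [Valuation.map_add_eq_of_lt_left _ (by rw [hx]; exact hy), hx]

theorem mul_mem_nonunits {x y : K} (hx : x ∈ A) (hy : y ∈ A.nonunits) :
    x * y ∈ A.nonunits := by
  rw [ValuationSubring.mem_nonunits_iff] at *
  rw [map_mul]
  have := (A.valuation_le_one_iff x).mpr hx
  calc A.valuation x * A.valuation y ≤ 1 * A.valuation y := by gcongr
    _ = A.valuation y := one_mul _
    _ < 1 := hy

end ordapi

section algebra

variable {K : Type*} [Field K] (W : Affine K)

theorem Yc_sq' {x y : K} (h : W.Equation x y) : Yc W x y ^ 2 = Fpoly W x := by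
  rw [Affine.equation_iff] at h
  unfold Yc Fpoly
  simp only [WeierstrassCurve.b₂, WeierstrassCurve.b₄, WeierstrassCurve.b₆]
  linear_combination 4 * h

theorem equation_of_Yc_sq (h2 : (2 : K) ≠ 0) {x y : K} (h : Yc W x y ^ 2 = Fpoly W x) :
    W.Equation x y := by
  rw [Affine.equation_iff]
  unfold Yc Fpoly at h
  simp only [WeierstrassCurve.b₂, WeierstrassCurve.b₄, WeierstrassCurve.b₆] at h
  have h4 : (4 : K) ≠ 0 := by
    have : (4 : K) = 2 * 2 := by norm_num
    rw [this]; exact mul_ne_zero h2 h2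
  apply mul_left_cancel₀ h4
  linear_combination h

theorem four_alpha4 (h2 : (2 : K) ≠ 0) (r : K) :
    4 * alpha4 W r = 2 * (W.b₄ + r * W.b₂ + 6 * r ^ 2) := by
  unfold alpha4
  field_simp
  ring

theorem Fpoly_shift' (h2 : (2 : K) ≠ 0) {r : K} (hr : Fpoly W r = 0) (x : K) :
    Fpoly W x = (x - r) * (4 * (x - r) ^ 2 + beta2 W r * (x - r) + 4 * alpha4 W r) := by
  have h4 := four_alpha4 W h2 r
  unfold Fpoly at hr ⊢
  unfold beta2
  linear_combination hr - (x - r) * h4

theorem Fder_shift' (h2 : (2 : K) ≠ 0) (r x : K) :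
    Fder W x = 4 * (x - r) ^ 2 +
      (2 * (x - r) * (4 * (x - r) + beta2 W r) + 4 * alpha4 W r) := by
  have h4 := four_alpha4 W h2 r
  unfold Fder
  unfold beta2
  linear_combination - h4

end algebra

section E0

variable {K : Type*} [Field K] [DecidableEq K] {A : ValuationSubring K} {ord : K → ℚ}

omit [DecidableEq K] in
/-- `x ∈ A ⇒ y ∈ A` for a point of an integral Weierstrass curve. -/
theorem y_mem_of_x_mem (W : Affine K) (hW : IsIntegralW W A) {x y : K} (h : W.Equation x y)
    (hx : x ∈ A) : y ∈ A := by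
  obtain ⟨ha₁, ha₂, ha₃, ha₄, ha₆⟩ := hW
  by_contra hy
  rw [← A.valuation_le_one_iff, not_le] at hy
  rw [Affine.equation_iff] at h
  have hR : A.valuation (x ^ 3 + W.a₂ * x ^ 2 + W.a₄ * x + W.a₆) ≤ 1 := by
    rw [A.valuation_le_one_iff]
    exact A.add_mem _ _ (A.add_mem _ _ (A.add_mem _ _ (pow_mem hx 3)
      (A.mul_mem _ _ ha₂ (pow_mem hx 2))) (A.mul_mem _ _ ha₄ hx)) ha₆
  have hc : A.valuation (W.a₁ * x + W.a₃) ≤ 1 := by
    rw [A.valuation_le_one_iff]
    exact A.add_mem _ _ (A.mul_mem _ _ ha₁ hx) ha₃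
  have hpos : 0 < A.valuation y := lt_trans zero_lt_one hy
  have h1 : A.valuation ((W.a₁ * x + W.a₃) * y) < A.valuation (y ^ 2) := by
    rw [map_mul, map_pow, sq]
    calc A.valuation (W.a₁ * x + W.a₃) * A.valuation y ≤ 1 * A.valuation y := by gcongr
      _ = A.valuation y := one_mul _
      _ < A.valuation y * A.valuation y := lt_mul_of_one_lt_right hpos hy
  have h3 : y ^ 2 + W.a₁ * x * y + W.a₃ * y = y ^ 2 + (W.a₁ * x + W.a₃) * y := by ring
  rw [h3] at h
  have h4 := Valuation.map_add_eq_of_lt_left A.valuation h1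
  rw [h, map_pow] at h4
  have h5 : (1 : A.ValueGroup) < A.valuation y ^ 2 := by
    rw [sq]
    exact lt_trans hy (lt_mul_of_one_lt_right hpos hy)
  rw [← h4] at h5
  exact absurd hR (not_le.mpr h5)

theorem E0_of_wPt_zero (W : Affine K) (hord : IsOrd A ord) (h2 : IsU ord (2 : K))
    (hW : IsIntegralW W A) {h : ℚ} (hh : 0 < h) {r : K} (hrA : r ∈ A) (hr : Fpoly W r = 0)
    (hα0 : alpha4 W r ≠ 0) (hα : ord (alpha4 W r) = h)
    {R : W.Point} (hR : wPt ord h r R = 0) :
    R ∈ E1 W ord ∨ ∃ (x y : K) (hxy : W.Nonsingular x y), R = Point.some x y hxy ∧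
      x ∈ A ∧ y ∈ A ∧ (IsU ord (Yc W x y) ∨ IsU ord (Fder W x)) := by
  rcases R with _ | ⟨x, y, hxy⟩
  · exact Or.inl (Or.inl rfl)
  · have hR' : wK ord h (x - r) = 0 := hR
    unfold wK at hR'
    by_cases hξ : x - r = 0
    · rw [if_pos hξ] at hR'
      exact absurd hR' hh.ne'
    · rw [if_neg hξ] at hR'
      have hle : ord (x - r) ≤ 0 := by
        have h1 : min (ord (x - r)) h ≤ 0 := by
          have := le_max_right 0 (min (ord (x - r)) h)
          rw [hR'] at this
          exact this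
        rcases min_le_iff.mp h1 with h1 | h1
        · exact h1
        · exact absurd h1 (not_le.mpr hh)
      rcases lt_or_eq_of_le hle with hlt | heq
      · left
        have hxA : x ∉ A := by
          intro hxA
          have : x - r ∈ A := sub_mem hxA hrA
          rw [hord.mem_iff hξ] at this
          linarith
        have hx0 : x ≠ 0 := by
          rintro rfl
          exact hxA A.zero_mem
        refine Or.inr ⟨x, y, hxy, rfl, hx0, ?_⟩
        rw [hord.mem_iff hx0] at hxA
        exact not_le.mp hxA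
      · right
        have hξU : IsU ord (x - r) := ⟨hξ, heq⟩
        have hξA : x - r ∈ A := IsU.mem hord hξU
        have hxA : x ∈ A := by
          have := A.add_mem _ _ hξA hrA
          rwa [sub_add_cancel] at this
        have hyA : y ∈ A := y_mem_of_x_mem W hW hxy.1 hxA
        refine ⟨x, y, hxy, rfl, hxA, hyA, ?_⟩
        by_cases hY : IsU ord (Yc W x y)
        · exact Or.inl hY
        · right
          obtain ⟨ha₁, ha₂, ha₃, ha₄, ha₆⟩ := hW
          have h2A : (2 : K) ∈ A := IsU.mem hord h2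
          have h4A : (4 : K) ∈ A := by
            have : (4 : K) = 2 * 2 := by norm_num
            rw [this]; exact A.mul_mem _ _ h2A h2A
          have hYA : Yc W x y ∈ A := by
            unfold Yc
            exact A.add_mem _ _ (A.add_mem _ _ (A.mul_mem _ _ h2A hyA) (A.mul_mem _ _ ha₁ hxA)) ha₃
          have hYm : A.valuation (Yc W x y) < 1 := by
            rw [isU_iff hord] at hY
            exact lt_of_le_of_ne ((A.valuation_le_one_iff _).mpr hYA) hY
          have hαm : alpha4 W r ∈ A.nonunits := by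
            rw [mem_nonunits_iff hord hα0, hα]; exact hh
          have h4αm : 4 * alpha4 W r ∈ A.nonunits := mul_mem_nonunits h4A hαm
          have hF : Yc W x y ^ 2 = (x - r) * (4 * (x - r) ^ 2 + beta2 W r * (x - r)
              + 4 * alpha4 W r) := by
            rw [Yc_sq' W hxy.1, Fpoly_shift' W h2.1 hr]
          have hξv : A.valuation (x - r) = 1 := (isU_iff hord).mp hξU
          have hGm : (4 * (x - r) ^ 2 + beta2 W r * (x - r) + 4 * alpha4 W r) ∈ A.nonunits := by
            rw [ValuationSubring.mem_nonunits_iff]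
            have := congrArg A.valuation hF
            rw [map_pow, map_mul, hξv, one_mul] at this
            rw [← this]
            exact pow_lt_one₀ zero_le hYm two_ne_zero
          have hLm : (x - r) * (4 * (x - r) + beta2 W r) ∈ A.nonunits := by
            have := sub_mem hGm h4αm
            have e : 4 * (x - r) ^ 2 + beta2 W r * (x - r) + 4 * alpha4 W r - 4 * alpha4 W r
                = (x - r) * (4 * (x - r) + beta2 W r) := by ring
            rwa [e] at this
          have hL2m : 2 * (x - r) * (4 * (x - r) + beta2 W r) ∈ A.nonunits := by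
            have := mul_mem_nonunits h2A hLm
            rwa [← mul_assoc] at this
          rw [Fder_shift' W h2.1 r x]
          apply isU_add_nonunit hord
          · have : (4 : K) = 2 * 2 := by norm_num
            rw [this]
            exact isU_mul hord (isU_mul hord h2 h2) (isU_pow hord hξU 2)
          · exact add_mem hL2m h4αm

theorem wK_nonneg {h : ℚ} (ξ : K) (hh : 0 < h) : 0 ≤ wK ord h ξ := by
  unfold wK
  split_ifs
  · exact hh.le
  · exact le_max_left _ _

theorem wK_le {h : ℚ} (ξ : K) (hh : 0 < h) : wK ord h ξ ≤ h := by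
  unfold wK
  split_ifs
  · exact le_rfl
  · exact max_le hh.le (min_le_right _ _)

omit [DecidableEq K] in
theorem wK_of_lt {h : ℚ} {ξ : K} (hξ : ξ ≠ 0) (h0 : 0 < ord ξ) (h1 : ord ξ < h) :
    wK ord h ξ = ord ξ := by
  unfold wK
  rw [if_neg hξ, min_eq_left h1.le, max_eq_right h0.le]

end E0

section main

variable {K : Type*} [Field K] [DecidableEq K] {A : ValuationSubring K} {ord : K → ℚ}
variable {k : Type*} [Field k] [Algebra k K] (W : Affine k)

/-- Package I, core version: the outputs of packages E, F, H are hypotheses `hE hF hH hK`. -/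
theorem unram_of_mult_core (hord : IsOrd A ord) (h2 : IsU ord (2 : K))
    (hW : IsIntegralW (W⁄K) A) (hΔ : (W⁄K).Δ ≠ 0)
    (hsq : ∀ x : K, ∃ y : K, y ^ 2 = x)
    {p : ℕ} (hp : p.Prime) (hp2 : p ≠ 2)
    {r g ε : k} (hrA : algebraMap k K r ∈ A) (hr : Fpoly (W⁄K) (algebraMap k K r) = 0)
    (hα : alpha4 (W⁄K) (algebraMap k K r) = algebraMap k K (ε * g ^ p))
    (hβ : IsU ord (beta2 (W⁄K) (algebraMap k K r)))
    (hε : IsU ord (algebraMap k K ε)) (hg0 : g ≠ 0) (hg : 0 < ord (algebraMap k K g))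
    (σ : K ≃ₐ[k] K) (hσ : IsInertial A σ)
    (hE : ∀ Q : (W⁄K).Point, Q ∈ E1 (W⁄K) ord → (p : ℤ) • Q = 0 → Q = 0)
    (hF : ∀ Q : (W⁄K).Point, (Q ∈ E1 (W⁄K) ord ∨
        ∃ (x y : K) (hxy : (W⁄K).Nonsingular x y), Q = Point.some x y hxy ∧
          x ∈ A ∧ y ∈ A ∧ (IsU ord (Yc (W⁄K) x y) ∨ IsU ord (Fder (W⁄K) x))) →
        σ • Q - Q ∈ E1 (W⁄K) ord)
    (hH : ∀ Q : (W⁄K).Point, (p : ℤ) • Q = 0 → ∃ j : ℤ,
        (p : ℚ) * wPt ord (ord (alpha4 (W⁄K) (algebraMap k K r))) (algebraMap k K r) Q
          = 2 * ord (alpha4 (W⁄K) (algebraMap k K r)) * j)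
    (hK : ∀ {x₁ y₁ x₂ y₂ : K} (h₁ : (W⁄K).Nonsingular x₁ y₁) (h₂ : (W⁄K).Nonsingular x₂ y₂),
        x₁ ≠ x₂ →
        wPt ord (ord (alpha4 (W⁄K) (algebraMap k K r))) (algebraMap k K r) (Point.some x₁ y₁ h₁) =
          wPt ord (ord (alpha4 (W⁄K) (algebraMap k K r))) (algebraMap k K r)
            (Point.some x₂ y₂ h₂) →
        (wPt ord (ord (alpha4 (W⁄K) (algebraMap k K r))) (algebraMap k K r)
            (Point.some x₁ y₁ h₁ + Point.some x₂ y₂ h₂) = 0 ∨
         wPt ord (ord (alpha4 (W⁄K) (algebraMap k K r))) (algebraMap k K r)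
            (Point.some x₁ y₁ h₁ - Point.some x₂ y₂ h₂) = 0))
    {P : (W⁄K).Point} (hpP : (p : ℤ) • P = 0) : σ • P = P := by
  -- notation
  set rK : K := algebraMap k K r with hrK
  set gK : K := algebraMap k K g with hgK
  set εK : K := algebraMap k K ε with hεK
  set α : K := alpha4 (W⁄K) rK with hαdef
  set h : ℚ := ord α with hh_def
  have hgK0 : gK ≠ 0 := (map_ne_zero (algebraMap k K)).mpr hg0
  have hα' : α = εK * gK ^ p := by rw [hα, map_mul, map_pow]
  have hα0 : α ≠ 0 := by
    rw [hα']; exact mul_ne_zero hε.1 (pow_ne_zero _ hgK0)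
  have hp0 : (p : ℚ) ≠ 0 := by exact_mod_cast hp.ne_zero
  have hppos : (0 : ℚ) < p := by exact_mod_cast hp.pos
  have hh_eq : h = p * ord gK := by
    rw [hh_def, hα', hord.map_mul hε.1 (pow_ne_zero _ hgK0), hε.2, ord_pow hord hgK0, zero_add]
  have hh : 0 < h := by rw [hh_eq]; positivity
  have h2K : (2 : K) ≠ 0 := h2.1
  -- `p • (σ P - P) = 0`
  have hsσ : (p : ℤ) • (σ • P - P) = 0 := by
    rw [smul_sub, ← Point.algEquiv_smul_zsmul, hpP, smul_zero, sub_self]
  -- final step
  have fin : ∀ R : (W⁄K).Point, wPt ord h rK R = 0 → σ • R - R = σ • P - P → σ • P = P := by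
    intro R hR hRP
    have h1 := hF R (E0_of_wPt_zero (W⁄K) hord h2 hW hh hrA hr hα0 rfl hR)
    rw [hRP] at h1
    exact sub_eq_zero.mp (hE _ h1 hsσ)
  by_cases hs0 : wPt ord h rK P = 0
  · exact fin P hs0 rfl
  -- now `s > 0`
  rcases P with _ | ⟨x, y, hxy⟩
  · exact absurd rfl hs0
  obtain ⟨j, hj⟩ := hH _ hpP
  set s : ℚ := wPt ord h rK (Point.some x y hxy) with hs_def
  have hs_w : s = wK ord h (x - rK) := rfl
  have hs_pos : 0 < s := lt_of_le_of_ne (hs_w ▸ wK_nonneg _ hh) (Ne.symm hs0)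
  have hs_le : s ≤ h := hs_w ▸ wK_le _ hh
  -- s = 2 j ord g
  have hs_eq : s = 2 * j * ord gK := by
    have : (p : ℚ) * s = p * (2 * j * ord gK) := by rw [hj, hh_eq]; ring
    exact mul_left_cancel₀ hp0 this
  have hj_pos : 0 < j := by
    have : (0 : ℚ) < j := by
      by_contra hcon
      have hj' : (j : ℚ) ≤ 0 := not_lt.mp hcon
      have : 2 * (j : ℚ) * ord gK ≤ 0 := by
        have := mul_nonpos_of_nonpos_of_nonneg hj' hg.le
        linarith
      linarith
    exact_mod_cast this
  have hj_le : 2 * j ≤ p := by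
    have : (2 * j : ℚ) ≤ p := by
      have h3 : 2 * (j : ℚ) * ord gK ≤ p * ord gK := by rw [← hs_eq, ← hh_eq]; exact hs_le
      exact le_of_mul_le_mul_right h3 hg
    exact_mod_cast this
  have hj_lt : 2 * j < p := by
    rcases lt_or_eq_of_le hj_le with h3 | h3
    · exact h3
    · exfalso
      have hodd := hp.eq_two_or_odd'.resolve_left hp2
      have : Odd (p : ℤ) := by exact_mod_cast hodd
      rw [← h3] at this
      exact (Int.not_odd_iff_even.mpr (even_two_mul j)) this
  obtain ⟨n, rfl⟩ := Int.eq_ofNat_of_zero_le hj_pos.le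
  have hn_pos : 0 < n := by exact_mod_cast hj_pos
  have hn_lt : 2 * n < p := by exact_mod_cast hj_lt
  obtain ⟨m, hm⟩ : ∃ m : ℕ, p = 2 * n + m := ⟨p - 2 * n, by omega⟩
  have hm_pos : 0 < m := by omega
  -- ξ'
  set ξ' : K := gK ^ (2 * n) with hξ'_def
  have hξ'0 : ξ' ≠ 0 := pow_ne_zero _ hgK0
  have hξ'ord : ord ξ' = s := by
    rw [hξ'_def, ord_pow hord hgK0, hs_eq]; push_cast; ring
  have hs_lt : s < h := by
    rw [hs_eq, hh_eq]
    have : (2 * (n : ℤ) : ℚ) < p := by exact_mod_cast hj_lt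
    have := mul_lt_mul_of_pos_right this hg
    push_cast at this ⊢
    linarith
  have hξ'm : ξ' ∈ A.nonunits := by
    rw [mem_nonunits_iff hord hξ'0, hξ'ord]; exact hs_pos
  -- gK^m
  have hgm0 : gK ^ m ≠ 0 := pow_ne_zero _ hgK0
  have hgm_m : gK ^ m ∈ A.nonunits := by
    rw [mem_nonunits_iff hord hgm0, ord_pow hord hgK0]
    have : (0 : ℚ) < m := by exact_mod_cast hm_pos
    positivity
  have hαξ : α = εK * gK ^ m * ξ' := by
    rw [hα', hξ'_def, hm, pow_add]; ring
  -- constants of the base-changed curve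
  have hb₂ : (W⁄K).b₂ = algebraMap k K W.b₂ := by
    simp [WeierstrassCurve.baseChange]
  have ha₁ : (W⁄K).a₁ = algebraMap k K W.a₁ := by
    simp [WeierstrassCurve.baseChange]
  have ha₃ : (W⁄K).a₃ = algebraMap k K W.a₃ := by
    simp [WeierstrassCurve.baseChange]
  have h2A : (2 : K) ∈ A := IsU.mem hord h2
  have h4A : (4 : K) ∈ A := by
    have : (4 : K) = 2 * 2 := by norm_num
    rw [this]; exact A.mul_mem _ _ h2A h2A
  -- η
  set η₀ : k := 4 * g ^ (2 * n) + (W.b₂ + 12 * r) + 4 * (ε * g ^ m) with hη₀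
  set η : K := algebraMap k K η₀ with hη_def
  have hη_eq : η = beta2 (W⁄K) rK + (4 * ξ' + 4 * (εK * gK ^ m)) := by
    rw [hη_def, hη₀]
    unfold beta2
    rw [hb₂]
    simp only [map_add, map_mul, map_pow, map_ofNat]
    ring
  have hηU : IsU ord η := by
    rw [hη_eq]
    apply isU_add_nonunit hord hβ
    exact add_mem (mul_mem_nonunits h4A hξ'm)
      (mul_mem_nonunits h4A (mul_mem_nonunits (IsU.mem hord hε) hgm_m))
  -- θ = sqrt η
  obtain ⟨θ, hθ⟩ := hsq η
  have hθ0 : θ ≠ 0 := by
    rintro rfl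
    rw [zero_pow two_ne_zero] at hθ
    exact hηU.1 hθ.symm
  have hθU : IsU ord θ := by
    refine ⟨hθ0, ?_⟩
    have := ord_pow hord hθ0 2
    rw [hθ, hηU.2] at this
    push_cast at this
    linarith
  have hσθ : σ θ = θ := by
    have h1 : σ θ ^ 2 = θ ^ 2 := by
      rw [← map_pow, hθ, hη_def, σ.commutes]
    have h3 : (σ θ - θ) * (σ θ + θ) = 0 := by linear_combination h1
    rcases mul_eq_zero.mp h3 with h4 | h4
    · exact sub_eq_zero.mp h4
    · exfalso
      have h5 := (hσ θ (IsU.mem hord hθU)).2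
      have h6 : σ θ - θ = -(2 * θ) := by linear_combination h4
      rw [h6] at h5
      have h7 : IsU ord (2 * θ) := isU_mul hord h2 hθU
      rw [isU_iff hord] at h7
      rw [ValuationSubring.mem_nonunits_iff, Valuation.map_neg, h7] at h5
      exact lt_irrefl _ h5
  -- the point P'
  set x' : K := rK + ξ' with hx'_def
  set y' : K := (ξ' * θ - (W⁄K).a₁ * x' - (W⁄K).a₃) / 2 with hy'_def
  have hYc' : Yc (W⁄K) x' y' = ξ' * θ := by
    unfold Yc
    rw [hy'_def]
    field_simp
    ring
  have hx'r : x' - rK = ξ' := by rw [hx'_def]; ring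
  have heq' : (W⁄K).toAffine.Equation x' y' := by
    apply equation_of_Yc_sq (W⁄K) h2K
    rw [hYc', Fpoly_shift' (W⁄K) h2K hr, hx'r, mul_pow, hθ, hη_eq]
    rw [show alpha4 (W⁄K) rK = α from rfl, hαξ]
    ring
  have hns' : (W⁄K).toAffine.Nonsingular x' y' :=
    (Affine.equation_iff_nonsingular_of_Δ_ne_zero hΔ).mp heq'
  have hσx' : σ x' = x' := by
    have : x' = algebraMap k K (r + g ^ (2 * n)) := by
      rw [hx'_def, hξ'_def, map_add, map_pow]
    rw [this, σ.commutes]
  have hσξ' : σ ξ' = ξ' := by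
    have : ξ' = algebraMap k K (g ^ (2 * n)) := by
      rw [hξ'_def, map_pow]
    rw [this, σ.commutes]
  have hσy' : σ y' = y' := by
    rw [hy'_def, map_div₀, map_sub, map_sub, map_mul, map_mul, hσx', hσξ', hσθ, ha₁, ha₃,
      σ.commutes, σ.commutes, map_ofNat]
  have hσP' : σ • (Point.some x' y' hns') = Point.some x' y' hns' := by
    rw [Point.algEquiv_smul_def, Point.map_some]
    simp only [Point.some.injEq]
    exact ⟨hσx', hσy'⟩
  have hwP' : wPt ord h rK (Point.some x' y' hns') = s := by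
    show wK ord h (x' - rK) = s
    rw [hx'r, wK_of_lt hξ'0 (hξ'ord ▸ hs_pos) (hξ'ord ▸ hs_lt), hξ'ord]
  by_cases hxx : x = x'
  · -- same x-coordinate: P = ± P'
    rcases Affine.Y_eq_of_X_eq hxy.1 heq' hxx with hy | hy
    · have : Point.some x y hxy = Point.some x' y' hns' := by
        simp only [Point.some.injEq]
        exact ⟨hxx, hy⟩
      rw [this]
      exact hσP'
    · have : Point.some x y hxy = - Point.some x' y' hns' := by
        rw [Point.neg_some]
        simp only [Point.some.injEq]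
        exact ⟨hxx, hy⟩
      rw [this, smul_neg, hσP']
  · rcases hK hxy hns' hxx hwP'.symm with h0 | h0
    · refine fin _ h0 ?_
      rw [smul_add, hσP']
      abel
    · refine fin _ h0 ?_
      rw [smul_sub, hσP']
      abel

end main

end Fermat.Agent.S05.MM
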