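/-
S05 package E1 (helper8): the pole filtration `poleSet b` (`b < 0`) and `E₁` are closed under
addition and negation.  Pure valuation arithmetic on x-coordinates.  No sorry.
-/
import Mathlib
import Fermat.Agent.S05.Defs

set_option autoImplicit false
set_option linter.unusedSectionVars false

namespace Fermat.Agent.S05

open WeierstrassCurve WeierstrassCurve.Affine

namespace Pole

/-! ### private `ord` API -/
section OrdApi
variable {K : Type*} [Field K] {A : ValuationSubring K} {ord : K → ℚ}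

theorem ord_one (hord : IsOrd A ord) : ord 1 = 0 := by
  have h := hord.map_mul (one_ne_zero : (1 : K) ≠ 0) (one_ne_zero : (1 : K) ≠ 0)
  rw [mul_one] at h
  linarith

theorem ord_neg_one (hord : IsOrd A ord) : ord (-1) = 0 := by
  have h := hord.map_mul (neg_ne_zero.2 (one_ne_zero : (1 : K) ≠ 0))
    (neg_ne_zero.2 (one_ne_zero : (1 : K) ≠ 0))
  rw [neg_mul_neg, mul_one, ord_one hord] at h
  linarith

theorem ord_neg (hord : IsOrd A ord) (x : K) : ord (-x) = ord x := by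
  by_cases hx : x = 0
  · simp [hx]
  · have h := hord.map_mul (neg_ne_zero.2 (one_ne_zero : (1 : K) ≠ 0)) hx
    rw [neg_one_mul, ord_neg_one hord, zero_add] at h
    exact h

theorem ord_inv (hord : IsOrd A ord) {x : K} (hx : x ≠ 0) : ord x⁻¹ = - ord x := by
  have h := hord.map_mul hx (inv_ne_zero hx)
  rw [mul_inv_cancel₀ hx, ord_one hord] at h
  linarith

theorem ord_div (hord : IsOrd A ord) {x y : K} (hx : x ≠ 0) (hy : y ≠ 0) :
    ord (x / y) = ord x - ord y := by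
  rw [div_eq_mul_inv, hord.map_mul hx (inv_ne_zero hy), ord_inv hord hy]
  ring

theorem ord_pow (hord : IsOrd A ord) {x : K} (hx : x ≠ 0) (n : ℕ) :
    ord (x ^ n) = n * ord x := by
  induction n with
  | zero => simp [ord_one hord]
  | succ n ih =>
    rw [pow_succ, hord.map_mul (pow_ne_zero n hx) hx, ih]
    push_cast
    ring

/-- ultrametric inequality -/
theorem le_ord_add (hord : IsOrd A ord) {x y : K} (hx : x ≠ 0) (hy : y ≠ 0) (hxy : x + y ≠ 0) :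
    min (ord x) (ord y) ≤ ord (x + y) := by
  wlog hle : ord x ≤ ord y generalizing x y
  · have := this hy hx (by rwa [add_comm]) (le_of_lt (not_le.1 hle))
    rwa [min_comm, add_comm y x] at this
  rw [min_eq_left hle]
  have h1 : y / x ∈ A := by
    rw [hord.mem_iff (div_ne_zero hy hx), ord_div hord hy hx]
    linarith
  have h2 : (x + y) / x ∈ A := by
    have : (x + y) / x = 1 + y / x := by field_simp
    rw [this]
    exact A.add_mem _ _ A.one_mem h1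
  rw [hord.mem_iff (div_ne_zero hxy hx), ord_div hord hxy hx] at h2
  linarith

/-- `x = 0` or `c ≤ ord x`. -/
def Ge (ord : K → ℚ) (c : ℚ) (x : K) : Prop := x = 0 ∨ c ≤ ord x

/-- `x = 0` or `c < ord x`. -/
def Gt (ord : K → ℚ) (c : ℚ) (x : K) : Prop := x = 0 ∨ c < ord x

theorem Ge.mono {c c' : ℚ} {x : K} (h : Ge ord c x) (hc : c' ≤ c) : Ge ord c' x :=
  h.imp id fun h => hc.trans h

theorem Ge.gt {c c' : ℚ} {x : K} (h : Ge ord c x) (hc : c' < c) : Gt ord c' x :=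
  h.imp id fun h => lt_of_lt_of_le hc h

theorem Gt.ge {c : ℚ} {x : K} (h : Gt ord c x) : Ge ord c x :=
  h.imp id le_of_lt

theorem Ge.of_mem (hord : IsOrd A ord) {x : K} (hx : x ∈ A) : Ge ord 0 x := by
  by_cases h0 : x = 0
  · exact Or.inl h0
  · exact Or.inr ((hord.mem_iff h0).1 hx)

theorem Ge.of_ne {c : ℚ} {x : K} (h : c ≤ ord x) : Ge ord c x := Or.inr h

theorem Ge.add (hord : IsOrd A ord) {c : ℚ} {x y : K} (hx : Ge ord c x) (hy : Ge ord c y) :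
    Ge ord c (x + y) := by
  rcases hx with rfl | hx
  · rwa [zero_add]
  rcases hy with rfl | hy
  · rw [add_zero]; exact Or.inr hx
  by_cases hx0 : x = 0
  · rw [hx0, zero_add]; exact Or.inr hy
  by_cases hy0 : y = 0
  · rw [hy0, add_zero]; exact Or.inr hx
  by_cases hxy : x + y = 0
  · exact Or.inl hxy
  · exact Or.inr (le_trans (le_min hx hy) (le_ord_add hord hx0 hy0 hxy))

theorem Gt.add (hord : IsOrd A ord) {c : ℚ} {x y : K} (hx : Gt ord c x) (hy : Gt ord c y) :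
    Gt ord c (x + y) := by
  rcases hx with rfl | hx
  · rwa [zero_add]
  rcases hy with rfl | hy
  · rw [add_zero]; exact Or.inr hx
  by_cases hx0 : x = 0
  · rw [hx0, zero_add]; exact Or.inr hy
  by_cases hy0 : y = 0
  · rw [hy0, add_zero]; exact Or.inr hx
  by_cases hxy : x + y = 0
  · exact Or.inl hxy
  · exact Or.inr (lt_of_lt_of_le (lt_min hx hy) (le_ord_add hord hx0 hy0 hxy))

theorem Ge.neg (hord : IsOrd A ord) {c : ℚ} {x : K} (hx : Ge ord c x) : Ge ord c (-x) := by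
  rcases hx with rfl | hx
  · exact Or.inl neg_zero
  · exact Or.inr (by rwa [ord_neg hord])

theorem Gt.neg (hord : IsOrd A ord) {c : ℚ} {x : K} (hx : Gt ord c x) : Gt ord c (-x) := by
  rcases hx with rfl | hx
  · exact Or.inl neg_zero
  · exact Or.inr (by rwa [ord_neg hord])

theorem Ge.sub (hord : IsOrd A ord) {c : ℚ} {x y : K} (hx : Ge ord c x) (hy : Ge ord c y) :
    Ge ord c (x - y) := by
  rw [sub_eq_add_neg]; exact hx.add hord (hy.neg hord)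

theorem Gt.sub (hord : IsOrd A ord) {c : ℚ} {x y : K} (hx : Gt ord c x) (hy : Gt ord c y) :
    Gt ord c (x - y) := by
  rw [sub_eq_add_neg]; exact hx.add hord (hy.neg hord)

theorem Ge.mul (hord : IsOrd A ord) {c d : ℚ} {x y : K} (hx : Ge ord c x) (hy : Ge ord d y) :
    Ge ord (c + d) (x * y) := by
  rcases hx with rfl | hx
  · exact Or.inl (zero_mul _)
  rcases hy with rfl | hy
  · exact Or.inl (mul_zero _)
  by_cases hx0 : x = 0
  · exact Or.inl (by rw [hx0, zero_mul])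
  by_cases hy0 : y = 0
  · exact Or.inl (by rw [hy0, mul_zero])
  exact Or.inr (by rw [hord.map_mul hx0 hy0]; linarith)

theorem Ge.mul' (hord : IsOrd A ord) {c d e : ℚ} {x y : K} (hx : Ge ord c x) (hy : Ge ord d y)
    (he : e ≤ c + d) : Ge ord e (x * y) :=
  (hx.mul hord hy).mono he

theorem Ge.self {x : K} : Ge ord (ord x) x := Or.inr le_rfl

/-- the dominant term determines the valuation -/
theorem ord_add_of_gt (hord : IsOrd A ord) {x y : K} (hx : x ≠ 0) (hy : Gt ord (ord x) y) :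
    x + y ≠ 0 ∧ ord (x + y) = ord x := by
  rcases hy with rfl | hy
  · rw [add_zero]; exact ⟨hx, rfl⟩
  by_cases hy0 : y = 0
  · rw [hy0, add_zero]; exact ⟨hx, rfl⟩
  have hxy : x + y ≠ 0 := by
    intro h
    have : y = -x := by linear_combination h
    rw [this, ord_neg hord] at hy
    exact lt_irrefl _ hy
  refine ⟨hxy, le_antisymm ?_ ?_⟩
  · -- x = (x+y) + (-y)
    by_contra hlt
    rw [not_le] at hlt
    have h1 := le_ord_add hord hxy (neg_ne_zero.2 hy0) (by simpa using hx)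
    rw [ord_neg hord] at h1
    have h2 : x + y + -y = x := by ring
    rw [h2] at h1
    have : ord x < min (ord (x + y)) (ord y) := lt_min hlt hy
    linarith
  · have := le_ord_add hord hx hy0 hxy
    rwa [min_eq_left (le_of_lt hy)] at this

end OrdApi

/-! ### field-level statements -/
section Field
variable {K : Type*} [Field K] {A : ValuationSubring K} {ord : K → ℚ}

theorem two_ne_zero' (h2 : IsU ord (2 : K)) : (2 : K) ≠ 0 := h2.1

theorem ord_four (hord : IsOrd A ord) (h2 : IsU ord (2 : K)) : (4 : K) ≠ 0 ∧ ord (4 : K) = 0 := by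
  have h4 : (4 : K) = 2 * 2 := by norm_num
  refine ⟨by rw [h4]; exact mul_ne_zero h2.1 h2.1, ?_⟩
  rw [h4, hord.map_mul h2.1 h2.1, h2.2]; norm_num

/-- sum of two points with distinct `x` of negative valuation: the `x`-coordinates of `P ± Q`
have valuation at most `max (ord x₁) (ord x₂)`. -/
theorem pole_field (hord : IsOrd A ord) (h2 : IsU ord (2 : K))
    {b2 b4 b6 b8 : K} (hb2 : b2 ∈ A) (hb4 : b4 ∈ A) (hb6 : b6 ∈ A) (hb8 : b8 ∈ A)
    {x₁ x₂ r₁ r₂ : K} (hx₁ : x₁ ≠ 0) (hx₂ : x₂ ≠ 0) (ho₁ : ord x₁ < 0) (ho₂ : ord x₂ < 0)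
    (hne : x₁ ≠ x₂)
    (hN : r₁ * r₂ * (x₁ - x₂) ^ 2 = x₁ ^ 2 * x₂ ^ 2 - b4 * x₁ * x₂ - b6 * (x₁ + x₂) - b8)
    (hS : (r₁ + r₂) * (x₁ - x₂) ^ 2 =
      2 * x₁ * x₂ * (x₁ + x₂) + b2 * x₁ * x₂ + b4 * (x₁ + x₂) + b6) :
    r₁ ≠ 0 ∧ ord r₁ ≤ max (ord x₁) (ord x₂) := by
  set o₁ := ord x₁ with ho₁'
  set o₂ := ord x₂ with ho₂'
  have hmm : max o₁ o₂ + min o₁ o₂ = o₁ + o₂ := max_add_min o₁ o₂
  have hμ₁ : min o₁ o₂ ≤ o₁ := min_le_left _ _
  have hμ₂ : min o₁ o₂ ≤ o₂ := min_le_right _ _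
  have hμ0 : min o₁ o₂ < 0 := lt_of_le_of_lt hμ₁ ho₁
  have hm0 : max o₁ o₂ < 0 := max_lt ho₁ ho₂
  have hm₁ : o₁ ≤ max o₁ o₂ := le_max_left _ _
  have hm₂ : o₂ ≤ max o₁ o₂ := le_max_right _ _
  -- valuations of the data
  have g1 : Ge ord o₁ x₁ := Or.inr le_rfl
  have g2 : Ge ord o₂ x₂ := Or.inr le_rfl
  have gb2 : Ge ord 0 b2 := Ge.of_mem hord hb2
  have gb4 : Ge ord 0 b4 := Ge.of_mem hord hb4
  have gb6 : Ge ord 0 b6 := Ge.of_mem hord hb6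
  have gb8 : Ge ord 0 b8 := Ge.of_mem hord hb8
  have g2' : Ge ord 0 (2 : K) := Or.inr (le_of_eq h2.2.symm)
  have gsum : Ge ord (min o₁ o₂) (x₁ + x₂) := (g1.mono hμ₁).add hord (g2.mono hμ₂)
  have gdiff : Ge ord (min o₁ o₂) (x₁ - x₂) := (g1.mono hμ₁).sub hord (g2.mono hμ₂)
  have hD : x₁ - x₂ ≠ 0 := sub_ne_zero.2 hne
  have hd : min o₁ o₂ ≤ ord (x₁ - x₂) := by
    rcases gdiff with h | h
    · exact absurd h hD
    · exact h
  have hD2 : (x₁ - x₂) ^ 2 ≠ 0 := pow_ne_zero 2 hD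
  have hordD2 : ord ((x₁ - x₂) ^ 2) = 2 * ord (x₁ - x₂) := by
    rw [ord_pow hord hD]; norm_num
  -- the numerator N
  have hlead : x₁ ^ 2 * x₂ ^ 2 ≠ 0 := mul_ne_zero (pow_ne_zero 2 hx₁) (pow_ne_zero 2 hx₂)
  have hordlead : ord (x₁ ^ 2 * x₂ ^ 2) = 2 * o₁ + 2 * o₂ := by
    rw [hord.map_mul (pow_ne_zero 2 hx₁) (pow_ne_zero 2 hx₂), ord_pow hord hx₁, ord_pow hord hx₂]
    push_cast
    rfl
  have grest : Gt ord (ord (x₁ ^ 2 * x₂ ^ 2)) (-(b4 * x₁ * x₂) - b6 * (x₁ + x₂) - b8) := by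
    rw [hordlead]
    refine ((Gt.neg hord ?_).sub hord ?_).sub hord ?_
    · have : Ge ord (0 + o₁ + o₂) (b4 * x₁ * x₂) := (gb4.mul hord g1).mul hord g2
      exact this.gt (by linarith)
    · have : Ge ord (0 + min o₁ o₂) (b6 * (x₁ + x₂)) := gb6.mul hord gsum
      exact this.gt (by linarith)
    · exact gb8.gt (by linarith)
  have hNval := ord_add_of_gt hord hlead grest
  have hNeq : x₁ ^ 2 * x₂ ^ 2 + (-(b4 * x₁ * x₂) - b6 * (x₁ + x₂) - b8) =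
      r₁ * r₂ * (x₁ - x₂) ^ 2 := by rw [hN]; ring
  rw [hNeq, hordlead] at hNval
  obtain ⟨hN0, hNord⟩ := hNval
  have hr₁ : r₁ ≠ 0 := fun h => hN0 (by rw [h]; ring)
  have hr₂ : r₂ ≠ 0 := fun h => hN0 (by rw [h]; ring)
  rw [hord.map_mul (mul_ne_zero hr₁ hr₂) hD2, hord.map_mul hr₁ hr₂, hordD2] at hNord
  refine ⟨hr₁, ?_⟩
  by_contra hcon
  rw [not_le] at hcon
  -- the sum S
  have gS : Ge ord (o₁ + o₂ + min o₁ o₂)
      (2 * x₁ * x₂ * (x₁ + x₂) + b2 * x₁ * x₂ + b4 * (x₁ + x₂) + b6) := by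
    refine ((Ge.add hord ?_ ?_).add hord ?_).add hord ?_
    · have : Ge ord (0 + o₁ + o₂ + min o₁ o₂) (2 * x₁ * x₂ * (x₁ + x₂)) :=
        ((g2'.mul hord g1).mul hord g2).mul hord gsum
      exact this.mono (by linarith)
    · have : Ge ord (0 + o₁ + o₂) (b2 * x₁ * x₂) := (gb2.mul hord g1).mul hord g2
      exact this.mono (by linarith)
    · have : Ge ord (0 + min o₁ o₂) (b4 * (x₁ + x₂)) := gb4.mul hord gsum
      exact this.mono (by linarith)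
    · exact gb6.mono (by linarith)
  rw [← hS] at gS
  -- ord r₂ < ord r₁
  have hlt : ord r₂ < ord r₁ := by linarith
  have hsum := ord_add_of_gt hord hr₂ (Or.inr hlt : Gt ord (ord r₂) r₁)
  rw [add_comm] at hsum
  obtain ⟨hs0, hsord⟩ := hsum
  rcases gS with h | h
  · exact (mul_ne_zero hs0 hD2) h
  · rw [hord.map_mul hs0 hD2, hsord, hordD2] at h
    linarith

/-- duplication: `x(2P) F(x) = Φ₂(x)` and `ord x < 0` imply `ord x(2P) = ord x`. -/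
theorem pole_field_dbl (hord : IsOrd A ord) (h2 : IsU ord (2 : K))
    {b2 b4 b6 b8 : K} (hb2 : b2 ∈ A) (hb4 : b4 ∈ A) (hb6 : b6 ∈ A) (hb8 : b8 ∈ A)
    {x r : K} (hx : x ≠ 0) (ho : ord x < 0)
    (h : r * (4 * x ^ 3 + b2 * x ^ 2 + 2 * b4 * x + b6) =
      x ^ 4 - b4 * x ^ 2 - 2 * b6 * x - b8) :
    r ≠ 0 ∧ ord r = ord x := by
  set o := ord x with ho'
  have g1 : Ge ord o x := Or.inr le_rfl
  have gb2 : Ge ord 0 b2 := Ge.of_mem hord hb2
  have gb4 : Ge ord 0 b4 := Ge.of_mem hord hb4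
  have gb6 : Ge ord 0 b6 := Ge.of_mem hord hb6
  have gb8 : Ge ord 0 b8 := Ge.of_mem hord hb8
  have g2' : Ge ord 0 (2 : K) := Or.inr (le_of_eq h2.2.symm)
  obtain ⟨h40, h4ord⟩ := ord_four hord h2
  have gx2 : Ge ord (o + o) (x ^ 2) := by rw [pow_two]; exact g1.mul hord g1
  -- F
  have hFlead : 4 * x ^ 3 ≠ 0 := mul_ne_zero h40 (pow_ne_zero 3 hx)
  have hFleadord : ord (4 * x ^ 3) = 3 * o := by
    rw [hord.map_mul h40 (pow_ne_zero 3 hx), h4ord, ord_pow hord hx, zero_add]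
    push_cast
    rfl
  have gFrest : Gt ord (ord (4 * x ^ 3)) (b2 * x ^ 2 + 2 * b4 * x + b6) := by
    rw [hFleadord]
    refine (Gt.add hord ?_ ?_).add hord ?_
    · have : Ge ord (0 + (o + o)) (b2 * x ^ 2) := gb2.mul hord gx2
      exact this.gt (by linarith)
    · have : Ge ord (0 + 0 + o) (2 * b4 * x) := (g2'.mul hord gb4).mul hord g1
      exact this.gt (by linarith)
    · exact gb6.gt (by linarith)
  obtain ⟨hF0, hFord⟩ := ord_add_of_gt hord hFlead gFrest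
  rw [hFleadord] at hFord
  -- Φ₂
  have hPlead : x ^ 4 ≠ 0 := pow_ne_zero 4 hx
  have hPleadord : ord (x ^ 4) = 4 * o := by
    rw [ord_pow hord hx]
    push_cast
    rfl
  have gPrest : Gt ord (ord (x ^ 4)) (-(b4 * x ^ 2) - 2 * b6 * x - b8) := by
    rw [hPleadord]
    refine ((Gt.neg hord ?_).sub hord ?_).sub hord ?_
    · have : Ge ord (0 + (o + o)) (b4 * x ^ 2) := gb4.mul hord gx2
      exact this.gt (by linarith)
    · have : Ge ord (0 + 0 + o) (2 * b6 * x) := (g2'.mul hord gb6).mul hord g1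
      exact this.gt (by linarith)
    · exact gb8.gt (by linarith)
  obtain ⟨hP0, hPord⟩ := ord_add_of_gt hord hPlead gPrest
  rw [hPleadord] at hPord
  have e1 : 4 * x ^ 3 + (b2 * x ^ 2 + 2 * b4 * x + b6) =
      4 * x ^ 3 + b2 * x ^ 2 + 2 * b4 * x + b6 := by ring
  have e2 : x ^ 4 + (-(b4 * x ^ 2) - 2 * b6 * x - b8) =
      x ^ 4 - b4 * x ^ 2 - 2 * b6 * x - b8 := by ring
  rw [e1] at hF0 hFord
  rw [e2, ← h] at hP0 hPord
  have hr : r ≠ 0 := fun h0 => hP0 (by rw [h0, zero_mul])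
  refine ⟨hr, ?_⟩
  rw [hord.map_mul hr hF0, hFord] at hPord
  linarith

end Field

/-! ### x-coordinate formulas (private versions; package D has the official ones) -/
section Formulas
variable {F : Type*} [Field F] [DecidableEq F] (W : Affine F)

omit [DecidableEq F] in
theorem b_mem {A : ValuationSubring F} (hW : IsIntegralW W A) :
    W.b₂ ∈ A ∧ W.b₄ ∈ A ∧ W.b₆ ∈ A ∧ W.b₈ ∈ A := by
  obtain ⟨h1, h2, h3, h4, h6⟩ := hW
  have two : (2 : F) ∈ A := by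
    have : (2 : F) = 1 + 1 := by norm_num
    rw [this]; exact A.add_mem _ _ A.one_mem A.one_mem
  have four : (4 : F) ∈ A := by
    have : (4 : F) = 2 * 2 := by norm_num
    rw [this]; exact A.mul_mem _ _ two two
  refine ⟨?_, ?_, ?_, ?_⟩
  · rw [WeierstrassCurve.b₂]
    exact add_mem (pow_mem h1 2) (mul_mem four h2)
  · rw [WeierstrassCurve.b₄]
    exact add_mem (mul_mem two h4) (mul_mem h1 h3)
  · rw [WeierstrassCurve.b₆]
    exact add_mem (pow_mem h3 2) (mul_mem four h6)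
  · rw [WeierstrassCurve.b₈]
    refine sub_mem (add_mem (sub_mem (add_mem ?_ ?_) ?_) ?_) ?_
    · exact mul_mem (pow_mem h1 2) h6
    · exact mul_mem (mul_mem four h2) h6
    · exact mul_mem (mul_mem h1 h3) h4
    · exact mul_mem h2 (pow_mem h3 2)
    · exact pow_mem h4 2

omit [DecidableEq F] in
theorem Yc_sq' {x y : F} (h : W.Equation x y) : Yc W x y ^ 2 = Fpoly W x := by
  rw [Affine.equation_iff] at h
  simp only [Yc, Fpoly, WeierstrassCurve.b₂, WeierstrassCurve.b₄, WeierstrassCurve.b₆]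
  linear_combination 4 * h

omit [DecidableEq F] in
theorem aux_add (a₁ a₂ x₁ x₂ y₁ y₂ : F) (hD : x₁ - x₂ ≠ 0) :
    4 * (((y₁ - y₂) / (x₁ - x₂)) ^ 2 + a₁ * ((y₁ - y₂) / (x₁ - x₂)) - a₂ - x₁ - x₂) *
        (x₁ - x₂) ^ 2 =
      (2 * (y₁ - y₂) + a₁ * (x₁ - x₂)) ^ 2 - (a₁ ^ 2 + 4 * a₂ + 4 * (x₁ + x₂)) * (x₁ - x₂) ^ 2 := by
  field_simp
  ring

/-- the `x`-coordinates `x₃, x₄` of `P + Q`, `P - Q` for `x₁ ≠ x₂`. -/
theorem addX_formulas (h2 : (2 : F) ≠ 0) {x₁ y₁ x₂ y₂ : F} (h₁ : W.Equation x₁ y₁)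
    (h₂ : W.Equation x₂ y₂) (hx : x₁ ≠ x₂) :
    W.addX x₁ x₂ (W.slope x₁ x₂ y₁ y₂) * W.addX x₁ x₂ (W.slope x₁ x₂ y₁ (W.negY x₂ y₂)) *
        (x₁ - x₂) ^ 2 = Nnum W x₁ x₂ ∧
    (W.addX x₁ x₂ (W.slope x₁ x₂ y₁ y₂) + W.addX x₁ x₂ (W.slope x₁ x₂ y₁ (W.negY x₂ y₂))) *
        (x₁ - x₂) ^ 2 = Snum W x₁ x₂ := by
  have hD : x₁ - x₂ ≠ 0 := sub_ne_zero.2 hx
  have hY₁ := Yc_sq' W h₁
  have hY₂ := Yc_sq' W h₂
  rw [Affine.slope_of_X_ne hx, Affine.slope_of_X_ne hx]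
  simp only [Affine.addX, Affine.negY]
  set x₃ := ((y₁ - y₂) / (x₁ - x₂)) ^ 2 + W.a₁ * ((y₁ - y₂) / (x₁ - x₂)) - W.a₂ - x₁ - x₂
    with hx₃
  set x₄ := ((y₁ - (-y₂ - W.a₁ * x₂ - W.a₃)) / (x₁ - x₂)) ^ 2 +
    W.a₁ * ((y₁ - (-y₂ - W.a₁ * x₂ - W.a₃)) / (x₁ - x₂)) - W.a₂ - x₁ - x₂ with hx₄
  set c := (W.b₂ + 4 * (x₁ + x₂)) * (x₁ - x₂) ^ 2 with hc
  have e3 : 4 * x₃ * (x₁ - x₂) ^ 2 = (Yc W x₁ y₁ - Yc W x₂ y₂) ^ 2 - c := by
    rw [hx₃, aux_add _ _ _ _ _ _ hD, hc, WeierstrassCurve.b₂]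
    simp only [Yc]
    ring
  have e4 : 4 * x₄ * (x₁ - x₂) ^ 2 = (Yc W x₁ y₁ + Yc W x₂ y₂) ^ 2 - c := by
    rw [hx₄, aux_add _ _ _ _ _ _ hD, hc, WeierstrassCurve.b₂]
    simp only [Yc]
    ring
  have h4 : (4 : F) ≠ 0 := by
    have : (4 : F) = 2 * 2 := by norm_num
    rw [this]; exact mul_ne_zero h2 h2
  constructor
  · -- product
    have key : (4 * x₃ * (x₁ - x₂) ^ 2) * (4 * x₄ * (x₁ - x₂) ^ 2) =
        (Fpoly W x₁ - Fpoly W x₂) ^ 2 - 2 * c * (Fpoly W x₁ + Fpoly W x₂) + c ^ 2 := by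
      rw [e3, e4]
      have : ((Yc W x₁ y₁ - Yc W x₂ y₂) ^ 2 - c) * ((Yc W x₁ y₁ + Yc W x₂ y₂) ^ 2 - c) =
          (Yc W x₁ y₁ ^ 2 - Yc W x₂ y₂ ^ 2) ^ 2 -
            2 * c * (Yc W x₁ y₁ ^ 2 + Yc W x₂ y₂ ^ 2) + c ^ 2 := by ring
      rw [this, hY₁, hY₂]
    have key2 : (Fpoly W x₁ - Fpoly W x₂) ^ 2 - 2 * c * (Fpoly W x₁ + Fpoly W x₂) + c ^ 2 =
        16 * Nnum W x₁ x₂ * (x₁ - x₂) ^ 2 := by
      rw [hc]
      simp only [Fpoly, Nnum, WeierstrassCurve.b₂, WeierstrassCurve.b₄, WeierstrassCurve.b₆,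
        WeierstrassCurve.b₈]
      ring
    have h16 : (16 : F) * (x₁ - x₂) ^ 2 ≠ 0 := by
      have : (16 : F) = 4 * 4 := by norm_num
      rw [this]; exact mul_ne_zero (mul_ne_zero h4 h4) (pow_ne_zero 2 hD)
    apply mul_right_cancel₀ h16
    linear_combination key + key2
  · -- sum
    have key : 4 * ((x₃ + x₄) * (x₁ - x₂) ^ 2) = 4 * Snum W x₁ x₂ := by
      have : 4 * ((x₃ + x₄) * (x₁ - x₂) ^ 2) =
          2 * (Yc W x₁ y₁ ^ 2 + Yc W x₂ y₂ ^ 2) - 2 * c := by linear_combination e3 + e4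
      rw [this, hY₁, hY₂, hc]
      simp only [Fpoly, Snum]
      ring
    exact mul_left_cancel₀ h4 key

omit [DecidableEq F] in
theorem aux_dbl (a₁ a₂ x G Y : F) (hY : Y ≠ 0) :
    4 * ((G / Y) ^ 2 + a₁ * (G / Y) - a₂ - x - x) * Y ^ 2 =
      (2 * G + a₁ * Y) ^ 2 - (a₁ ^ 2 + 4 * a₂ + 8 * x) * Y ^ 2 := by
  field_simp
  ring

/-- duplication formula `x(2P) F(x) = Φ₂(x)`. -/
theorem dblX_formula (h2 : (2 : F) ≠ 0) {x₁ y₁ : F} (h₁ : W.Equation x₁ y₁)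
    (hy : y₁ ≠ W.negY x₁ y₁) :
    W.addX x₁ x₁ (W.slope x₁ x₁ y₁ y₁) * Fpoly W x₁ = Phi2 W x₁ := by
  have hY₁ := Yc_sq' W h₁
  have hYne : y₁ - W.negY x₁ y₁ ≠ 0 := sub_ne_zero.2 hy
  rw [Affine.slope_of_Y_ne rfl hy]
  simp only [Affine.addX]
  have hYc : y₁ - W.negY x₁ y₁ = Yc W x₁ y₁ := by simp only [Affine.negY, Yc]; ring
  rw [hYc] at hYne ⊢
  have e := aux_dbl W.a₁ W.a₂ x₁ (3 * x₁ ^ 2 + 2 * W.a₂ * x₁ + W.a₄ - W.a₁ * y₁) (Yc W x₁ y₁) hYne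
  have e2 : 2 * (3 * x₁ ^ 2 + 2 * W.a₂ * x₁ + W.a₄ - W.a₁ * y₁) + W.a₁ * Yc W x₁ y₁ =
      6 * x₁ ^ 2 + W.b₂ * x₁ + W.b₄ := by
    simp only [Yc, WeierstrassCurve.b₂, WeierstrassCurve.b₄]; ring
  rw [e2, hY₁] at e
  have h16 : (16 : F) ≠ 0 := by
    have : (16 : F) = 2 * 2 * (2 * 2) := by norm_num
    rw [this]; exact mul_ne_zero (mul_ne_zero h2 h2) (mul_ne_zero h2 h2)
  apply mul_left_cancel₀ h16
  have e3 : 4 * (6 * x₁ ^ 2 + W.b₂ * x₁ + W.b₄) ^ 2 -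
      4 * (W.a₁ ^ 2 + 4 * W.a₂ + 8 * x₁) * Fpoly W x₁ = 16 * Phi2 W x₁ := by
    simp only [Fpoly, Phi2, WeierstrassCurve.b₂, WeierstrassCurve.b₄, WeierstrassCurve.b₆,
      WeierstrassCurve.b₈]
    ring
  linear_combination 4 * e + e3

end Formulas

end Pole

/-! ### Package E1: the pole filtration -/
section E
variable {K : Type*} [Field K] [DecidableEq K] {A : ValuationSubring K} {ord : K → ℚ}
  (W : Affine K)

theorem poleSet_neg_mem {b : ℚ} {P : W.Point} (hP : P ∈ poleSet W ord b) :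
    -P ∈ poleSet W ord b := by
  rcases hP with rfl | ⟨x, y, h, rfl, hx, hb⟩
  · exact Or.inl Point.neg_zero
  · exact Or.inr ⟨x, W.negY x y, (Affine.nonsingular_neg x y).mpr h, Point.neg_some h, hx, hb⟩

theorem E1_neg_mem {P : W.Point} (hP : P ∈ E1 W ord) : -P ∈ E1 W ord := by
  rcases hP with rfl | ⟨x, y, h, rfl, hx, hb⟩
  · exact Or.inl Point.neg_zero
  · exact Or.inr ⟨x, W.negY x y, (Affine.nonsingular_neg x y).mpr h, Point.neg_some h, hx, hb⟩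

theorem poleSet_add_mem (hord : IsOrd A ord) (h2 : IsU ord (2 : K)) (hW : IsIntegralW W A)
    {b : ℚ} (hb : b < 0) {P Q : W.Point} (hP : P ∈ poleSet W ord b) (hQ : Q ∈ poleSet W ord b) :
    P + Q ∈ poleSet W ord b := by
  obtain ⟨hb2, hb4, hb6, hb8⟩ := Pole.b_mem W hW
  rcases hP with rfl | ⟨x₁, y₁, h₁, rfl, hx₁, ho₁⟩
  · rw [zero_add]; exact hQ
  rcases hQ with rfl | ⟨x₂, y₂, h₂, rfl, hx₂, ho₂⟩
  · rw [add_zero]; exact Or.inr ⟨x₁, y₁, h₁, rfl, hx₁, ho₁⟩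
  by_cases hx : x₁ = x₂
  · by_cases hy : y₁ = W.negY x₂ y₂
    · exact Or.inl (Point.add_of_Y_eq hx hy)
    · -- doubling
      have hyy : y₁ = y₂ := Affine.Y_eq_of_Y_ne h₁.1 h₂.1 hx hy
      subst hx
      subst hyy
      refine Or.inr ⟨_, _, _, Point.add_self_of_Y_ne hy, ?_⟩
      have hf := Pole.dblX_formula W h2.1 h₁.1 hy
      simp only [Fpoly, Phi2] at hf
      obtain ⟨hr, hro⟩ := Pole.pole_field_dbl hord h2 hb2 hb4 hb6 hb8 hx₁
        (lt_of_le_of_lt ho₁ hb) hf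
      exact ⟨hr, hro ▸ ho₁⟩
  · refine Or.inr ⟨_, _, _, Point.add_of_X_ne hx, ?_⟩
    obtain ⟨hN, hS⟩ := Pole.addX_formulas W h2.1 h₁.1 h₂.1 hx
    simp only [Nnum, Snum] at hN hS
    obtain ⟨hr, hro⟩ := Pole.pole_field hord h2 hb2 hb4 hb6 hb8 hx₁ hx₂
      (lt_of_le_of_lt ho₁ hb) (lt_of_le_of_lt ho₂ hb) hx hN hS
    exact ⟨hr, hro.trans (max_le ho₁ ho₂)⟩

theorem E1_add_mem (hord : IsOrd A ord) (h2 : IsU ord (2 : K)) (hW : IsIntegralW W A)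
    {P Q : W.Point} (hP : P ∈ E1 W ord) (hQ : Q ∈ E1 W ord) : P + Q ∈ E1 W ord := by
  rcases hP with rfl | ⟨x₁, y₁, h₁, rfl, hx₁, ho₁⟩
  · rw [zero_add]; exact hQ
  rcases hQ with rfl | ⟨x₂, y₂, h₂, rfl, hx₂, ho₂⟩
  · rw [add_zero]; exact Or.inr ⟨x₁, y₁, h₁, rfl, hx₁, ho₁⟩
  have hb : max (ord x₁) (ord x₂) < 0 := max_lt ho₁ ho₂
  have h := poleSet_add_mem W hord h2 hW hb
    (P := Point.some x₁ y₁ h₁) (Q := Point.some x₂ y₂ h₂)
    (Or.inr ⟨x₁, y₁, h₁, rfl, hx₁, le_max_left _ _⟩)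
    (Or.inr ⟨x₂, y₂, h₂, rfl, hx₂, le_max_right _ _⟩)
  rcases h with h | ⟨x, y, h, hPQ, hx, ho⟩
  · exact Or.inl h
  · exact Or.inr ⟨x, y, h, hPQ, hx, lt_of_le_of_lt ho hb⟩

end E

end Fermat.Agent.S05
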