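/-
S05 package E2 (helper33): the kernel of reduction `E₁` has no `p`-torsion, `p` an odd prime which
is a unit of the valuation ring.  Blueprint (E-b): for `P ∈ E₁` of exact order `p` all multiples
`kP` (`0 < k < p`) have `x`-coordinates of the same valuation, and `ρ_k := x(kP)/x(P)` satisfies
`k² ρ_k ≡ 1` modulo the maximal ideal; `k = p - 1` and `k = p - 2` give a contradiction.

The closure of `poleSet` under addition (package E1) is taken as a hypothesis `hadd` in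
`E2.torsion_free_of`; no sorry in this file.
-/
import Fermat.Agent.S05.OrdApi
import Fermat.Agent.S05.XFormulas
import Mathlib.RingTheory.LocalRing.ResidueField.Basic
import Mathlib.GroupTheory.OrderOfElement
import Mathlib.Tactic

set_option autoImplicit false
set_option linter.unusedSectionVars false

namespace Fermat.Agent.S05

namespace E2

open WeierstrassCurve WeierstrassCurve.Affine

/-- the recursion `ρ_{k+1} ρ_{k-1} (ρ_k - 1)² = ρ_k²`, `ρ₁ = 1`, `4ρ₂ = 1` in a field forces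
`k² ρ_k = 1`; together with `ρ_{p-1} = 1` and `p ≠ 0` this is contradictory. -/
theorem field_contra {κ : Type*} [Field κ] {p : ℕ} (hp3 : 3 ≤ p) (r : ℕ → κ) (h1 : r 1 = 1)
    (h2 : 4 * r 2 = 1)
    (h3 : ∀ k, 2 ≤ k → k + 1 < p → r (k + 1) * r (k - 1) * (r k - 1) ^ 2 = (r k) ^ 2)
    (h4 : r (p - 1) = 1) (h5 : (p : κ) ≠ 0) : False := by
  have claim : ∀ n : ℕ, (1 ≤ n → n < p → (n : κ) ^ 2 * r n = 1) ∧
      (1 ≤ n + 1 → n + 1 < p → ((n + 1 : ℕ) : κ) ^ 2 * r (n + 1) = 1) := by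
    intro n
    induction n with
    | zero =>
      refine ⟨fun h => by omega, fun _ _ => ?_⟩
      simp [h1]
    | succ j ih =>
      refine ⟨ih.2, fun _ hlt => ?_⟩
      rcases Nat.eq_zero_or_pos j with hj0 | hjpos
      · subst hj0
        norm_num
        linear_combination h2
      · have hCj := ih.1 hjpos (by omega)
        have hCj1 := ih.2 (by omega) (by omega)
        have h3' := h3 (j + 1) (by omega) hlt
        simp only [Nat.add_sub_cancel] at h3'
        set a : κ := (j : κ) with ha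
        have hcast1 : ((j + 1 : ℕ) : κ) = a + 1 := by push_cast; ring
        have hcast2 : ((j + 1 + 1 : ℕ) : κ) = a + 2 := by push_cast; ring
        rw [hcast1] at hCj1
        rw [hcast2]
        have ha0 : a ≠ 0 := by
          intro h0
          rw [h0] at hCj
          simp at hCj
        have hb0 : a + 1 ≠ 0 := by
          intro h0
          rw [h0] at hCj1
          simp at hCj1
        have hrj : r j = 1 / a ^ 2 := by
          field_simp
          linear_combination hCj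
        have hrj1 : r (j + 1) = 1 / (a + 1) ^ 2 := by
          field_simp
          linear_combination hCj1
        rw [hrj, hrj1] at h3'
        field_simp at h3'
        have key : a ^ 2 * ((a + 2) ^ 2 * r (j + 1 + 1) - 1) = 0 := by
          linear_combination h3'
        rcases mul_eq_zero.1 key with h | h
        · exact (ha0 (pow_eq_zero_iff two_ne_zero |>.1 h)).elim
        · linear_combination h
  have hC1 := (claim (p - 1)).1 (by omega) (by omega)
  have hC2 := (claim (p - 2)).1 (by omega) (by omega)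
  rw [h4, mul_one] at hC1
  have hc1 : ((p - 1 : ℕ) : κ) = (p : κ) - 1 := by
    rw [Nat.cast_sub (by omega)]; simp
  have hc2 : ((p - 2 : ℕ) : κ) = (p : κ) - 2 := by
    rw [Nat.cast_sub (by omega)]; simp
  rw [hc1] at hC1
  rw [hc2] at hC2
  have h6 : (p : κ) * ((p : κ) - 2) = 0 := by linear_combination hC1
  rcases mul_eq_zero.1 h6 with h | h
  · exact h5 h
  · rw [h] at hC2
    simp at hC2

section

variable {K : Type*} [Field K] [DecidableEq K] {A : ValuationSubring K} {ord : K → ℚ}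
  {W : Affine K}

/-- the `x`-coordinate of a point (`0` for the point at infinity) -/
def xc : W.Point → K
  | .zero => 0
  | .some x _ _ => x

@[simp] theorem xc_some {x y : K} (h : W.Nonsingular x y) : xc (Point.some x y h) = x := rfl

@[simp] theorem xc_zero : xc (0 : W.Point) = 0 := rfl

theorem xc_neg (P : W.Point) : xc (-P) = xc P := by
  cases P with
  | zero => rfl
  | some x y h => rw [Point.neg_some]; rfl

theorem mem_poleSet_some_iff {b : ℚ} {x y : K} (h : W.Nonsingular x y) :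
    Point.some x y h ∈ poleSet W ord b ↔ x ≠ 0 ∧ ord x ≤ b := by
  constructor
  · rintro (h0 | ⟨x', y', h', he, hx0, hle⟩)
    · exact (Point.some_ne_zero h h0).elim
    · rw [Point.some.injEq] at he
      obtain ⟨rfl, rfl⟩ := he
      exact ⟨hx0, hle⟩
  · rintro ⟨hx0, hle⟩
    exact Or.inr ⟨x, y, h, rfl, hx0, hle⟩

theorem zero_mem_poleSet (b : ℚ) : (0 : W.Point) ∈ poleSet W ord b := Or.inl rfl

omit [DecidableEq K] in
theorem b_mem (hW : IsIntegralW W A) : W.b₂ ∈ A ∧ W.b₄ ∈ A ∧ W.b₆ ∈ A ∧ W.b₈ ∈ A := by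
  obtain ⟨h1, h2, h3, h4, h6⟩ := hW
  have h2' : (2 : K) ∈ A := ofNat_mem A 2
  have h4' : (4 : K) ∈ A := ofNat_mem A 4
  refine ⟨?_, ?_, ?_, ?_⟩
  · rw [WeierstrassCurve.b₂]
    exact add_mem (pow_mem h1 2) (mul_mem h4' h2)
  · rw [WeierstrassCurve.b₄]
    exact add_mem (mul_mem h2' h4) (mul_mem h1 h3)
  · rw [WeierstrassCurve.b₆]
    exact add_mem (pow_mem h3 2) (mul_mem h4' h6)
  · rw [WeierstrassCurve.b₈]
    exact sub_mem (add_mem (sub_mem (add_mem (mul_mem (pow_mem h1 2) h6)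
      (mul_mem (mul_mem h4' h2) h6)) (mul_mem (mul_mem h1 h3) h4)) (mul_mem h2 (pow_mem h3 2)))
      (pow_mem h4 2)

/-- destructing a nonzero point -/
theorem exists_some_of_ne_zero {Q : W.Point} (hQ : Q ≠ 0) :
    ∃ x y, ∃ h : W.Nonsingular x y, Q = Point.some x y h := by
  cases Q with
  | zero => exact (hQ rfl).elim
  | some x y h => exact ⟨x, y, h, rfl⟩

/-- `E₁` has no `p`-torsion, given that the pole sets are closed under addition. -/
theorem torsion_free_of (hord : IsOrd A ord) (h2 : IsU ord (2 : K)) (hW : IsIntegralW W A)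
    (hadd : ∀ {b : ℚ}, b < 0 → ∀ {P Q : W.Point}, P ∈ poleSet W ord b → Q ∈ poleSet W ord b →
      P + Q ∈ poleSet W ord b)
    {p : ℕ} (hp : p.Prime) (hp2 : p ≠ 2) (hpu : IsU ord (p : K))
    {P : W.Point} (hP : P ∈ E1 W ord) (hpP : (p : ℤ) • P = 0) : P = 0 := by
  by_contra hP0
  have hp3 : 3 ≤ p := by have := hp.two_le; omega
  rcases hP with h0 | ⟨x₁, y₁, h₁, hPe, hx₁0, hx₁⟩
  · exact hP0 h0
  have hpP' : p • P = 0 := by rw [← natCast_zsmul]; exact hpP
  have : Fact p.Prime := ⟨hp⟩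
  have hordP : addOrderOf P = p := addOrderOf_eq_prime hpP' hP0
  have hk0 : ∀ k : ℕ, 0 < k → k < p → k • P ≠ 0 := by
    intro k hk1 hk2 h
    have := addOrderOf_dvd_of_nsmul_eq_zero h
    rw [hordP] at this
    exact absurd (Nat.le_of_dvd hk1 this) (not_le.2 hk2)
  have h2K : (2 : K) ≠ 0 := h2.1
  have hxcP : xc P = x₁ := by rw [hPe]; rfl
  -- multiples stay in the pole set
  have hnsmul : ∀ {b' : ℚ}, b' < 0 → ∀ {Q : W.Point}, Q ∈ poleSet W ord b' →
      ∀ n : ℕ, n • Q ∈ poleSet W ord b' := by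
    intro b' hb' Q hQ n
    induction n with
    | zero => rw [zero_nsmul]; exact zero_mem_poleSet b'
    | succ k ih => rw [succ_nsmul]; exact hadd hb' ih hQ
  have hPb : P ∈ poleSet W ord (ord x₁) := by
    rw [hPe]; exact (mem_poleSet_some_iff h₁).2 ⟨hx₁0, le_rfl⟩
  -- all multiples have the same valuation
  have hsame : ∀ k : ℕ, 0 < k → k < p → xc (k • P) ≠ 0 ∧ ord (xc (k • P)) = ord x₁ := by
    intro k hk1 hk2
    have hQ := hnsmul hx₁ hPb k
    obtain ⟨x, y, h, hQe⟩ := exists_some_of_ne_zero (hk0 k hk1 hk2)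
    rw [hQe] at hQ ⊢
    obtain ⟨hx0, hle⟩ := (mem_poleSet_some_iff h).1 hQ
    refine ⟨hx0, le_antisymm hle ?_⟩
    have hcop : Nat.Coprime k p :=
      (Nat.coprime_comm.1 ((Nat.Prime.coprime_iff_not_dvd hp).2
        (fun hd => absurd (Nat.le_of_dvd hk1 hd) (not_le.2 hk2))))
    obtain ⟨m, -, hm⟩ := Nat.exists_mul_mod_eq_one_of_coprime hcop hp.one_lt
    have hPm : m • (k • P) = P := by
      rw [← mul_nsmul, ← mod_addOrderOf_nsmul, hordP, hm, one_nsmul]
    have hb' : ord x < 0 := lt_of_le_of_lt hle hx₁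
    have hQ' : Point.some x y h ∈ poleSet W ord (ord x) :=
      (mem_poleSet_some_iff h).2 ⟨hx0, le_rfl⟩
    have h3 := hnsmul hb' hQ' m
    rw [← hQe, hPm, hPe] at h3
    exact ((mem_poleSet_some_iff h₁).1 h3).2
  -- the ratios `ρ k`
  obtain ⟨ρ, hρ⟩ : ∃ ρ : ℕ → K, ∀ k, ρ k = xc (k • P) / x₁ := ⟨fun k => xc (k • P) / x₁, fun _ => rfl⟩
  have hρU : ∀ k, 0 < k → k < p → IsU ord (ρ k) := by
    intro k hk1 hk2
    obtain ⟨h0, he⟩ := hsame k hk1 hk2
    rw [hρ]
    exact ⟨div_ne_zero h0 hx₁0, by rw [hord.ord_div h0 hx₁0, he, sub_self]⟩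
  have hρA : ∀ k, 0 < k → k < p → ρ k ∈ A := fun k hk1 hk2 => hord.IsU_mem (hρU k hk1 hk2)
  -- subtype elements
  have htA : x₁⁻¹ ∈ A.nonunits :=
    hord.mem_nonunits_of_pos (by rw [hord.ord_inv hx₁0]; linarith)
  obtain ⟨htA', htm⟩ := ValuationSubring.mem_nonunits_iff_exists_mem_maximalIdeal.1 htA
  obtain ⟨T, hT⟩ : ∃ T : A, T = ⟨x₁⁻¹, htA'⟩ := ⟨_, rfl⟩
  have hTc : (T : K) = x₁⁻¹ := by rw [hT]
  have hπT : IsLocalRing.residue A T = 0 := by
    rw [hT]; exact (IsLocalRing.residue_eq_zero_iff _).2 htm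
  obtain ⟨hb2, hb4, hb6, hb8⟩ := b_mem hW
  obtain ⟨B2, hB2⟩ : ∃ B : A, (B : K) = W.b₂ := ⟨⟨_, hb2⟩, rfl⟩
  obtain ⟨B4, hB4⟩ : ∃ B : A, (B : K) = W.b₄ := ⟨⟨_, hb4⟩, rfl⟩
  obtain ⟨B6, hB6⟩ : ∃ B : A, (B : K) = W.b₆ := ⟨⟨_, hb6⟩, rfl⟩
  obtain ⟨B8, hB8⟩ : ∃ B : A, (B : K) = W.b₈ := ⟨⟨_, hb8⟩, rfl⟩
  obtain ⟨ρA, hρAc⟩ : ∃ ρA : ℕ → A, ∀ k, 0 < k → k < p → ((ρA k : A) : K) = ρ k := by
    classical
    refine ⟨fun k => if h : ρ k ∈ A then ⟨ρ k, h⟩ else 0, fun k hk1 hk2 => ?_⟩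
    simp [hρA k hk1 hk2]
  obtain ⟨r, hr⟩ : ∃ r : ℕ → IsLocalRing.ResidueField A, ∀ k, r k = IsLocalRing.residue A (ρA k) :=
    ⟨fun k => IsLocalRing.residue A (ρA k), fun _ => rfl⟩
  have hone : ∀ k, 0 < k → k < p → ρ k = 1 → r k = 1 := by
    intro k hk1 hk2 h
    have : ρA k = 1 := Subtype.ext (by rw [hρAc k hk1 hk2, h]; rfl)
    rw [hr, this, map_one]
  -- (R1)
  have R1 : r 1 = 1 := by
    refine hone 1 one_pos (by omega) ?_
    rw [hρ, one_nsmul, hxcP, div_self hx₁0]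
  -- (R4)
  have R4 : r (p - 1) = 1 := by
    refine hone (p - 1) (by omega) (by omega) ?_
    have h1 : (p - 1) • P = -P := by
      apply eq_neg_of_add_eq_zero_left
      rw [← succ_nsmul, Nat.sub_add_cancel hp.one_le, hpP']
    rw [hρ, h1, xc_neg, hxcP, div_self hx₁0]
  -- (R5)
  have R5 : ((p : ℕ) : IsLocalRing.ResidueField A) ≠ 0 := by
    obtain ⟨hpA, hpn⟩ := hord.isU_iff_mem_not_nonunits.1 hpu
    intro h0
    rw [← map_natCast (IsLocalRing.residue A), IsLocalRing.residue_eq_zero_iff,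
      ← ValuationSubring.coe_mem_nonunits_iff] at h0
    apply hpn
    simpa using h0
  -- (R2)
  have R2 : 4 * r 2 = 1 := by
    rw [hPe] at hk0
    have hY : Yc W x₁ y₁ ≠ 0 := by
      intro hY
      have h0 := xdbl_zero W h2K h₁ hY
      apply hk0 2 (by norm_num) (by omega)
      rw [two_nsmul]
      exact h0
    obtain ⟨x₃, y₃, h₃, hdbl, hx₃⟩ := xdbl W h2K h₁ hY
    have hx2 : ρ 2 = x₃ / x₁ := by rw [hρ, hPe, two_nsmul, hdbl]; rfl
    have hK : ρ 2 * (4 + W.b₂ * x₁⁻¹ + 2 * W.b₄ * x₁⁻¹ ^ 2 + W.b₆ * x₁⁻¹ ^ 3) =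
        1 - W.b₄ * x₁⁻¹ ^ 2 - 2 * W.b₆ * x₁⁻¹ ^ 3 - W.b₈ * x₁⁻¹ ^ 4 := by
      rw [hx2]
      simp only [Fpoly, Phi2] at hx₃
      field_simp
      linear_combination hx₃
    have hA : ρA 2 * (4 + B2 * T + 2 * B4 * T ^ 2 + B6 * T ^ 3) =
        1 - B4 * T ^ 2 - 2 * B6 * T ^ 3 - B8 * T ^ 4 := by
      apply Subtype.ext
      push_cast
      rw [hρAc 2 (by norm_num) (by omega), hB2, hB4, hB6, hB8, hTc]
      exact hK
    have h5 := congrArg (IsLocalRing.residue A) hA
    simp only [map_mul, map_add, map_sub, map_pow, map_one, map_ofNat, hπT, ← hr] at h5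
    linear_combination h5
  -- (R3)
  have R3 : ∀ k, 2 ≤ k → k + 1 < p →
      r (k + 1) * r (k - 1) * (r k - 1) ^ 2 = (r k) ^ 2 := by
    intro k hk1 hk2
    obtain ⟨xk, yk, hk, hQe⟩ := exists_some_of_ne_zero (hk0 k (by omega) (by omega))
    have hne : xk ≠ x₁ := by
      intro hxe
      subst hxe
      rcases Y_eq_of_X_eq hk.1 h₁.1 rfl with hy | hy
      · subst hy
        -- `k • P = P`
        apply hk0 (k - 1) (by omega) (by omega)
        have h5 : (k - 1) • P + P = P := by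
          rw [← succ_nsmul, Nat.sub_add_cancel (by omega), hQe, hPe]
        exact add_right_cancel (b := P) (by rw [h5, zero_add])
      · -- `k • P = -P`
        apply hk0 (k + 1) (by omega) hk2
        rw [succ_nsmul, hQe, hPe]
        subst hy
        rw [← Point.neg_some h₁, neg_add_cancel]
    obtain ⟨x₃, y₃, x₄, y₄, h₃, h₄, hadd', hsub', hN, -, -, -⟩ := xadd W h2K hk h₁ hne
    have hx3 : ρ (k + 1) = x₃ / x₁ := by rw [hρ, succ_nsmul, hQe, hPe, hadd']; rfl
    have hx4 : ρ (k - 1) = x₄ / x₁ := by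
      have h5 : (k - 1) • P = k • P - P := by
        rw [eq_sub_iff_add_eq, ← succ_nsmul, Nat.sub_add_cancel (by omega)]
      rw [hρ, h5, hQe, hPe, hsub']; rfl
    have hxk : ρ k = xk / x₁ := by rw [hρ, hQe]; rfl
    have hK : ρ (k + 1) * ρ (k - 1) * (ρ k - 1) ^ 2 =
        ρ k ^ 2 - W.b₄ * ρ k * x₁⁻¹ ^ 2 - W.b₆ * (ρ k + 1) * x₁⁻¹ ^ 3 - W.b₈ * x₁⁻¹ ^ 4 := by
      rw [hx3, hx4, hxk]
      simp only [Nnum] at hN
      field_simp
      linear_combination hN
    have hA : ρA (k + 1) * ρA (k - 1) * (ρA k - 1) ^ 2 =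
        ρA k ^ 2 - B4 * ρA k * T ^ 2 - B6 * (ρA k + 1) * T ^ 3 - B8 * T ^ 4 := by
      apply Subtype.ext
      push_cast
      rw [hρAc (k + 1) (by omega) hk2, hρAc (k - 1) (by omega) (by omega),
        hρAc k (by omega) (by omega), hB4, hB6, hB8, hTc]
      exact hK
    have h5 := congrArg (IsLocalRing.residue A) hA
    simp only [map_mul, map_add, map_sub, map_pow, map_one, hπT, ← hr] at h5
    linear_combination h5
  exact field_contra hp3 r R1 R2 R3 R4 R5

end

end E2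

end Fermat.Agent.S05
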