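/-
S05 final assembly (helper5): `GoodStmt` and `MultStmt` from the package cores
(Pole/PoleTorsion = E, Congr = F, KField = G, InductionCore = H, MultMainCore = I),
hence `frey_unramified`. No sorry.
-/
import Fermat.Agent.S05.Frey
import Fermat.Agent.S05.Congr
import Fermat.Agent.S05.Pole
import Fermat.Agent.S05.PoleTorsion
import Fermat.Agent.S05.InductionCore
import Fermat.Agent.S05.KField
import Fermat.Agent.S05.MultMainCore

set_option autoImplicit false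

namespace Fermat.Agent.S05.Fin

open WeierstrassCurve WeierstrassCurve.Affine Fermat.Agent.S05

section
variable {K : Type*} [Field K] [DecidableEq K] {A : ValuationSubring K} {ord : K → ℚ}

/-- `E₁` has no `p`-torsion (skeleton statement `E1_torsion_free`). -/
theorem E1_tf (W : Affine K) (hord : IsOrd A ord) (h2 : IsU ord (2 : K)) (hW : IsIntegralW W A)
    {p : ℕ} (hp : p.Prime) (hp2 : p ≠ 2) (hpu : IsU ord (p : K))
    {P : W.Point} (hP : P ∈ E1 W ord) (hpP : (p : ℤ) • P = 0) : P = 0 :=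
  E2.torsion_free_of hord h2 hW
    (fun hb _ _ hP hQ => poleSet_add_mem W hord h2 hW hb hP hQ) hp hp2 hpu hP hpP

omit [DecidableEq K] in
theorem gKField (hord : IsOrd A ord) (h2 : IsU ord (2 : K)) : HCore.GKField ord :=
  fun hh _ _ hβ hα0 hα _ _ _ _ hne hN hS => K_field hord h2 hh hβ hα0 hα hne hN hS

omit [DecidableEq K] in
theorem gKDbl (hord : IsOrd A ord) (h2 : IsU ord (2 : K)) : HCore.GKDbl ord :=
  fun hh _ _ hβ hα0 hα _ _ hden hr => KF.K_dbl_field hord h2 hh hβ hα0 hα hden hr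

omit [DecidableEq K] in
theorem gKTwo (hord : IsOrd A ord) (h2 : IsU ord (2 : K)) : HCore.GKTwo ord :=
  fun hh _ _ hβ hα0 hα _ hden => KF.K_two_torsion_field hord h2 hh hβ hα0 hα hden

variable {k : Type*} [Field k] [Algebra k K] (W : Affine k)

theorem unram_good (hord : IsOrd A ord) (h2 : IsU ord (2 : K))
    (hW : IsIntegralW (W⁄K) A) (hΔ : IsU ord (W⁄K).Δ)
    {p : ℕ} (hp : p.Prime) (hp2 : p ≠ 2) (hpu : IsU ord (p : K))
    (σ : K ≃ₐ[k] K) (hσ : IsInertial A σ)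
    {P : (W⁄K).Point} (hpP : (p : ℤ) • P = 0) : σ • P = P :=
  unram_of_good_of W hord h2 hW hΔ
    (fun hP hQ => E1_add_mem (W⁄K) hord h2 hW hP hQ) (fun hP => E1_neg_mem (W⁄K) hP)
    (fun hP hpP => E1_tf (W⁄K) hord h2 hW hp hp2 hpu hP hpP) σ hσ hpP

theorem unram_mult (hord : IsOrd A ord) (h2 : IsU ord (2 : K))
    (hW : IsIntegralW (W⁄K) A) (hΔ : (W⁄K).Δ ≠ 0) (hsq : ∀ x : K, ∃ y : K, y ^ 2 = x)
    {p : ℕ} (hp : p.Prime) (hp2 : p ≠ 2) (hpu : IsU ord (p : K))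
    {r g ε : k} (hrA : algebraMap k K r ∈ A) (hr : Fpoly (W⁄K) (algebraMap k K r) = 0)
    (hβ : IsU ord (beta2 (W⁄K) (algebraMap k K r)))
    (hα : alpha4 (W⁄K) (algebraMap k K r) = algebraMap k K (ε * g ^ p))
    (hε : IsU ord (algebraMap k K ε)) (hg0 : g ≠ 0) (hg : 0 < ord (algebraMap k K g))
    (σ : K ≃ₐ[k] K) (hσ : IsInertial A σ)
    {P : (W⁄K).Point} (hpP : (p : ℤ) • P = 0) : σ • P = P := by
  have hgK0 : algebraMap k K g ≠ 0 := (map_ne_zero (algebraMap k K)).mpr hg0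
  have hα0 : alpha4 (W⁄K) (algebraMap k K r) ≠ 0 := by
    rw [hα, map_mul, map_pow]; exact mul_ne_zero hε.1 (pow_ne_zero _ hgK0)
  have hh : 0 < ord (alpha4 (W⁄K) (algebraMap k K r)) := by
    rw [hα, map_mul, map_pow, hord.map_mul hε.1 (pow_ne_zero _ hgK0), hε.2,
      hord.ord_pow hgK0, zero_add]
    have : (0 : ℚ) < p := by exact_mod_cast hp.pos
    positivity
  refine MM.unram_of_mult_core W hord h2 hW hΔ hsq hp hp2 hrA hr hα hβ hε hg0 hg σ hσ
    ?_ ?_ ?_ ?_ hpP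
  · intro Q hQ hpQ
    exact E1_tf (W⁄K) hord h2 hW hp hp2 hpu hQ hpQ
  · intro Q hQ
    exact smul_sub_mem_E1_of W hord h2 hW
      (fun hP hQ => E1_add_mem (W⁄K) hord h2 hW hP hQ) (fun hP => E1_neg_mem (W⁄K) hP) σ hσ hQ
  · intro Q hpQ
    exact HCore.torsion_w (gKField hord h2) (gKDbl hord h2) (gKTwo hord h2) (W⁄K) h2 hh hr hβ
      hα0 rfl hp hp2 hpQ
  · intro x₁ y₁ x₂ y₂ h₁ h₂ hx hst
    have key := HCore.K_points (gKField hord h2) (W⁄K) h2 hh hr hβ hα0 rfl h₁ h₂ hx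
    simp only at key
    rw [hst, sub_self, abs_zero] at key
    rcases key with ⟨-, h⟩ | ⟨h, -⟩
    · exact Or.inr h
    · exact Or.inl h

end

theorem goodStmt : GoodStmt := by
  intro W A ord hord h2 hW hΔ p hp hp2 hpu σ hσ Q hQ
  exact unram_good W hord h2 hW hΔ hp hp2 hpu σ hσ hQ

theorem multStmt : MultStmt := by
  intro W A ord hord h2 hW hΔ p hp hp2 hpu r g ε hrA hr hβ hα hε hg0 hg σ hσ Q hQ
  exact unram_mult W hord h2 hW hΔ
    (fun x => IsAlgClosed.exists_pow_nat_eq x (by norm_num)) hp hp2 hpu hrA hr hβ hα hε hg0 hg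
    σ hσ hQ

/-- S05. -/
theorem frey_unramified (P : FreyPackage) {q : ℕ} (hq : q.Prime) (hq2 : q ≠ 2)
    (hqp : q ≠ P.p) : P.GaloisRepUnramifiedAt q :=
  frey_unramified_of goodStmt multStmt P hq hq2 hqp

end Fermat.Agent.S05.Fin
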