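/-
S05 package F (helper97), final form: exact skeleton statements `smul_sub_mem_E1`, `unram_of_good`
obtained from `Congr.lean` + package E (`E1_add_mem`, `E1_neg_mem` of `Pole.lean`,
`E2.torsion_free_of` of `PoleTorsion.lean`).  No placeholder proofs in this file.
-/
import Fermat.Agent.S05.Congr
import Fermat.Agent.S05.Pole
import Fermat.Agent.S05.PoleTorsion

set_option autoImplicit false

namespace Fermat.Agent.S05

open WeierstrassCurve WeierstrassCurve.Affine

section F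
variable {K : Type*} [Field K] [DecidableEq K] {A : ValuationSubring K} {ord : K → ℚ}

/-- `E₁` has no `p`-torsion (skeleton statement `E1_torsion_free`, here under the name
`F_E1_torsion_free`). -/
theorem F_E1_torsion_free (W : Affine K) (hord : IsOrd A ord) (h2 : IsU ord (2 : K))
    (hW : IsIntegralW W A) {p : ℕ} (hp : p.Prime) (hp2 : p ≠ 2) (hpu : IsU ord (p : K))
    {P : W.Point} (hP : P ∈ E1 W ord) (hpP : (p : ℤ) • P = 0) : P = 0 :=
  E2.torsion_free_of (W := W) hord h2 hW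
    (fun hb _ _ hP hQ => poleSet_add_mem W hord h2 hW hb hP hQ) hp hp2 hpu hP hpP

variable {k : Type*} [Field k] [Algebra k K] (W : Affine k)

/-- inertia moves a point of `E₀` by an element of `E₁`. -/
theorem smul_sub_mem_E1 (hord : IsOrd A ord) (h2 : IsU ord (2 : K))
    (hW : IsIntegralW (W⁄K) A) (σ : K ≃ₐ[k] K) (hσ : IsInertial A σ)
    {P : (W⁄K).Point}
    (hP : P ∈ E1 (W⁄K) ord ∨ ∃ (x y : K) (h : (W⁄K).Nonsingular x y),
      P = Point.some x y h ∧ IsNsInt (W⁄K) A ord x y) :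
    σ • P - P ∈ E1 (W⁄K) ord :=
  smul_sub_mem_E1_of W hord h2 hW (fun hP hQ => E1_add_mem (W⁄K) hord h2 hW hP hQ)
    (fun hP => E1_neg_mem (W⁄K) hP) σ hσ hP

/-- good reduction ⇒ inertia acts trivially on `p`-torsion. -/
theorem unram_of_good (hord : IsOrd A ord) (h2 : IsU ord (2 : K))
    (hW : IsIntegralW (W⁄K) A) (hΔ : IsU ord (W⁄K).Δ)
    {p : ℕ} (hp : p.Prime) (hp2 : p ≠ 2) (hpu : IsU ord (p : K))
    (σ : K ≃ₐ[k] K) (hσ : IsInertial A σ)
    {P : (W⁄K).Point} (hpP : (p : ℤ) • P = 0) : σ • P = P :=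
  unram_of_good_of W hord h2 hW hΔ (fun hP hQ => E1_add_mem (W⁄K) hord h2 hW hP hQ)
    (fun hP => E1_neg_mem (W⁄K) hP)
    (fun hP hpP => F_E1_torsion_free (W⁄K) hord h2 hW hp hp2 hpu hP hpP) σ hσ hpP

end F

end Fermat.Agent.S05
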