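/-
S05, package F2 (good reduction core), owner helper48.

`Fermat.Agent.S05.GoodRed.unram_of_good_core`: good reduction (`Δ` a unit) implies that an
inertial automorphism fixes every `p`-torsion point, GIVEN the two inputs
* `H_smul` (conclusion shape of `smul_sub_mem_E1`, package F) and
* `H_tf`   (conclusion shape of `E1_torsion_free`, package E2)
as explicit hypotheses.  No sorry.
-/
import Fermat.Agent.S05.Defs
import Fermat.Agent.S05.OrdApi
import Fermat.Agent.S05.XFormulas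
import Fermat.Prelude.Def_FLTPrelim_GaloisRep

set_option autoImplicit false

namespace Fermat.Agent.S05.GoodRed

open WeierstrassCurve WeierstrassCurve.Affine Fermat.Agent.S05

section cert

variable {R : Type*} [CommRing R] (W : WeierstrassCurve R)

/-- Bezout certificate `u F + v F' = -64 Δ` (found by helper5/helper97). -/
theorem bezout_cert (x : R) :
    (16 * W.b₂ ^ 3 + 96 * W.b₂ ^ 2 * x - 480 * W.b₂ * W.b₄ - 2304 * W.b₄ * x + 1728 * W.b₆) *
        (4 * x ^ 3 + W.b₂ * x ^ 2 + 2 * W.b₄ * x + W.b₆) +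
      (-8 * W.b₂ ^ 3 * x - 8 * W.b₂ ^ 2 * W.b₄ - 32 * W.b₂ ^ 2 * x ^ 2 + 224 * W.b₂ * W.b₄ * x
          - 48 * W.b₂ * W.b₆ + 256 * W.b₄ ^ 2 + 768 * W.b₄ * x ^ 2 - 576 * W.b₆ * x) *
        (12 * x ^ 2 + 2 * W.b₂ * x + 2 * W.b₄) = -64 * W.Δ := by
  rw [WeierstrassCurve.Δ]
  linear_combination (-16 * W.b₂ ^ 2) * W.b_relation

end cert

section nonunits

variable {K : Type*} [Field K] {A : ValuationSubring K}

theorem GR_nonunits_add {a b : K} (ha : a ∈ A.nonunits) (hb : b ∈ A.nonunits) :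
    a + b ∈ A.nonunits := by
  rw [ValuationSubring.mem_nonunits_iff_exists_mem_maximalIdeal] at ha hb ⊢
  obtain ⟨ha', ha⟩ := ha
  obtain ⟨hb', hb⟩ := hb
  exact ⟨add_mem ha' hb', (IsLocalRing.maximalIdeal A).add_mem ha hb⟩

theorem GR_mul_nonunits {a b : K} (ha : a ∈ A) (hb : b ∈ A.nonunits) :
    a * b ∈ A.nonunits := by
  rw [ValuationSubring.mem_nonunits_iff_exists_mem_maximalIdeal] at hb ⊢
  obtain ⟨hb', hb⟩ := hb
  exact ⟨mul_mem ha hb', (IsLocalRing.maximalIdeal A).mul_mem_left ⟨a, ha⟩ hb⟩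

theorem GR_neg_nonunits {a : K} (ha : a ∈ A.nonunits) : -a ∈ A.nonunits := by
  rw [ValuationSubring.mem_nonunits_iff_exists_mem_maximalIdeal] at ha ⊢
  obtain ⟨ha', ha⟩ := ha
  exact ⟨neg_mem ha', (IsLocalRing.maximalIdeal A).neg_mem ha⟩

end nonunits

section good

variable {K : Type*} [Field K] {A : ValuationSubring K} {ord : K → ℚ}

theorem GR_b₂_mem (W : Affine K) (hW : IsIntegralW W A) : W.b₂ ∈ A := by
  obtain ⟨h1, h2, h3, h4, h6⟩ := hW
  rw [WeierstrassCurve.b₂]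
  exact add_mem (pow_mem h1 2) (mul_mem (ofNat_mem A 4) h2)

theorem GR_b₄_mem (W : Affine K) (hW : IsIntegralW W A) : W.b₄ ∈ A := by
  obtain ⟨h1, h2, h3, h4, h6⟩ := hW
  rw [WeierstrassCurve.b₄]
  exact add_mem (mul_mem (ofNat_mem A 2) h4) (mul_mem h1 h3)

theorem GR_b₆_mem (W : Affine K) (hW : IsIntegralW W A) : W.b₆ ∈ A := by
  obtain ⟨h1, h2, h3, h4, h6⟩ := hW
  rw [WeierstrassCurve.b₆]
  exact add_mem (pow_mem h3 2) (mul_mem (ofNat_mem A 4) h6)

/-- On an integral Weierstrass curve, a point with integral `x` has integral `y`. -/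
theorem GR_y_mem (W : Affine K) (hord : IsOrd A ord) (hW : IsIntegralW W A)
    {x y : K} (h : W.Equation x y) (hx : x ∈ A) : y ∈ A := by
  obtain ⟨h1, h2, h3, h4, h6⟩ := hW
  by_contra hy
  have hy0 : y ≠ 0 := fun h0 => hy (h0 ▸ A.zero_mem)
  have hyneg : ord y < 0 := (hord.not_mem_iff hy0).1 hy
  have hti : y⁻¹ ∈ A := (A.mem_or_inv_mem y).resolve_left hy
  have ht0 : y⁻¹ ≠ 0 := inv_ne_zero hy0
  have hordt : 0 < ord y⁻¹ := by rw [hord.ord_inv hy0]; linarith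
  rw [Affine.equation_iff] at h
  set c : K := x ^ 3 + W.a₂ * x ^ 2 + W.a₄ * x + W.a₆ with hc
  set d : K := W.a₁ * x + W.a₃ with hd
  have hcA : c ∈ A :=
    add_mem (add_mem (add_mem (pow_mem hx 3) (mul_mem h2 (pow_mem hx 2)))
      (mul_mem h4 hx)) h6
  have hdA : d ∈ A := add_mem (mul_mem h1 hx) h3
  have hsA : c * y⁻¹ - d ∈ A := sub_mem (mul_mem hcA hti) hdA
  have hprod : y⁻¹ * (c * y⁻¹ - d) = 1 := by
    have hyy : y * y⁻¹ = 1 := mul_inv_cancel₀ hy0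
    have hcy : c = y ^ 2 + d * y := by rw [hc, hd]; linear_combination -h
    rw [hcy]
    field_simp
    ring
  have hs0 : c * y⁻¹ - d ≠ 0 := by
    intro h0
    rw [h0, mul_zero] at hprod
    exact zero_ne_one hprod
  have hords : 0 ≤ ord (c * y⁻¹ - d) := hord.nonneg_of_mem hs0 hsA
  have h1' : ord (y⁻¹ * (c * y⁻¹ - d)) = ord y⁻¹ + ord (c * y⁻¹ - d) := hord.ord_mul ht0 hs0
  rw [hprod, hord.ord_one] at h1'
  linarith

/-- Good reduction: every integral affine point has nonsingular reduction. -/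
theorem isNsInt_of_good (W : Affine K) (hord : IsOrd A ord) (h2 : IsU ord (2 : K))
    (hW : IsIntegralW W A) (hΔ : IsU ord W.Δ) {x y : K} (h : W.Equation x y) (hx : x ∈ A) :
    x ∈ A ∧ y ∈ A ∧ (IsU ord (Yc W x y) ∨ IsU ord (Fder W x)) := by
  have hy : y ∈ A := GR_y_mem W hord hW h hx
  refine ⟨hx, hy, ?_⟩
  have hb2 := GR_b₂_mem W hW
  have hb4 := GR_b₄_mem W hW
  have hb6 := GR_b₆_mem W hW
  obtain ⟨h1, _, h3, _, _⟩ := hW
  have hYA : Yc W x y ∈ A := by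
    rw [Yc]
    exact add_mem (add_mem (mul_mem (ofNat_mem A 2) hy) (mul_mem h1 hx)) h3
  have hFA : Fder W x ∈ A := by
    rw [Fder]
    exact add_mem (add_mem (mul_mem (ofNat_mem A 12) (pow_mem hx 2))
      (mul_mem (mul_mem (ofNat_mem A 2) hb2) hx)) (mul_mem (ofNat_mem A 2) hb4)
  by_contra hcon
  rw [not_or] at hcon
  obtain ⟨hY, hF⟩ := hcon
  have hYn : Yc W x y ∈ A.nonunits := by
    by_contra hn
    exact hY (hord.isU_iff_mem_not_nonunits.2 ⟨hYA, hn⟩)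
  have hFn : Fder W x ∈ A.nonunits := by
    by_contra hn
    exact hF (hord.isU_iff_mem_not_nonunits.2 ⟨hFA, hn⟩)
  have hFp : Fpoly W x ∈ A.nonunits := by
    rw [← Yc_sq W h, pow_two]
    exact GR_mul_nonunits hYA hYn
  have hcert := bezout_cert W x
  have huA : (16 * W.b₂ ^ 3 + 96 * W.b₂ ^ 2 * x - 480 * W.b₂ * W.b₄ - 2304 * W.b₄ * x
      + 1728 * W.b₆) ∈ A := by
    refine add_mem (sub_mem (sub_mem (add_mem ?_ ?_) ?_) ?_) ?_
    · exact mul_mem (ofNat_mem A 16) (pow_mem hb2 3)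
    · exact mul_mem (mul_mem (ofNat_mem A 96) (pow_mem hb2 2)) hx
    · exact mul_mem (mul_mem (ofNat_mem A 480) hb2) hb4
    · exact mul_mem (mul_mem (ofNat_mem A 2304) hb4) hx
    · exact mul_mem (ofNat_mem A 1728) hb6
  have hvA : (-8 * W.b₂ ^ 3 * x - 8 * W.b₂ ^ 2 * W.b₄ - 32 * W.b₂ ^ 2 * x ^ 2
      + 224 * W.b₂ * W.b₄ * x - 48 * W.b₂ * W.b₆ + 256 * W.b₄ ^ 2 + 768 * W.b₄ * x ^ 2
      - 576 * W.b₆ * x) ∈ A := by
    refine sub_mem (add_mem (add_mem (sub_mem (A.add_mem _ _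
      (sub_mem (sub_mem ?_ ?_) ?_) ?_) ?_) ?_) ?_) ?_
    · exact mul_mem (mul_mem (neg_mem (ofNat_mem A 8)) (pow_mem hb2 3)) hx
    · exact mul_mem (mul_mem (ofNat_mem A 8) (pow_mem hb2 2)) hb4
    · exact mul_mem (mul_mem (ofNat_mem A 32) (pow_mem hb2 2)) (pow_mem hx 2)
    · exact mul_mem (mul_mem (mul_mem (ofNat_mem A 224) hb2) hb4) hx
    · exact mul_mem (mul_mem (ofNat_mem A 48) hb2) hb6
    · exact mul_mem (ofNat_mem A 256) (pow_mem hb4 2)
    · exact mul_mem (mul_mem (ofNat_mem A 768) hb4) (pow_mem hx 2)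
    · exact mul_mem (mul_mem (ofNat_mem A 576) hb6) hx
  have hlhs : -64 * W.Δ ∈ A.nonunits := by
    rw [← hcert]
    refine GR_nonunits_add (GR_mul_nonunits huA ?_) (GR_mul_nonunits hvA ?_)
    · exact hFp
    · exact hFn
  have h64 : IsU ord (-64 * W.Δ) := by
    have h64' : IsU ord ((2 : K) ^ 6) := hord.IsU_pow h2 6
    have : (-64 : K) * W.Δ = -((2 : K) ^ 6 * W.Δ) := by ring
    rw [this]
    exact hord.IsU_neg (hord.IsU_mul h64' hΔ)
  exact (hord.isU_iff_mem_not_nonunits.1 h64).2 hlhs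

end good

section core

variable {K : Type*} [Field K] [DecidableEq K] {A : ValuationSubring K} {ord : K → ℚ}
variable {k : Type*} [Field k] [Algebra k K] (W : Affine k)

omit [DecidableEq K] in
/-- Good reduction: every point is in `E₁` or is integral with nonsingular reduction. -/
theorem mem_E1_or_isNsInt (hord : IsOrd A ord) (h2 : IsU ord (2 : K))
    (hW : IsIntegralW (W⁄K) A) (hΔ : IsU ord (W⁄K).Δ) (P : (W⁄K).Point) :
    P ∈ E1 (W⁄K) ord ∨ ∃ (x y : K) (h : (W⁄K).Nonsingular x y),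
      P = Point.some x y h ∧
        (x ∈ A ∧ y ∈ A ∧ (IsU ord (Yc (W⁄K) x y) ∨ IsU ord (Fder (W⁄K) x))) := by
  rcases P with _ | ⟨x, y, h⟩
  · exact Or.inl (Or.inl rfl)
  · by_cases hx : x ∈ A
    · exact Or.inr ⟨x, y, h, rfl, isNsInt_of_good (W⁄K) hord h2 hW hΔ h.1 hx⟩
    · have hx0 : x ≠ 0 := fun h0 => hx (h0 ▸ A.zero_mem)
      exact Or.inl (Or.inr ⟨x, y, h, rfl, hx0, (hord.not_mem_iff hx0).1 hx⟩)

/-- good reduction ⇒ inertia acts trivially on `p`-torsion; core statement with the outputs of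
packages F (`smul_sub_mem_E1`) and E2 (`E1_torsion_free`) as hypotheses. -/
theorem unram_of_good_core (hord : IsOrd A ord) (h2 : IsU ord (2 : K))
    (hW : IsIntegralW (W⁄K) A) (hΔ : IsU ord (W⁄K).Δ)
    {p : ℕ} (σ : K ≃ₐ[k] K)
    (H_smul : ∀ {P : (W⁄K).Point},
      (P ∈ E1 (W⁄K) ord ∨ ∃ (x y : K) (h : (W⁄K).Nonsingular x y),
        P = Point.some x y h ∧
          (x ∈ A ∧ y ∈ A ∧ (IsU ord (Yc (W⁄K) x y) ∨ IsU ord (Fder (W⁄K) x)))) →
        σ • P - P ∈ E1 (W⁄K) ord)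
    (H_tf : ∀ {P : (W⁄K).Point}, P ∈ E1 (W⁄K) ord → (p : ℤ) • P = 0 → P = 0)
    {P : (W⁄K).Point} (hpP : (p : ℤ) • P = 0) : σ • P = P := by
  have hmem : σ • P - P ∈ E1 (W⁄K) ord := H_smul (mem_E1_or_isNsInt W hord h2 hW hΔ P)
  have hp0 : (p : ℤ) • (σ • P - P) = 0 := by
    rw [smul_sub, ← Point.algEquiv_smul_zsmul, hpP, smul_zero, sub_zero]
  exact sub_eq_zero.1 (H_tf hmem hp0)

end core

end Fermat.Agent.S05.GoodRed
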