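/-
S05, package F2 (final wiring), helper48: `GoodRed.unram_of_good` with the skeleton signature
(sub-namespace `Fermat.Agent.S05.GoodRed` to avoid any clash with helper97's `CongrFinal.lean`,
which exports the same statements at top level and is the one to import),
from `unram_of_good_of` (helper97, Congr.lean), `E1_add_mem`/`E1_neg_mem`/`poleSet_add_mem`
(helper8, Pole.lean) and `E2.torsion_free_of` (helper33, PoleTorsion.lean).  No sorry.
-/
import Fermat.Agent.S05.Congr
import Fermat.Agent.S05.Pole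
import Fermat.Agent.S05.PoleTorsion

set_option autoImplicit false

namespace Fermat.Agent.S05.GoodRed

open WeierstrassCurve WeierstrassCurve.Affine Fermat.Agent.S05

section F2
variable {K : Type*} [Field K] [DecidableEq K] {A : ValuationSubring K} {ord : K → ℚ}

/-- no `p`-torsion in `E₁` for an odd prime `p` which is a unit of `A` (skeleton signature). -/
theorem E1_torsion_free (W : Affine K) (hord : IsOrd A ord) (h2 : IsU ord (2 : K))
    (hW : IsIntegralW W A)
    {p : ℕ} (hp : p.Prime) (hp2 : p ≠ 2) (hpu : IsU ord (p : K))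
    {P : W.Point} (hP : P ∈ E1 W ord) (hpP : (p : ℤ) • P = 0) : P = 0 :=
  E2.torsion_free_of hord h2 hW
    (fun {_} hb {_ _} hP hQ => poleSet_add_mem W hord h2 hW hb hP hQ) hp hp2 hpu hP hpP

variable {k : Type*} [Field k] [Algebra k K] (W : Affine k)

/-- inertia moves a point of `E₀` by an element of `E₁` (skeleton signature). -/
theorem smul_sub_mem_E1 (hord : IsOrd A ord) (h2 : IsU ord (2 : K))
    (hW : IsIntegralW (W⁄K) A) (σ : K ≃ₐ[k] K) (hσ : IsInertial A σ)
    {P : (W⁄K).Point}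
    (hP : P ∈ E1 (W⁄K) ord ∨ ∃ (x y : K) (h : (W⁄K).Nonsingular x y),
      P = Point.some x y h ∧ IsNsInt (W⁄K) A ord x y) :
    σ • P - P ∈ E1 (W⁄K) ord :=
  smul_sub_mem_E1_of W hord h2 hW
    (fun {_ _} hP hQ => E1_add_mem (W⁄K) hord h2 hW hP hQ)
    (fun {_} hP => E1_neg_mem (W⁄K) hP) σ hσ hP

/-- good reduction ⇒ inertia acts trivially on `p`-torsion (skeleton signature). -/
theorem unram_of_good (hord : IsOrd A ord) (h2 : IsU ord (2 : K))
    (hW : IsIntegralW (W⁄K) A) (hΔ : IsU ord (W⁄K).Δ)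
    {p : ℕ} (hp : p.Prime) (hp2 : p ≠ 2) (hpu : IsU ord (p : K))
    (σ : K ≃ₐ[k] K) (hσ : IsInertial A σ)
    {P : (W⁄K).Point} (hpP : (p : ℤ) • P = 0) : σ • P = P :=
  unram_of_good_of W hord h2 hW hΔ
    (fun {_ _} hP hQ => E1_add_mem (W⁄K) hord h2 hW hP hQ)
    (fun {_} hP => E1_neg_mem (W⁄K) hP)
    (fun {_} hP hpP => E1_torsion_free (W⁄K) hord h2 hW hp hp2 hpu hP hpP) σ hσ hpP

end F2

end Fermat.Agent.S05.GoodRed
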