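/-
S05 package G3 (side theorems, helper57): the valuation lemma (K) for doubling, and the
2-torsion quadratic. Pure valuation arithmetic on top of `OrdApi`. No sorry.
-/
import Fermat.Agent.S05.OrdApi

set_option autoImplicit false

namespace Fermat.Agent.S05

section GD
variable {K : Type*} [Field K] {A : ValuationSubring K} {ord : K → ℚ}

theorem GD_wK_of_ne {h : ℚ} {ξ : K} (hξ : ξ ≠ 0) : wK ord h ξ = max 0 (min (ord ξ) h) := by
  unfold wK
  rw [if_neg hξ]

theorem GD_wK_zero (h : ℚ) : wK ord h (0 : K) = h := by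
  unfold wK
  rw [if_pos rfl]

/-- a strictly dominant term in a sum of three. -/
theorem GD_dom3 (hord : IsOrd A ord) (x y z : K) (hx : x ≠ 0) (hy : y ≠ 0 → ord x < ord y)
    (hz : z ≠ 0 → ord x < ord z) : x + y + z ≠ 0 ∧ ord (x + y + z) = ord x := by
  have hxy : ord (x + y) = ord x := hord.ord_add_of_lt' hx hy
  have hxy0 : x + y ≠ 0 := by
    rcases eq_or_ne y 0 with rfl | hy0
    · simpa using hx
    · exact hord.add_ne_zero_of_lt (hy hy0)
  have hz' : z ≠ 0 → ord (x + y) < ord z := fun h0 => by rw [hxy]; exact hz h0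
  refine ⟨?_, ?_⟩
  · rcases eq_or_ne z 0 with rfl | hz0
    · simpa using hxy0
    · exact hord.add_ne_zero_of_lt (hz' hz0)
  · rw [hord.ord_add_of_lt' hxy0 hz', hxy]

/-- lower bound for a sum of three nonzero terms. -/
theorem GD_le3 (hord : IsOrd A ord) {x y z : K} {c : ℚ} (hx : x ≠ 0) (hy : y ≠ 0) (_hz : z ≠ 0)
    (hs : x + y + z ≠ 0) (h1 : c ≤ ord x) (h2 : c ≤ ord y) (h3 : c ≤ ord z) :
    c ≤ ord (x + y + z) := by
  apply hord.le_ord_add_of_le' hs
  · intro hxy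
    exact hord.le_ord_add_of_le hx hy hxy h1 h2
  · intro _
    exact h3

/-- roots of the 2-torsion quadratic have `w ∈ {0,h}`. -/
theorem K_two_torsion_field (hord : IsOrd A ord) (h2 : IsU ord (2 : K)) {h : ℚ} (hh : 0 < h)
    {β α : K} (hβ : IsU ord β) (hα0 : α ≠ 0) (hα : ord α = h)
    {ξ : K} (hden : ξ * (4 * ξ ^ 2 + β * ξ + 4 * α) = 0) :
    wK ord h ξ = 0 ∨ wK ord h ξ = h := by
  rcases eq_or_ne ξ 0 with rfl | hξ
  · right; exact GD_wK_zero h
  have hG : 4 * ξ ^ 2 + β * ξ + 4 * α = 0 := by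
    rcases mul_eq_zero.mp hden with h0 | h0
    · exact absurd h0 hξ
    · exact h0
  have h4 : IsU ord (4 : K) := by
    have : (4 : K) = 2 * 2 := by norm_num
    rw [this]; exact hord.IsU_mul h2 h2
  have ht1 : 4 * ξ ^ 2 ≠ 0 := mul_ne_zero h4.1 (pow_ne_zero 2 hξ)
  have ht2 : β * ξ ≠ 0 := mul_ne_zero hβ.1 hξ
  have ht3 : 4 * α ≠ 0 := mul_ne_zero h4.1 hα0
  have o1 : ord (4 * ξ ^ 2) = 2 * ord ξ := by
    rw [hord.ord_mul_of_isU_left h4 (pow_ne_zero 2 hξ), hord.ord_sq hξ]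
  have o2 : ord (β * ξ) = ord ξ := hord.ord_mul_of_isU_left hβ hξ
  have o3 : ord (4 * α) = h := by rw [hord.ord_mul_of_isU_left h4 hα0, hα]
  rw [GD_wK_of_ne hξ]
  -- the three cases where one term strictly dominates are impossible
  rcases lt_trichotomy (ord ξ) 0 with hv | hv | hv
  · exfalso
    have := (GD_dom3 hord (4 * ξ ^ 2) (β * ξ) (4 * α) ht1 (fun _ => by rw [o1, o2]; linarith)
      (fun _ => by rw [o1, o3]; linarith)).1
    exact this hG
  · left
    rw [hv, min_eq_left hh.le, max_self]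
  · rcases lt_trichotomy (ord ξ) h with hvh | hvh | hvh
    · exfalso
      have hG' : β * ξ + 4 * ξ ^ 2 + 4 * α = 0 := by linear_combination hG
      have := (GD_dom3 hord (β * ξ) (4 * ξ ^ 2) (4 * α) ht2 (fun _ => by rw [o1, o2]; linarith)
        (fun _ => by rw [o2, o3]; linarith)).1
      exact this hG'
    · right
      rw [hvh, min_self, max_eq_right hh.le]
    · exfalso
      have hG' : 4 * α + 4 * ξ ^ 2 + β * ξ = 0 := by linear_combination hG
      have := (GD_dom3 hord (4 * α) (4 * ξ ^ 2) (β * ξ) ht3 (fun _ => by rw [o1, o3]; linarith)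
        (fun _ => by rw [o2, o3]; linarith)).1
      exact this hG'

/-- (K) for doubling. -/
theorem K_dbl_field (hord : IsOrd A ord) (h2 : IsU ord (2 : K)) {h : ℚ} (hh : 0 < h)
    {β α : K} (hβ : IsU ord β) (hα0 : α ≠ 0) (hα : ord α = h)
    {ξ r : K} (hden : ξ * (4 * ξ ^ 2 + β * ξ + 4 * α) ≠ 0)
    (hr : r * (ξ * (4 * ξ ^ 2 + β * ξ + 4 * α)) = (ξ ^ 2 - α) ^ 2) :
    wK ord h r = min (2 * wK ord h ξ) (2 * h - 2 * wK ord h ξ) := by
  have hξ : ξ ≠ 0 := left_ne_zero_of_mul hden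
  have hG : 4 * ξ ^ 2 + β * ξ + 4 * α ≠ 0 := right_ne_zero_of_mul hden
  have h4 : IsU ord (4 : K) := by
    have : (4 : K) = 2 * 2 := by norm_num
    rw [this]; exact hord.IsU_mul h2 h2
  have hξ2 : ξ ^ 2 ≠ 0 := pow_ne_zero 2 hξ
  have ht1 : 4 * ξ ^ 2 ≠ 0 := mul_ne_zero h4.1 hξ2
  have ht2 : β * ξ ≠ 0 := mul_ne_zero hβ.1 hξ
  have ht3 : 4 * α ≠ 0 := mul_ne_zero h4.1 hα0
  have oξ2 : ord (ξ ^ 2) = 2 * ord ξ := hord.ord_sq hξ
  have o1 : ord (4 * ξ ^ 2) = 2 * ord ξ := by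
    rw [hord.ord_mul_of_isU_left h4 hξ2, oξ2]
  have o2 : ord (β * ξ) = ord ξ := hord.ord_mul_of_isU_left hβ hξ
  have o3 : ord (4 * α) = h := by rw [hord.ord_mul_of_isU_left h4 hα0, hα]
  -- valuation of `r` when the numerator does not vanish
  have hrord : ξ ^ 2 - α ≠ 0 → r ≠ 0 ∧
      ord r = 2 * ord (ξ ^ 2 - α) - ord ξ - ord (4 * ξ ^ 2 + β * ξ + 4 * α) := by
    intro hn
    have hr0 : r ≠ 0 := by
      rintro rfl
      rw [zero_mul] at hr
      exact pow_ne_zero 2 hn hr.symm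
    refine ⟨hr0, ?_⟩
    have e := congrArg ord hr
    rw [hord.ord_mul hr0 hden, hord.ord_mul hξ hG, hord.ord_sq hn] at e
    linarith
  rw [GD_wK_of_ne hξ]
  set v := ord ξ with hv
  rcases le_or_gt v 0 with hv0 | hv0
  · -- v ≤ 0
    have hn : ξ ^ 2 - α ≠ 0 ∧ ord (ξ ^ 2 - α) = 2 * v := by
      have hlt : ord (ξ ^ 2) < ord α := by rw [oξ2, hα]; linarith
      refine ⟨?_, ?_⟩
      · rw [sub_eq_add_neg]
        exact hord.add_ne_zero_of_lt (by rwa [hord.ord_neg])
      · rw [hord.ord_sub_of_lt hξ2 hα0 hlt, oξ2]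
    obtain ⟨hr0, er⟩ := hrord hn.1
    have hGge : 2 * v ≤ ord (4 * ξ ^ 2 + β * ξ + 4 * α) :=
      GD_le3 hord ht1 ht2 ht3 hG (by rw [o1]) (by rw [o2]; linarith) (by rw [o3]; linarith)
    rw [GD_wK_of_ne hr0, er, hn.2]
    have hle : 2 * (2 * v) - v - ord (4 * ξ ^ 2 + β * ξ + 4 * α) ≤ 0 := by linarith
    rw [max_eq_left (le_trans (min_le_left _ _) hle), max_eq_left (le_trans (min_le_left _ _) hv0)]
    rw [min_eq_left (by linarith)]
    ring
  rcases lt_or_ge v h with hvh | hvh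
  · -- 0 < v < h : G has valuation v
    have oG : ord (4 * ξ ^ 2 + β * ξ + 4 * α) = v := by
      have hG' : 4 * ξ ^ 2 + β * ξ + 4 * α = β * ξ + 4 * ξ ^ 2 + 4 * α := by ring
      rw [hG', (GD_dom3 hord (β * ξ) (4 * ξ ^ 2) (4 * α) ht2 (fun _ => by rw [o1, o2]; linarith)
        (fun _ => by rw [o2, o3]; linarith)).2, o2]
    have hwξ : max 0 (min v h) = v := by
      rw [min_eq_left hvh.le, max_eq_right hv0.le]
    rw [hwξ]
    rcases lt_trichotomy (2 * v) h with h2v | h2v | h2v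
    · -- 2v < h
      have hlt : ord (ξ ^ 2) < ord α := by rw [oξ2, hα]; exact h2v
      have hn0 : ξ ^ 2 - α ≠ 0 := by
        rw [sub_eq_add_neg]
        exact hord.add_ne_zero_of_lt (by rwa [hord.ord_neg])
      have on : ord (ξ ^ 2 - α) = 2 * v := by rw [hord.ord_sub_of_lt hξ2 hα0 hlt, oξ2]
      obtain ⟨hr0, er⟩ := hrord hn0
      rw [GD_wK_of_ne hr0, er, on, oG]
      have : 2 * (2 * v) - v - v = 2 * v := by ring
      rw [this, min_eq_left h2v.le, max_eq_right (by linarith), min_eq_left (by linarith)]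
    · -- 2v = h
      rw [min_eq_left (by linarith)]
      rcases eq_or_ne (ξ ^ 2 - α) 0 with hn0 | hn0
      · have hr0 : r = 0 := by
          rw [hn0] at hr
          have : r * (ξ * (4 * ξ ^ 2 + β * ξ + 4 * α)) = 0 := by rw [hr]; ring
          rcases mul_eq_zero.mp this with h0 | h0
          · exact h0
          · exact absurd h0 hden
        rw [hr0, GD_wK_zero]
        linarith
      · have on : h ≤ ord (ξ ^ 2 - α) :=
          hord.le_ord_sub_of_le hξ2 hα0 hn0 (by rw [oξ2]; linarith) (by rw [hα])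
        obtain ⟨hr0, er⟩ := hrord hn0
        rw [GD_wK_of_ne hr0, er, oG]
        have : h ≤ 2 * ord (ξ ^ 2 - α) - v - v := by linarith
        rw [min_eq_right this, max_eq_right hh.le]
        linarith
    · -- h < 2v, v < h
      have hlt : ord α < ord (ξ ^ 2) := by rw [oξ2, hα]; exact h2v
      have hn0 : ξ ^ 2 - α ≠ 0 := by
        intro h0
        have : ξ ^ 2 = α := by linear_combination h0
        rw [this] at hlt
        exact lt_irrefl _ hlt
      have on : ord (ξ ^ 2 - α) = h := by rw [hord.ord_sub_of_gt hξ2 hα0 hlt, hα]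
      obtain ⟨hr0, er⟩ := hrord hn0
      rw [GD_wK_of_ne hr0, er, on, oG]
      have : 2 * h - v - v = 2 * h - 2 * v := by ring
      rw [this, min_eq_left (by linarith), max_eq_right (by linarith), min_eq_right (by linarith)]
  · -- h ≤ v
    have hlt : ord α < ord (ξ ^ 2) := by rw [oξ2, hα]; linarith
    have hn0 : ξ ^ 2 - α ≠ 0 := by
      intro h0
      have : ξ ^ 2 = α := by linear_combination h0
      rw [this] at hlt
      exact lt_irrefl _ hlt
    have on : ord (ξ ^ 2 - α) = h := by rw [hord.ord_sub_of_gt hξ2 hα0 hlt, hα]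
    obtain ⟨hr0, er⟩ := hrord hn0
    have hGge : h ≤ ord (4 * ξ ^ 2 + β * ξ + 4 * α) :=
      GD_le3 hord ht1 ht2 ht3 hG (by rw [o1]; linarith) (by rw [o2]; linarith) (by rw [o3])
    rw [GD_wK_of_ne hr0, er, on]
    have hle : 2 * h - v - ord (4 * ξ ^ 2 + β * ξ + 4 * α) ≤ 0 := by linarith
    rw [max_eq_left (le_trans (min_le_left _ _) hle), min_eq_right hvh, max_eq_right hh.le]
    rw [min_eq_right (by linarith)]
    ring

end GD

end Fermat.Agent.S05
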