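/-
S05 package H (helper22): (K) at the level of points, and the induction `p · w(P) ∈ 2hℤ`,
with the exact skeleton signatures. Proofs are in `InductionCore.lean`; this file only plugs in
package G (`K_field`, `K_dbl_field`, `K_two_torsion_field`).
-/
import Fermat.Agent.S05.InductionCore
import Fermat.Agent.S05.KField
import Fermat.Agent.S05.KFieldDbl

set_option autoImplicit false

namespace Fermat.Agent.S05

open WeierstrassCurve WeierstrassCurve.Affine

set_option linter.unusedSectionVars false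

section HI
variable {K : Type*} [Field K] [DecidableEq K] {A : ValuationSubring K} {ord : K → ℚ}

theorem H_GKField (hord : IsOrd A ord) (h2 : IsU ord (2 : K)) : HCore.GKField ord :=
  fun hh _ _ hβ hα0 hα _ _ _ _ hne hN hS => K_field hord h2 hh hβ hα0 hα hne hN hS

theorem H_GKDbl (hord : IsOrd A ord) (h2 : IsU ord (2 : K)) : HCore.GKDbl ord :=
  fun hh _ _ hβ hα0 hα _ _ hden hr => K_dbl_field hord h2 hh hβ hα0 hα hden hr

theorem H_GKTwo (hord : IsOrd A ord) (h2 : IsU ord (2 : K)) : HCore.GKTwo ord :=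
  fun hh _ _ hβ hα0 hα _ hden => K_two_torsion_field hord h2 hh hβ hα0 hα hden

/-- (K) at the level of points. -/
theorem K_points (W : Affine K) (hord : IsOrd A ord) (h2 : IsU ord (2 : K)) {h : ℚ} (hh : 0 < h)
    {r : K} (_hrA : r ∈ A) (hr : Fpoly W r = 0) (hβ : IsU ord (beta2 W r))
    (hα0 : alpha4 W r ≠ 0) (hα : ord (alpha4 W r) = h)
    {x₁ y₁ x₂ y₂ : K} (h₁ : W.Nonsingular x₁ y₁) (h₂ : W.Nonsingular x₂ y₂) (hx : x₁ ≠ x₂) :
    let P := Point.some x₁ y₁ h₁
    let Q := Point.some x₂ y₂ h₂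
    let s := wPt ord h r P
    let t := wPt ord h r Q
    (wPt ord h r (P + Q) = min (s + t) (2 * h - s - t) ∧ wPt ord h r (P - Q) = |s - t|) ∨
    (wPt ord h r (P + Q) = |s - t| ∧ wPt ord h r (P - Q) = min (s + t) (2 * h - s - t)) :=
  HCore.K_points (H_GKField hord h2) W h2 hh hr hβ hα0 hα h₁ h₂ hx

theorem K_dbl_points (W : Affine K) (hord : IsOrd A ord) (h2 : IsU ord (2 : K)) {h : ℚ}
    (hh : 0 < h) {r : K} (_hrA : r ∈ A) (hr : Fpoly W r = 0) (hβ : IsU ord (beta2 W r))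
    (hα0 : alpha4 W r ≠ 0) (hα : ord (alpha4 W r) = h) (P : W.Point) :
    wPt ord h r (P + P) = min (2 * wPt ord h r P) (2 * h - 2 * wPt ord h r P) :=
  HCore.K_dbl_points (H_GKDbl hord h2) (H_GKTwo hord h2) W h2 hh hr hβ hα0 hα P

/-- the induction: `p · w(P) ∈ 2hℤ` for a `p`-torsion point, `p` odd. -/
theorem torsion_w (W : Affine K) (hord : IsOrd A ord) (h2 : IsU ord (2 : K)) {h : ℚ}
    (hh : 0 < h) {r : K} (_hrA : r ∈ A) (hr : Fpoly W r = 0) (hβ : IsU ord (beta2 W r))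
    (hα0 : alpha4 W r ≠ 0) (hα : ord (alpha4 W r) = h)
    {p : ℕ} (hp : p.Prime) (hp2 : p ≠ 2) {P : W.Point} (hpP : (p : ℤ) • P = 0) :
    ∃ j : ℤ, (p : ℚ) * wPt ord h r P = 2 * h * j :=
  HCore.torsion_w (H_GKField hord h2) (H_GKDbl hord h2) (H_GKTwo hord h2) W h2 hh hr hβ hα0 hα
    hp hp2 hpP

end HI

end Fermat.Agent.S05
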