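/-
S05 package I (helper27): `unram_of_mult`, final form (skeleton signature + `hsq`).
Wires the landed packages E (Pole, PoleTorsion), F (Congr), G (KField, KFieldDbl),
H (InductionCore) into `MM.unram_of_mult_core`.
-/
import Fermat.Agent.S05.MultMainCore
import Fermat.Agent.S05.Pole
import Fermat.Agent.S05.PoleTorsion
import Fermat.Agent.S05.Congr
import Fermat.Agent.S05.KField
import Fermat.Agent.S05.KFieldDbl
import Fermat.Agent.S05.InductionCore

set_option autoImplicit false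

namespace Fermat.Agent.S05

open WeierstrassCurve WeierstrassCurve.Affine

section I
variable {K : Type*} [Field K] [DecidableEq K] {A : ValuationSubring K} {ord : K → ℚ}
variable {k : Type*} [Field k] [Algebra k K] (W : Affine k)

/-- multiplicative reduction with `ord(α₄) ∈ p·ord(k^×)` ⇒ inertia acts trivially on `p`-torsion.
`r, g, ε ∈ k` (the ground field, fixed by `σ`). Extra hypothesis w.r.t. the skeleton: `hsq`
(square roots exist in `K`). -/
theorem unram_of_mult (hord : IsOrd A ord) (h2 : IsU ord (2 : K))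
    (hW : IsIntegralW (W⁄K) A) (hΔ : (W⁄K).Δ ≠ 0)
    (hsq : ∀ x : K, ∃ y : K, y ^ 2 = x)
    {p : ℕ} (hp : p.Prime) (hp2 : p ≠ 2) (hpu : IsU ord (p : K))
    {r g ε : k} (hrA : algebraMap k K r ∈ A) (hr : Fpoly (W⁄K) (algebraMap k K r) = 0)
    (hβ : IsU ord (beta2 (W⁄K) (algebraMap k K r)))
    (hα : alpha4 (W⁄K) (algebraMap k K r) = algebraMap k K (ε * g ^ p))
    (hε : IsU ord (algebraMap k K ε)) (hg0 : g ≠ 0) (hg : 0 < ord (algebraMap k K g))
    (σ : K ≃ₐ[k] K) (hσ : IsInertial A σ)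
    {P : (W⁄K).Point} (hpP : (p : ℤ) • P = 0) : σ • P = P := by
  have hα0 : alpha4 (W⁄K) (algebraMap k K r) ≠ 0 := by
    rw [hα]
    exact (map_ne_zero (algebraMap k K)).mpr
      (mul_ne_zero (fun h => hε.1 (by rw [h, map_zero])) (pow_ne_zero _ hg0))
  have hh : 0 < ord (alpha4 (W⁄K) (algebraMap k K r)) := by
    have hgK0 : algebraMap k K g ≠ 0 := (map_ne_zero (algebraMap k K)).mpr hg0
    rw [hα, map_mul, map_pow, hord.map_mul hε.1 (pow_ne_zero _ hgK0), hε.2,
      MM.ord_pow hord hgK0, zero_add]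
    have : (0 : ℚ) < p := by exact_mod_cast hp.pos
    positivity
  have hG : HCore.GKField ord := by
    unfold HCore.GKField
    intro h hh β α hβ hα0 hα ξ₁ ξ₂ r₁ r₂ hne hN hS
    exact K_field hord h2 hh hβ hα0 hα hne hN hS
  have hD : HCore.GKDbl ord := by
    unfold HCore.GKDbl
    intro h hh β α hβ hα0 hα ξ r hden hr
    exact K_dbl_field hord h2 hh hβ hα0 hα hden hr
  have hT : HCore.GKTwo ord := by
    unfold HCore.GKTwo
    intro h hh β α hβ hα0 hα ξ hden
    exact K_two_torsion_field hord h2 hh hβ hα0 hα hden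
  refine MM.unram_of_mult_core W hord h2 hW hΔ hsq hp hp2 hrA hr hα hβ hε hg0 hg σ hσ
    (fun Q hQ hpQ => E2.torsion_free_of hord h2 hW
      (fun hb _ _ hP' hQ' => poleSet_add_mem (W⁄K) hord h2 hW hb hP' hQ') hp hp2 hpu hQ hpQ)
    (fun Q hQ => smul_sub_mem_E1_of W hord h2 hW
      (fun hP' hQ' => E1_add_mem (W⁄K) hord h2 hW hP' hQ')
      (fun hP' => E1_neg_mem (W⁄K) hP') σ hσ hQ)
    (fun Q hpQ => HCore.torsion_w hG hD hT (W⁄K) h2 hh hr hβ hα0 rfl hp hp2 hpQ)
    ?_ hpP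
  intro x₁ y₁ x₂ y₂ h₁ h₂ hx hw
  have := HCore.K_points hG (W⁄K) h2 hh hr hβ hα0 rfl h₁ h₂ hx
  simp only at this
  rw [hw, sub_self, abs_zero] at this
  rcases this with ⟨-, h0⟩ | ⟨h0, -⟩
  · exact Or.inr h0
  · exact Or.inl h0

end I

end Fermat.Agent.S05
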