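/-
S05 package E1, independent backup (helper33): the pole sets `poleSet b` (`b < 0`) and the kernel
of reduction `E₁` are closed under addition and negation.  Everything lives in the sub-namespace
`Fermat.Agent.S05.PoleB` (same theorem names as the skeleton, no clash with `Pole.lean`).  No sorry.
-/
import Fermat.Agent.S05.OrdApi
import Fermat.Agent.S05.XFormulas
import Mathlib.Tactic

set_option autoImplicit false
set_option linter.unusedSectionVars false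

namespace Fermat.Agent.S05

namespace PoleB

open WeierstrassCurve WeierstrassCurve.Affine

section calculus

variable {K : Type*} [Field K] {A : ValuationSubring K} {ord : K → ℚ}

/-- `x = 0` or `c < ord x` -/
def Gt (ord : K → ℚ) (c : ℚ) (x : K) : Prop := x ≠ 0 → c < ord x

/-- `x = 0` or `c ≤ ord x` -/
def Ge (ord : K → ℚ) (c : ℚ) (x : K) : Prop := x ≠ 0 → c ≤ ord x

theorem Gt.add (hord : IsOrd A ord) {c : ℚ} {x y : K} (hx : Gt ord c x) (hy : Gt ord c y) :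
    Gt ord c (x + y) := by
  intro hxy
  rcases eq_or_ne x 0 with rfl | hx0
  · rw [zero_add] at hxy ⊢
    exact hy hxy
  rcases eq_or_ne y 0 with rfl | hy0
  · rw [add_zero] at hxy ⊢
    exact hx hxy
  exact lt_of_lt_of_le (lt_min (hx hx0) (hy hy0)) (hord.le_ord_add hx0 hy0 hxy)

theorem Gt.neg (hord : IsOrd A ord) {c : ℚ} {x : K} (hx : Gt ord c x) : Gt ord c (-x) := by
  intro h
  rw [hord.ord_neg]
  exact hx (neg_ne_zero.1 h)

theorem Gt.sub (hord : IsOrd A ord) {c : ℚ} {x y : K} (hx : Gt ord c x) (hy : Gt ord c y) :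
    Gt ord c (x - y) := by
  rw [sub_eq_add_neg]
  exact hx.add hord (hy.neg hord)

theorem Gt.mul_mem (hord : IsOrd A ord) {c : ℚ} {a x : K} (ha : a ∈ A) (hx : Gt ord c x) :
    Gt ord c (a * x) := by
  intro h
  have ha0 : a ≠ 0 := left_ne_zero_of_mul h
  have hx0 : x ≠ 0 := right_ne_zero_of_mul h
  rw [hord.map_mul ha0 hx0]
  have := hord.nonneg_of_mem ha0 ha
  have := hx hx0
  linarith

theorem Gt.of_lt {c : ℚ} {x : K} (h : c < ord x) : Gt ord c x := fun _ => h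

theorem Gt.of_mem (hord : IsOrd A ord) {c : ℚ} {a : K} (ha : a ∈ A) (hc : c < 0) :
    Gt ord c a := fun h0 => lt_of_lt_of_le hc (hord.nonneg_of_mem h0 ha)

theorem Gt.mono {c c' : ℚ} {x : K} (hx : Gt ord c x) (h : c' ≤ c) : Gt ord c' x :=
  fun h0 => lt_of_le_of_lt h (hx h0)

theorem Ge.add (hord : IsOrd A ord) {c : ℚ} {x y : K} (hx : Ge ord c x) (hy : Ge ord c y) :
    Ge ord c (x + y) := fun hxy => hord.le_ord_add_of_le' hxy hx hy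

theorem Ge.mul_mem (hord : IsOrd A ord) {c : ℚ} {a x : K} (ha : a ∈ A) (hx : Ge ord c x) :
    Ge ord c (a * x) := by
  intro h
  have ha0 : a ≠ 0 := left_ne_zero_of_mul h
  have hx0 : x ≠ 0 := right_ne_zero_of_mul h
  rw [hord.map_mul ha0 hx0]
  have := hord.nonneg_of_mem ha0 ha
  have := hx hx0
  linarith

theorem Ge.mul (hord : IsOrd A ord) {c c' : ℚ} {x y : K} (hx : Ge ord c x) (hy : Ge ord c' y) :
    Ge ord (c + c') (x * y) := by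
  intro h
  have hx0 : x ≠ 0 := left_ne_zero_of_mul h
  have hy0 : y ≠ 0 := right_ne_zero_of_mul h
  rw [hord.map_mul hx0 hy0]
  have := hx hx0
  have := hy hy0
  linarith

theorem Ge.of_le {c : ℚ} {x : K} (h : c ≤ ord x) : Ge ord c x := fun _ => h

theorem Ge.of_mem (hord : IsOrd A ord) {c : ℚ} {a : K} (ha : a ∈ A) (hc : c ≤ 0) :
    Ge ord c a := fun h0 => le_trans hc (hord.nonneg_of_mem h0 ha)

theorem Ge.mono {c c' : ℚ} {x : K} (hx : Ge ord c x) (h : c' ≤ c) : Ge ord c' x :=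
  fun h0 => le_trans h (hx h0)

/-- a strictly dominant term determines the valuation of a sum -/
theorem dom (hord : IsOrd A ord) {x t : K} (hx : x ≠ 0) (ht : Gt ord (ord x) t) :
    x + t ≠ 0 ∧ ord (x + t) = ord x := by
  refine ⟨?_, hord.ord_add_of_lt' hx ht⟩
  rcases eq_or_ne t 0 with rfl | ht0
  · rwa [add_zero]
  · exact hord.add_ne_zero_of_lt (ht ht0)

end calculus

section main

variable {K : Type*} [Field K] [DecidableEq K] {A : ValuationSubring K} {ord : K → ℚ}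
  (W : Affine K)

theorem b_mem' (hW : IsIntegralW W A) : W.b₂ ∈ A ∧ W.b₄ ∈ A ∧ W.b₆ ∈ A ∧ W.b₈ ∈ A := by
  obtain ⟨h1, h2, h3, h4, h6⟩ := hW
  have h2' : (2 : K) ∈ A := ofNat_mem A 2
  have h4' : (4 : K) ∈ A := ofNat_mem A 4
  refine ⟨?_, ?_, ?_, ?_⟩
  · rw [WeierstrassCurve.b₂]
    exact add_mem (pow_mem h1 2) (mul_mem h4' h2)
  · rw [WeierstrassCurve.b₄]
    exact add_mem (mul_mem h2' h4) (mul_mem h1 h3)
  · rw [WeierstrassCurve.b₆]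
    exact add_mem (pow_mem h3 2) (mul_mem h4' h6)
  · rw [WeierstrassCurve.b₈]
    exact sub_mem (add_mem (sub_mem (add_mem (mul_mem (pow_mem h1 2) h6)
      (mul_mem (mul_mem h4' h2) h6)) (mul_mem (mul_mem h1 h3) h4)) (mul_mem h2 (pow_mem h3 2)))
      (pow_mem h4 2)

/-- `ord N(x₁,x₂) = 2 ord x₁ + 2 ord x₂` for poles `x₁, x₂`. -/
theorem ord_Nnum (hord : IsOrd A ord) (hW : IsIntegralW W A) {x₁ x₂ : K} (h₁ : x₁ ≠ 0)
    (h₂ : x₂ ≠ 0) (ha₁ : ord x₁ < 0) (ha₂ : ord x₂ < 0) :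
    Nnum W x₁ x₂ ≠ 0 ∧ ord (Nnum W x₁ x₂) = 2 * ord x₁ + 2 * ord x₂ := by
  obtain ⟨-, hb4, hb6, hb8⟩ := b_mem' W hW
  have hlead0 : x₁ ^ 2 * x₂ ^ 2 ≠ 0 := mul_ne_zero (pow_ne_zero 2 h₁) (pow_ne_zero 2 h₂)
  have hlead : ord (x₁ ^ 2 * x₂ ^ 2) = 2 * ord x₁ + 2 * ord x₂ := by
    rw [hord.map_mul (pow_ne_zero 2 h₁) (pow_ne_zero 2 h₂), hord.ord_sq h₁, hord.ord_sq h₂]
  have hx12 : ord (x₁ * x₂) = ord x₁ + ord x₂ := hord.map_mul h₁ h₂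
  have hdec : Nnum W x₁ x₂ =
      x₁ ^ 2 * x₂ ^ 2 + (-(W.b₄ * (x₁ * x₂)) - W.b₆ * (x₁ + x₂) - W.b₈) := by
    simp only [Nnum]; ring
  have htail : Gt ord (ord (x₁ ^ 2 * x₂ ^ 2)) (-(W.b₄ * (x₁ * x₂)) - W.b₆ * (x₁ + x₂) - W.b₈) := by
    rw [hlead]
    refine Gt.sub hord (Gt.sub hord (Gt.neg hord (Gt.mul_mem hord hb4 (Gt.of_lt ?_)))
      (Gt.mul_mem hord hb6 (Gt.add hord (Gt.of_lt ?_) (Gt.of_lt ?_)))) (Gt.of_mem hord hb8 ?_)
    · rw [hx12]; linarith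
    · linarith
    · linarith
    · linarith
  rw [hdec]
  obtain ⟨h0, he⟩ := dom hord hlead0 htail
  exact ⟨h0, by rw [he, hlead]⟩

/-- the case `ord x₁ < ord x₂`: `x(P ± Q)` both have the valuation of `x₂`. -/
theorem ord_of_lt (hord : IsOrd A ord) (h2 : IsU ord (2 : K)) (hW : IsIntegralW W A)
    {x₁ x₂ x₃ x₄ : K} (h₁ : x₁ ≠ 0) (h₂ : x₂ ≠ 0) (ha₁ : ord x₁ < 0) (ha₂ : ord x₂ < 0)
    (hlt : ord x₁ < ord x₂)
    (hN : x₃ * x₄ * (x₁ - x₂) ^ 2 = Nnum W x₁ x₂)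
    (hS : (x₃ + x₄) * (x₁ - x₂) ^ 2 = Snum W x₁ x₂) :
    x₃ ≠ 0 ∧ ord x₃ = ord x₂ ∧ x₄ ≠ 0 ∧ ord x₄ = ord x₂ := by
  obtain ⟨hb2, hb4, hb6, -⟩ := b_mem' W hW
  obtain ⟨hN0, hNord⟩ := ord_Nnum W hord hW h₁ h₂ ha₁ ha₂
  have hd0 : x₁ - x₂ ≠ 0 := by
    rw [sub_eq_add_neg]
    exact hord.add_ne_zero_of_lt (by rwa [hord.ord_neg])
  have hdord : ord (x₁ - x₂) = ord x₁ := hord.ord_sub_of_lt h₁ h₂ hlt
  have hs0 : x₁ + x₂ ≠ 0 := hord.add_ne_zero_of_lt hlt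
  have hsord : ord (x₁ + x₂) = ord x₁ := hord.ord_add_of_lt h₁ h₂ hlt
  have hx12 : ord (x₁ * x₂) = ord x₁ + ord x₂ := hord.map_mul h₁ h₂
  -- the sum numerator
  have hlead0 : 2 * (x₁ * x₂) * (x₁ + x₂) ≠ 0 :=
    mul_ne_zero (mul_ne_zero h2.1 (mul_ne_zero h₁ h₂)) hs0
  have hlead : ord (2 * (x₁ * x₂) * (x₁ + x₂)) = 2 * ord x₁ + ord x₂ := by
    rw [hord.map_mul (mul_ne_zero h2.1 (mul_ne_zero h₁ h₂)) hs0,
      hord.map_mul h2.1 (mul_ne_zero h₁ h₂), h2.2, hx12, hsord]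
    ring
  have hdec : Snum W x₁ x₂ = 2 * (x₁ * x₂) * (x₁ + x₂) +
      (W.b₂ * (x₁ * x₂) + W.b₄ * (x₁ + x₂) + W.b₆) := by
    simp only [Snum]; ring
  have htail : Gt ord (ord (2 * (x₁ * x₂) * (x₁ + x₂)))
      (W.b₂ * (x₁ * x₂) + W.b₄ * (x₁ + x₂) + W.b₆) := by
    rw [hlead]
    refine Gt.add hord (Gt.add hord (Gt.mul_mem hord hb2 (Gt.of_lt ?_))
      (Gt.mul_mem hord hb4 (Gt.of_lt ?_))) (Gt.of_mem hord hb6 ?_)
    · rw [hx12]; linarith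
    · rw [hsord]; linarith
    · linarith
  obtain ⟨hS0, hSord⟩ := dom hord hlead0 htail
  rw [← hdec] at hS0 hSord
  rw [hlead] at hSord
  -- the two roots
  have hd2 : (x₁ - x₂) ^ 2 ≠ 0 := pow_ne_zero 2 hd0
  have h34 : x₃ * x₄ ≠ 0 := by
    intro h0
    rw [h0, zero_mul] at hN
    exact hN0 hN.symm
  have h3 : x₃ ≠ 0 := left_ne_zero_of_mul h34
  have h4 : x₄ ≠ 0 := right_ne_zero_of_mul h34
  have hsum0 : x₃ + x₄ ≠ 0 := by
    intro h0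
    rw [h0, zero_mul] at hS
    exact hS0 hS.symm
  have hNo : ord (x₃ * x₄) = 2 * ord x₂ := by
    have := congrArg ord hN
    rw [hord.map_mul h34 hd2, hord.ord_sq hd0, hdord, hNord] at this
    linarith
  have hSo : ord (x₃ + x₄) = ord x₂ := by
    have := congrArg ord hS
    rw [hord.map_mul hsum0 hd2, hord.ord_sq hd0, hdord, hSord] at this
    linarith
  obtain ⟨e3, e4⟩ := hord.newton_b h3 h4 hNo (Or.inr hSo.ge)
  exact ⟨h3, e3, h4, e4⟩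

/-- the case `ord x₁ = ord x₂`: `x(P ± Q)` both have valuation at most that of `x₁`. -/
theorem ord_of_eq (hord : IsOrd A ord) (_h2 : IsU ord (2 : K)) (hW : IsIntegralW W A)
    {x₁ x₂ x₃ x₄ : K} (h₁ : x₁ ≠ 0) (h₂ : x₂ ≠ 0) (ha₁ : ord x₁ < 0)
    (heq : ord x₁ = ord x₂) (hne : x₁ ≠ x₂)
    (hN : x₃ * x₄ * (x₁ - x₂) ^ 2 = Nnum W x₁ x₂)
    (hS : (x₃ + x₄) * (x₁ - x₂) ^ 2 = Snum W x₁ x₂) :
    x₃ ≠ 0 ∧ ord x₃ ≤ ord x₁ ∧ x₄ ≠ 0 ∧ ord x₄ ≤ ord x₁ := by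
  obtain ⟨hb2, hb4, hb6, -⟩ := b_mem' W hW
  have ha₂ : ord x₂ < 0 := heq ▸ ha₁
  obtain ⟨hN0, hNord⟩ := ord_Nnum W hord hW h₁ h₂ ha₁ ha₂
  have hd0 : x₁ - x₂ ≠ 0 := sub_ne_zero.2 hne
  have hdord : ord x₁ ≤ ord (x₁ - x₂) := hord.le_ord_sub_of_le h₁ h₂ hd0 le_rfl heq.le
  have hx12 : ord (x₁ * x₂) = ord x₁ + ord x₂ := hord.map_mul h₁ h₂
  -- the sum numerator has valuation `≥ 3 ord x₁`
  have hsGe : Ge ord (ord x₁) (x₁ + x₂) := Ge.add hord (Ge.of_le le_rfl) (Ge.of_le heq.le)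
  have hSge : Ge ord (3 * ord x₁) (Snum W x₁ x₂) := by
    have hdec : Snum W x₁ x₂ = 2 * (x₁ * x₂) * (x₁ + x₂) +
        W.b₂ * (x₁ * x₂) + W.b₄ * (x₁ + x₂) + W.b₆ := by
      simp only [Snum]; ring
    rw [hdec]
    refine Ge.add hord (Ge.add hord (Ge.add hord ?_ ?_) ?_) ?_
    · have h5 : Ge ord (2 * ord x₁) (2 * (x₁ * x₂)) :=
        Ge.mul_mem hord (ofNat_mem A 2) (Ge.of_le (by rw [hx12]; linarith))
      have := Ge.mul hord h5 hsGe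
      exact this.mono (by linarith)
    · exact (Ge.mul_mem hord hb2 (Ge.of_le (by rw [hx12]; linarith))).mono (le_refl _)
    · exact (Ge.mul_mem hord hb4 hsGe).mono (by linarith)
    · exact Ge.of_mem hord hb6 (by linarith)
  have hd2 : (x₁ - x₂) ^ 2 ≠ 0 := pow_ne_zero 2 hd0
  have h34 : x₃ * x₄ ≠ 0 := by
    intro h0
    rw [h0, zero_mul] at hN
    exact hN0 hN.symm
  have h3 : x₃ ≠ 0 := left_ne_zero_of_mul h34
  have h4 : x₄ ≠ 0 := right_ne_zero_of_mul h34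
  have hNo : ord (x₃ * x₄) = 4 * ord x₁ - 2 * ord (x₁ - x₂) := by
    have := congrArg ord hN
    rw [hord.map_mul h34 hd2, hord.ord_sq hd0, hNord] at this
    linarith
  have hSo : x₃ + x₄ = 0 ∨ ord (x₃ * x₄) - ord x₁ ≤ ord (x₃ + x₄) := by
    rcases eq_or_ne (x₃ + x₄) 0 with h0 | hsum0
    · exact Or.inl h0
    · right
      have hS0 : Snum W x₁ x₂ ≠ 0 := by
        rw [← hS]; exact mul_ne_zero hsum0 hd2
      have := congrArg ord hS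
      rw [hord.map_mul hsum0 hd2, hord.ord_sq hd0] at this
      have h6 := hSge hS0
      rw [hNo]
      linarith
  obtain ⟨e3, e4⟩ := hord.newton_d (c := ord x₁) h3 h4 (by rw [hNo]; linarith) hSo
  exact ⟨h3, e3, h4, e4⟩

/-- doubling a pole: `x(2P)` has the same valuation as `x(P)`. -/
theorem ord_dbl (hord : IsOrd A ord) (h2 : IsU ord (2 : K)) (hW : IsIntegralW W A)
    {x₁ x₃ : K} (h₁ : x₁ ≠ 0) (ha₁ : ord x₁ < 0)
    (h : x₃ * Fpoly W x₁ = Phi2 W x₁) : x₃ ≠ 0 ∧ ord x₃ = ord x₁ := by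
  obtain ⟨hb2, hb4, hb6, hb8⟩ := b_mem' W hW
  have h4U : IsU ord (4 : K) := by
    have : (4 : K) = 2 * 2 := by norm_num
    rw [this]; exact hord.IsU_mul h2 h2
  -- `Φ₂`
  have hPlead0 : x₁ ^ 4 ≠ 0 := pow_ne_zero 4 h₁
  have hPlead : ord (x₁ ^ 4) = 4 * ord x₁ := by rw [hord.ord_pow h₁]; norm_num
  have hPdec : Phi2 W x₁ = x₁ ^ 4 + (-(W.b₄ * x₁ ^ 2) - W.b₆ * (2 * x₁) - W.b₈) := by
    simp only [Phi2]; ring
  have hPtail : Gt ord (ord (x₁ ^ 4)) (-(W.b₄ * x₁ ^ 2) - W.b₆ * (2 * x₁) - W.b₈) := by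
    rw [hPlead]
    refine Gt.sub hord (Gt.sub hord (Gt.neg hord (Gt.mul_mem hord hb4 (Gt.of_lt ?_)))
      (Gt.mul_mem hord hb6 (Gt.of_lt ?_))) (Gt.of_mem hord hb8 ?_)
    · rw [hord.ord_sq h₁]; linarith
    · rw [hord.map_mul h2.1 h₁, h2.2]; linarith
    · linarith
  obtain ⟨hP0, hPord⟩ := dom hord hPlead0 hPtail
  rw [← hPdec] at hP0 hPord
  rw [hPlead] at hPord
  -- `F`
  have hFlead0 : 4 * x₁ ^ 3 ≠ 0 := mul_ne_zero h4U.1 (pow_ne_zero 3 h₁)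
  have hFlead : ord (4 * x₁ ^ 3) = 3 * ord x₁ := by
    rw [hord.map_mul h4U.1 (pow_ne_zero 3 h₁), h4U.2, hord.ord_pow h₁]; norm_num
  have hFdec : Fpoly W x₁ = 4 * x₁ ^ 3 + (W.b₂ * x₁ ^ 2 + W.b₄ * (2 * x₁) + W.b₆) := by
    simp only [Fpoly]; ring
  have hFtail : Gt ord (ord (4 * x₁ ^ 3)) (W.b₂ * x₁ ^ 2 + W.b₄ * (2 * x₁) + W.b₆) := by
    rw [hFlead]
    refine Gt.add hord (Gt.add hord (Gt.mul_mem hord hb2 (Gt.of_lt ?_))
      (Gt.mul_mem hord hb4 (Gt.of_lt ?_))) (Gt.of_mem hord hb6 ?_)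
    · rw [hord.ord_sq h₁]; linarith
    · rw [hord.map_mul h2.1 h₁, h2.2]; linarith
    · linarith
  obtain ⟨hF0, hFord⟩ := dom hord hFlead0 hFtail
  rw [← hFdec] at hF0 hFord
  rw [hFlead] at hFord
  have h30 : x₃ ≠ 0 := by
    intro h0
    rw [h0, zero_mul] at h
    exact hP0 h.symm
  refine ⟨h30, ?_⟩
  have := congrArg ord h
  rw [hord.map_mul h30 hF0, hFord, hPord] at this
  linarith

theorem mem_poleSet_some_iff' {b : ℚ} {x y : K} (h : W.Nonsingular x y) :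
    Point.some x y h ∈ poleSet W ord b ↔ x ≠ 0 ∧ ord x ≤ b := by
  constructor
  · rintro (h0 | ⟨x', y', h', he, hx0, hle⟩)
    · exact (Point.some_ne_zero h h0).elim
    · rw [Point.some.injEq] at he
      obtain ⟨rfl, rfl⟩ := he
      exact ⟨hx0, hle⟩
  · rintro ⟨hx0, hle⟩
    exact Or.inr ⟨x, y, h, rfl, hx0, hle⟩

theorem poleSet_neg_mem {b : ℚ} {P : W.Point} (hP : P ∈ poleSet W ord b) :
    -P ∈ poleSet W ord b := by
  rcases hP with rfl | ⟨x, y, h, rfl, hx0, hle⟩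
  · exact Or.inl neg_zero
  · rw [Point.neg_some]
    exact Or.inr ⟨x, _, _, rfl, hx0, hle⟩

/-- adding two affine poles with different `x`-coordinates. -/
theorem add_mem_of_ne (hord : IsOrd A ord) (h2 : IsU ord (2 : K)) (hW : IsIntegralW W A)
    {b : ℚ} (hb : b < 0) {x₁ y₁ x₂ y₂ : K} (h₁ : W.Nonsingular x₁ y₁) (h₂ : W.Nonsingular x₂ y₂)
    (hx₁ : x₁ ≠ 0) (ho₁ : ord x₁ ≤ b) (hx₂ : x₂ ≠ 0) (ho₂ : ord x₂ ≤ b) (hne : x₁ ≠ x₂) :
    Point.some x₁ y₁ h₁ + Point.some x₂ y₂ h₂ ∈ poleSet W ord b := by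
  obtain ⟨x₃, y₃, x₄, y₄, h₃, h₄, hadd, -, hN, hS, -, -⟩ := xadd W h2.1 h₁ h₂ hne
  rw [hadd, mem_poleSet_some_iff']
  rcases lt_trichotomy (ord x₁) (ord x₂) with hlt | heq | hgt
  · obtain ⟨h30, e3, -, -⟩ := ord_of_lt W hord h2 hW hx₁ hx₂ (by linarith) (by linarith) hlt hN hS
    exact ⟨h30, by rw [e3]; exact ho₂⟩
  · obtain ⟨h30, e3, -, -⟩ := ord_of_eq W hord h2 hW hx₁ hx₂ (by linarith) heq hne hN hS
    exact ⟨h30, e3.trans ho₁⟩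
  · -- swap the roles of the two points
    have hN' : x₃ * x₄ * (x₂ - x₁) ^ 2 = Nnum W x₂ x₁ := by
      have : Nnum W x₂ x₁ = Nnum W x₁ x₂ := by simp only [Nnum]; ring
      rw [this, ← hN]; ring
    have hS' : (x₃ + x₄) * (x₂ - x₁) ^ 2 = Snum W x₂ x₁ := by
      have : Snum W x₂ x₁ = Snum W x₁ x₂ := by simp only [Snum]; ring
      rw [this, ← hS]; ring
    obtain ⟨h30, e3, -, -⟩ :=
      ord_of_lt W hord h2 hW hx₂ hx₁ (by linarith) (by linarith) hgt hN' hS'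
    exact ⟨h30, by rw [e3]; exact ho₁⟩

theorem poleSet_add_mem (hord : IsOrd A ord) (h2 : IsU ord (2 : K)) (hW : IsIntegralW W A)
    {b : ℚ} (hb : b < 0) {P Q : W.Point} (hP : P ∈ poleSet W ord b) (hQ : Q ∈ poleSet W ord b) :
    P + Q ∈ poleSet W ord b := by
  rcases hP with rfl | ⟨x₁, y₁, h₁, rfl, hx₁, ho₁⟩
  · rw [zero_add]; exact hQ
  rcases hQ with rfl | ⟨x₂, y₂, h₂, rfl, hx₂, ho₂⟩
  · rw [add_zero]; exact Or.inr ⟨x₁, y₁, h₁, rfl, hx₁, ho₁⟩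
  by_cases hne : x₁ = x₂
  · subst hne
    rcases Y_eq_of_X_eq h₁.1 h₂.1 rfl with hy | hy
    · subst hy
      -- doubling
      by_cases hY : Yc W x₁ y₁ = 0
      · exact Or.inl (xdbl_zero W h2.1 h₁ hY)
      · obtain ⟨x₃, y₃, h₃, hdbl, hx₃⟩ := xdbl W h2.1 h₁ hY
        rw [hdbl, mem_poleSet_some_iff']
        obtain ⟨h30, e3⟩ := ord_dbl W hord h2 hW hx₁ (by linarith) hx₃
        exact ⟨h30, by rw [e3]; exact ho₁⟩
    · -- opposite points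
      left
      subst hy
      rw [← Point.neg_some h₂, neg_add_cancel]
  · exact add_mem_of_ne W hord h2 hW hb h₁ h₂ hx₁ ho₁ hx₂ ho₂ hne

theorem mem_E1_iff_exists {P : W.Point} : P ∈ E1 W ord ↔ ∃ b : ℚ, b < 0 ∧ P ∈ poleSet W ord b := by
  constructor
  · rintro (rfl | ⟨x, y, h, rfl, hx0, hlt⟩)
    · exact ⟨-1, by norm_num, Or.inl rfl⟩
    · exact ⟨ord x, hlt, Or.inr ⟨x, y, h, rfl, hx0, le_rfl⟩⟩
  · rintro ⟨b, hb, (rfl | ⟨x, y, h, rfl, hx0, hle⟩)⟩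
    · exact Or.inl rfl
    · exact Or.inr ⟨x, y, h, rfl, hx0, lt_of_le_of_lt hle hb⟩

theorem poleSet_mono {b b' : ℚ} (hbb : b ≤ b') {P : W.Point} (hP : P ∈ poleSet W ord b) :
    P ∈ poleSet W ord b' := by
  rcases hP with rfl | ⟨x, y, h, rfl, hx0, hle⟩
  · exact Or.inl rfl
  · exact Or.inr ⟨x, y, h, rfl, hx0, hle.trans hbb⟩

theorem E1_add_mem (hord : IsOrd A ord) (h2 : IsU ord (2 : K)) (hW : IsIntegralW W A)
    {P Q : W.Point} (hP : P ∈ E1 W ord) (hQ : Q ∈ E1 W ord) : P + Q ∈ E1 W ord := by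
  obtain ⟨b₁, hb₁, hP'⟩ := (mem_E1_iff_exists W).1 hP
  obtain ⟨b₂, hb₂, hQ'⟩ := (mem_E1_iff_exists W).1 hQ
  refine (mem_E1_iff_exists W).2 ⟨max b₁ b₂, max_lt hb₁ hb₂, ?_⟩
  exact poleSet_add_mem W hord h2 hW (max_lt hb₁ hb₂)
    (poleSet_mono W (le_max_left _ _) hP') (poleSet_mono W (le_max_right _ _) hQ')

theorem E1_neg_mem {P : W.Point} (hP : P ∈ E1 W ord) : -P ∈ E1 W ord := by
  obtain ⟨b, hb, hP'⟩ := (mem_E1_iff_exists W).1 hP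
  exact (mem_E1_iff_exists W).2 ⟨b, hb, poleSet_neg_mem W hP'⟩

end main

end PoleB

end Fermat.Agent.S05
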