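/-
S05 package E complete (helper33): `E₁` has no `p`-torsion, with the exact skeleton signature, in
the sub-namespace `Fermat.Agent.S05.PoleB` (built on the backup `PoleB.lean` of package E1 and on
`PoleTorsion.lean`).  No sorry.
-/
import Fermat.Agent.S05.PoleB
import Fermat.Agent.S05.PoleTorsion

set_option autoImplicit false

namespace Fermat.Agent.S05

namespace PoleB

open WeierstrassCurve WeierstrassCurve.Affine

variable {K : Type*} [Field K] [DecidableEq K] {A : ValuationSubring K} {ord : K → ℚ}
  (W : Affine K)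

/-- no `p`-torsion in `E₁` for an odd prime `p` which is a unit of `A`. -/
theorem E1_torsion_free (hord : IsOrd A ord) (h2 : IsU ord (2 : K)) (hW : IsIntegralW W A)
    {p : ℕ} (hp : p.Prime) (hp2 : p ≠ 2) (hpu : IsU ord (p : K))
    {P : W.Point} (hP : P ∈ E1 W ord) (hpP : (p : ℤ) • P = 0) : P = 0 :=
  E2.torsion_free_of hord h2 hW
    (fun hb _ _ hP hQ => poleSet_add_mem W hord h2 hW hb hP hQ) hp hp2 hpu hP hpP

end PoleB

end Fermat.Agent.S05
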