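/-
S05 helper (helper33): a total "reduction map" `resK A : K → ResidueField A` for a valuation
subring `A` of a field `K` (junk value `0` outside `A`), which is additive and multiplicative on
`A`, kills exactly `A.nonunits`, and commutes with natural-number casts.
Useful to turn congruences modulo the maximal ideal into equalities in a field.  No sorry.
-/
import Mathlib.RingTheory.Valuation.ValuationSubring
import Mathlib.RingTheory.LocalRing.ResidueField.Basic

set_option autoImplicit false

namespace Fermat.Agent.S05

open Classical in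
/-- reduction modulo the maximal ideal of `A`, extended by `0` outside `A`. -/
noncomputable def resK {K : Type*} [Field K] (A : ValuationSubring K) (x : K) :
    IsLocalRing.ResidueField A :=
  if h : x ∈ A then IsLocalRing.residue A ⟨x, h⟩ else 0

namespace resK

variable {K : Type*} [Field K] {A : ValuationSubring K}

theorem eq_residue {x : K} (hx : x ∈ A) : resK A x = IsLocalRing.residue A ⟨x, hx⟩ := by
  simp [resK, hx]

theorem add {x y : K} (hx : x ∈ A) (hy : y ∈ A) : resK A (x + y) = resK A x + resK A y := by
  rw [eq_residue hx, eq_residue hy, eq_residue (A.add_mem _ _ hx hy), ← map_add]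
  rfl

theorem mul {x y : K} (hx : x ∈ A) (hy : y ∈ A) : resK A (x * y) = resK A x * resK A y := by
  rw [eq_residue hx, eq_residue hy, eq_residue (A.mul_mem _ _ hx hy), ← map_mul]
  rfl

theorem neg {x : K} (hx : x ∈ A) : resK A (-x) = - resK A x := by
  rw [eq_residue hx, eq_residue (A.neg_mem _ hx), ← map_neg]
  rfl

theorem sub {x y : K} (hx : x ∈ A) (hy : y ∈ A) : resK A (x - y) = resK A x - resK A y := by
  rw [sub_eq_add_neg, add hx (A.neg_mem _ hy), neg hy, sub_eq_add_neg]

theorem one : resK A (1 : K) = 1 := by
  rw [eq_residue A.one_mem]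
  exact map_one _

theorem zero : resK A (0 : K) = 0 := by
  rw [eq_residue A.zero_mem]
  exact map_zero _

theorem pow {x : K} (hx : x ∈ A) (n : ℕ) : resK A (x ^ n) = resK A x ^ n := by
  induction n with
  | zero => simp [one]
  | succ k ih => rw [pow_succ, mul (A.pow_mem hx k) hx, ih, pow_succ]

theorem natCast_mem (n : ℕ) : (n : K) ∈ A := by
  induction n with
  | zero => simp [A.zero_mem]
  | succ k ih =>
    rw [Nat.cast_succ]
    exact A.add_mem _ _ ih A.one_mem

theorem natCast (n : ℕ) : resK A (n : K) = (n : IsLocalRing.ResidueField A) := by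
  induction n with
  | zero => simpa using zero (A := A)
  | succ k ih =>
    rw [Nat.cast_succ, add (natCast_mem k) A.one_mem, ih, one, Nat.cast_succ]

theorem ofNat_mem (n : ℕ) [n.AtLeastTwo] : (OfNat.ofNat n : K) ∈ A := by
  have := natCast_mem (A := A) (OfNat.ofNat n)
  rwa [Nat.cast_ofNat] at this

theorem eq_zero_iff {x : K} (hx : x ∈ A) : resK A x = 0 ↔ x ∈ A.nonunits := by
  rw [eq_residue hx, IsLocalRing.residue_eq_zero_iff, ← ValuationSubring.coe_mem_nonunits_iff]

theorem eq_zero_of_mem_nonunits {x : K} (hx : x ∈ A.nonunits) : resK A x = 0 :=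
  (eq_zero_iff (ValuationSubring.nonunits_subset hx)).2 hx

/-- congruent elements have the same reduction -/
theorem eq_of_sub_mem {x y : K} (hx : x ∈ A) (hy : y ∈ A) (h : x - y ∈ A.nonunits) :
    resK A x = resK A y := by
  have := eq_zero_of_mem_nonunits h
  rw [sub hx hy] at this
  exact sub_eq_zero.1 this

theorem sub_mem_of_eq {x y : K} (hx : x ∈ A) (hy : y ∈ A) (h : resK A x = resK A y) :
    x - y ∈ A.nonunits := by
  rw [← eq_zero_iff (sub_mem hx hy), sub hx hy, h, sub_self]

/-- `x + (nonunit)` reduces to the reduction of `x` -/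
theorem add_nonunit {x e : K} (hx : x ∈ A) (he : e ∈ A.nonunits) : resK A (x + e) = resK A x := by
  rw [add hx (ValuationSubring.nonunits_subset he), eq_zero_of_mem_nonunits he, add_zero]

end resK

end Fermat.Agent.S05
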